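/-
Project FF (statements S19, then S32): `J₀(N)[ℓ^k]`, `ℓ ∤ N`, is the group of `Q̄`-points of a finite
flat commutative group scheme over `ℤ_(ℓ)`.  THE SEAMS, part 1: the top layer and the abstract
cells (architect: helper27; study #1667, lead brief #22).  Prefix `ff_`.

Conventions: `ff_Qb = Q̄`, `ff_GQ = Gal(Q̄/ℚ)`, `ff_R ℓ = ℤ_(ℓ)` (`GaloisRep.ratLocalizedAt ℓ`),
`M` a finite `G_ℚ`-module, functions `M → Q̄` with the pointwise `ℤ_(ℓ)`-algebra structure.

* `ff_IsOrder ℓ M H`        : `H ⊆ Map(M, Q̄)` is a `G_ℚ`-equivariant, finite, point-separating,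
                              `Δ`-closed `ℤ_(ℓ)`-subalgebra (`Δ φ (x, y) = φ (x + y)`);
* `ff_SeamHO`               : **[HO]** such an `H` IS a finite flat cocommutative Hopf algebra whose
                              `Q̄`-points are `M`, equivariantly (pure algebra, Mathlib only);
* `ff_IsLocalOrder ℓ A M H₁`: the same kind of object, but only LOCALLY at a place `A` of `Q̄` over
                              `ℓ`: `H₁` is a ring of `A`-valued functions, equivariant under
                              `Gal(Q̄/L₁)` for SOME field `L₁` unramified at `A`;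
* `ff_SeamDESC`             : **[DESC]** a local order at one place gives a global order (conjugate
                              by the decomposition group, descend along the inertia field —
                              étale — and the decomposition field — `e = f = 1`, density);
* `ff_SeamLocal N ℓ k`      : **[LOC]** (the geometric content) `J₀(N)[ℓ^k]` has a local order at
                              every place over `ℓ ∤ N`; split into [GEN] + [ADD] in `FF/SeamsGeom.lean`;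
* `ff_SeamRK1`              : **[RK]** finite modules of constant fibre dimension over a reduced
                              semilocal ring are free (abstract; consumed inside [ADD]).
`FF/Assembly.lean`: `ff_SeamHO → ff_SeamDESC → ff_SeamLocal N ℓ k → ` the frozen statement S19
(openness of stabilisers `egs_exists_fixing` and finiteness `tj_finite` are already on main).
-/
import Mathlib
import Fermat.Prelude.Def_ModularCurve_ArithmeticGalois
import Fermat.Prelude.Def_FLTPrelim_Ramification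
import Fermat.Prelude.Def_GaloisRep_Flat

set_option autoImplicit false

noncomputable section

namespace Fermat.Agent.FF

open ModularCurve AlgebraicCurve
open scoped TensorProduct

/-- `Q̄` -/
abbrev ff_Qb : Type := AlgebraicClosure ℚ

/-- `G_ℚ` -/
abbrev ff_GQ : Type := ff_Qb ≃ₐ[ℚ] ff_Qb

/-- `ℤ_(ℓ)` -/
abbrev ff_R (ℓ : ℕ) : Subring ℚ := GaloisRep.ratLocalizedAt ℓ

/-! ### Orders and [HO] -/

/-- `H ⊆ Map(M, Q̄)` is an **order**: a `G_ℚ`-equivariant, finite, point-separating `ℤ_(ℓ)`-algebra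
of functions which is closed under the comultiplication `Δ φ (x, y) = φ (x + y)`. -/
structure ff_IsOrder (ℓ : ℕ) (M : Type) [AddCommGroup M] [DistribMulAction ff_GQ M]
    (H : Subalgebra (ff_R ℓ) (M → ff_Qb)) : Prop where
  equiv : ∀ φ ∈ H, ∀ (σ : ff_GQ) (x : M), φ (σ • x) = σ (φ x)
  fin : Module.Finite (ff_R ℓ) H
  sep : ∀ x y : M, x ≠ y → ∃ φ ∈ H, φ x ≠ φ y
  comul : ∀ φ ∈ H, ∃ (n : ℕ) (a b : Fin n → M → ff_Qb), (∀ i, a i ∈ H) ∧ (∀ i, b i ∈ H) ∧
    ∀ x y : M, φ (x + y) = ∑ i, a i x * b i y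

/-- the conclusion of S19 / `IsFlatAt` for an abstract finite `G_ℚ`-module `M`. -/
def ff_HasHopfModel (ℓ : ℕ) (M : Type) [AddCommGroup M] [DistribMulAction ff_GQ M] : Prop :=
  ∃ (H' : Type) (_ : CommRing H') (_ : HopfAlgebra (ff_R ℓ) H'),
    Module.Finite (ff_R ℓ) H' ∧ Module.Flat (ff_R ℓ) H' ∧ Coalgebra.IsCocomm (ff_R ℓ) H' ∧
    ∃ e : WithConv (H' →ₐ[ff_R ℓ] ff_Qb) ≃ M,
      (∀ f g, e (f * g) = e f + e g) ∧
      ∀ (σ : ff_GQ) (f g : WithConv (H' →ₐ[ff_R ℓ] ff_Qb)),
        (∀ h : H', g h = σ (f h)) → e g = σ • e f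

/-- **[HO]** an order is a finite flat cocommutative Hopf algebra with `Q̄`-points `M`
(helper4, `FF/HopfOrder.lean`, `ffh_main`). -/
def ff_SeamHO : Prop :=
  ∀ (ℓ : ℕ) [Fact ℓ.Prime] (M : Type) [AddCommGroup M] [Finite M] [DistribMulAction ff_GQ M]
    (H : Subalgebra (ff_R ℓ) (M → ff_Qb)), ff_IsOrder ℓ M H → ff_HasHopfModel ℓ M

/-! ### Local orders and [DESC] -/

/-- `H₁ ⊆ Map(M, Q̄)` is a **local order at the place `A`** of `Q̄` (over `ℓ`): a ring of `A`-valued
functions, equivariant under `Gal(Q̄/L₁)` for some subfield `L₁ ⊆ Q̄` (not necessarily finite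
over `ℚ`) in which `ℓ` is still a uniformiser of `A ∩ L₁`, separating the points of `M` and closed
under the comultiplication. -/
structure ff_IsLocalOrder (ℓ : ℕ) (A : ValuationSubring ff_Qb) (M : Type) [AddCommGroup M]
    [DistribMulAction ff_GQ M] (H₁ : Subring (M → ff_Qb)) : Prop where
  unr : ∃ L₁ : IntermediateField ℚ ff_Qb,
    (∀ a ∈ L₁, a ∈ A.nonunits → a / (ℓ : ff_Qb) ∈ A) ∧
    ∀ φ ∈ H₁, ∀ σ ∈ L₁.fixingSubgroup, ∀ x : M, φ (σ • x) = σ (φ x)
  int : ∀ φ ∈ H₁, ∀ x : M, φ x ∈ A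
  sep : ∀ x y : M, x ≠ y → ∃ φ ∈ H₁, φ x ≠ φ y
  comul : ∀ φ ∈ H₁, ∃ (n : ℕ) (a b : Fin n → M → ff_Qb), (∀ i, a i ∈ H₁) ∧ (∀ i, b i ∈ H₁) ∧
    ∀ x y : M, φ (x + y) = ∑ i, a i x * b i y

/-- **[DESC]** a local order at ONE place over `ℓ` gives an order.
[`Hsh := (A ∩ Q̄^I)[σ H₁ σ⁻¹ : σ ∈ D]` (`D ⊇ I` the decomposition and inertia groups of `A`) is
`D`-stable, `A`-valued, `I`-equivariant, `Δ`-closed and finite over the DVR `A ∩ Q̄^I`;
`H := Hsh ∩ Map_{G_ℚ}(M, Q̄)`; `Hsh = (A ∩ Q̄^I) · H` by étale descent along `Q̄^I / Q̄^D` and by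
density of `ℤ_(ℓ)` in `A ∩ Q̄^D` (`e = f = 1`).] -/
def ff_SeamDESC : Prop :=
  ∀ (ℓ : ℕ) [Fact ℓ.Prime] (A : ValuationSubring ff_Qb), A.LiesOverPrime ℓ →
  ∀ (M : Type) [AddCommGroup M] [Finite M] [DistribMulAction ff_GQ M],
    (∀ x : M, ∃ K : IntermediateField ℚ ff_Qb, FiniteDimensional ℚ K ∧
      ∀ σ ∈ K.fixingSubgroup, σ • x = x) →
    ∀ H₁ : Subring (M → ff_Qb), ff_IsLocalOrder ℓ A M H₁ →
      ∃ H : Subalgebra (ff_R ℓ) (M → ff_Qb), ff_IsOrder ℓ M H

/-! ### The torsion of `J₀(N)` as a `G_ℚ`-module; [LOC] -/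

/-- the `G_ℚ`-action on the `m`-torsion of `J₀(N)(Q̄)` -/
instance ff_instTorsAction (N : ℕ) [NeZero N] (m : ℤ) :
    DistribMulAction ff_GQ ↥(Submodule.torsionBy ℤ (JZero N) m) where
  smul σ x := ⟨σ • (x : JZero N), by
    have hx := x.2
    rw [Submodule.mem_torsionBy_iff] at hx ⊢
    have h := map_zsmul (DistribSMul.toAddMonoidHom (JZero N) σ) m (x : JZero N)
    simp only [DistribSMul.toAddMonoidHom_apply] at h
    rw [← h, hx, smul_zero]⟩
  one_smul x := Subtype.ext (one_smul _ _)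
  mul_smul σ τ x := Subtype.ext (mul_smul _ _ _)
  smul_zero σ := Subtype.ext (smul_zero _)
  smul_add σ x y := Subtype.ext (smul_add _ _ _)

theorem ff_coe_smul_tors (N : ℕ) [NeZero N] (m : ℤ) (σ : ff_GQ)
    (x : ↥(Submodule.torsionBy ℤ (JZero N) m)) :
    ((σ • x : ↥(Submodule.torsionBy ℤ (JZero N) m)) : JZero N) = σ • (x : JZero N) := rfl

/-- **[LOC]** (the geometric content of S19) at every place `A` of `Q̄` over a prime `ℓ ∤ N` the
`ℓ^k`-torsion of `J₀(N)` has a local order.  (`FF/SeamsGeom.lean`: admissible data [GEN], the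
functions `c_i(a)(z)` = coefficients of the characteristic polynomial of a chart function `a` on the
unique effective divisor `D_z ∼ z + E₀`, and `Δ`-closedness by two-step residuation [ADD].) -/
def ff_SeamLocal (N : ℕ) [NeZero N] (ℓ : ℕ) (k : ℕ) : Prop :=
  ∀ A : ValuationSubring ff_Qb, A.LiesOverPrime ℓ →
    ∃ H₁ : Subring (↥(Submodule.torsionBy ℤ (JZero N) ((ℓ : ℤ) ^ k)) → ff_Qb),
      ff_IsLocalOrder ℓ A ↥(Submodule.torsionBy ℤ (JZero N) ((ℓ : ℤ) ^ k)) H₁

/-! ### [RK] -/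

/-- **[RK1]** a finite module over a reduced ring with finitely many maximal ideals whose fibre
dimension is the same number `d` at all maximal and all minimal primes is free of rank `d`
(helper13, `FF/Rank.lean`). -/
def ff_SeamRK1 : Prop :=
  ∀ (B : Type) [CommRing B] [IsReduced B] [Finite (MaximalSpectrum B)] (M : Type)
    [AddCommGroup M] [Module B M] [Module.Finite B M] (d : ℕ),
    (∀ (𝔪 : Ideal B) [𝔪.IsMaximal], Module.finrank (B ⧸ 𝔪) ((B ⧸ 𝔪) ⊗[B] M) = d) →
    (∀ (𝔭 : Ideal B) (_ : 𝔭 ∈ minimalPrimes B) [𝔭.IsPrime],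
      Module.finrank 𝔭.ResidueField (𝔭.ResidueField ⊗[B] M) = d) →
    Module.Free B M ∧ Module.finrank B M = d

end Fermat.Agent.FF
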