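/-
Project FF (S19), THE SEAMS, part 2: the split of the geometric seam `ff_SeamLocal` (architect:
helper27).  Prefix `ff_`.

`ff_SeamLocal N ℓ k  ⟸  ff_SeamADD ∧ ff_SeamGAL ∧ ff_SeamINST N ℓ k`   (`FF/AssemblyGeom.lean`).

* **the abstract package** `ff_IsPkg` (pure commutative algebra, no modular curves): a discrete
  valuation ring `O` with uniformiser `π`, full residue field `κ`, an algebraically closed field
  `Kb ⊇ O`; an affine chart `𝒜 / O` (finite type, flat, Dedekind fibres `κ ⊗ 𝒜`, `Kb ⊗ 𝒜`) of a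
  relative curve = complement of the "cusps"; the pole-order filtration `Λ m ⊆ 𝒜` (finite, saturated,
  multiplicative, of rank `m n + 1 - g`); the algebra `C` of the cuspidal divisor (finite free of
  rank `n`) with the leading-term maps `lead m : Λ m → C` (`ker = Λ (m-1)`, multiplicative, onto for
  `m ≥ m0`); Riemann's theorem on the special fibre (`Λ m → 𝒜_κ / I` is onto when
  `m n ≥ colength I + c0`).
* the fibrewise vocabulary over an `O`-field `k'` (`= Kb` or `κ`): `ff_incl`, `ff_leadk`, `ff_pt`,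
  `ff_ptIdeal` (the ideal of an effective divisor `P₁ + ⋯ + P_g` off the cusps), `ff_LinEq`
  (linear equivalence `D₁ + D₂ ∼ D₃ + D₄` in ideal form, with unit leading terms), `ff_Uniq`
  (`l(D) = 1` in ideal form).
* **`ff_SeamADD`** — THE ABSTRACT RESIDUATION THEOREM ("addition on `Sym^g` is regular over `O`").
  Data: a finite abelian group `M`, for every `z ∈ M` points `PK z i : 𝒜 → Kb` (`i < g`) with values
  in a subring `Av ⊆ Kb` and reductions `Pκ z i : 𝒜 → κ`, sections `P0 i : 𝒜 → O` (the divisor `E₀`),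
  such that in BOTH fibres `D_{x+y} + E₀ ∼ D_x + D_y` and `l(D_z) = 1`; `H := O[e_i(a(P_z)) : a, i]`
  (`ff_symAlg`) finite over `O`, with `Kb ⊗ H ↪ Map(M, Kb)` and all maximal ideals of the form
  `{φ | res (φ z) = 0}`.  Conclusion: `Δ (e_i(a)) ∈ H ⊗ H`.
* **`ff_SeamGAL`** — abstract Galois theory: an algebra of `A`-valued, `Gal(Q̄/L₁)`-equivariant
  functions on a finite Galois module is finite over `A ∩ L₁`, etc. (the three hypotheses on `H`).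
* **`ff_SeamINST N ℓ k`** — the geometric instance: an unramified level `L₁`, the package for the
  `j`-chart of `X₀(N)` over `A ∩ L₁`, the divisors `D_z ∼ z + E₀` for `z ∈ J₀(N)[ℓ^k]`
  ([GEN] + node E + [FB] + [DICT]).
-/
import Mathlib
import Fermat.Agent.FF.Seams

set_option autoImplicit false

noncomputable section

namespace Fermat.Agent.FF

open scoped TensorProduct

/-! ### the fibrewise vocabulary -/

section Fibre

variable (O : Type) [CommRing O] (𝒜 : Type) [CommRing 𝒜] [Algebra O 𝒜]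
  (C : Type) [CommRing C] [Algebra O C]
  (k : Type) [Field k] [Algebra O k]
  (Λ : ℕ → Submodule O 𝒜) (lead : ∀ m, ↥(Λ m) →ₗ[O] C)

/-- the map `k ⊗ Λ m → k ⊗ 𝒜` (injective in a package; `k ⊗ Λ m = L(m · cusps)` on the fibre) -/
def ff_incl (m : ℕ) : k ⊗[O] ↥(Λ m) →ₗ[k] k ⊗[O] 𝒜 := (Λ m).subtype.baseChange k

/-- the leading term at the cusps on the fibre over `k` -/
def ff_leadk (m : ℕ) : k ⊗[O] ↥(Λ m) →ₗ[k] k ⊗[O] C := (lead m).baseChange k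

variable {O 𝒜}

/-- the `k`-point of the fibre `k ⊗ 𝒜` defined by an `O`-algebra map `𝒜 → k` -/
def ff_pt (p : 𝒜 →ₐ[O] k) : k ⊗[O] 𝒜 →ₐ[k] k :=
  Algebra.TensorProduct.lift (Algebra.ofId k k) p (fun _ _ => Commute.all _ _)

/-- the ideal of the effective divisor `p 0 + ⋯ + p (g-1)` (off the cusps) of the fibre over `k` -/
def ff_ptIdeal {g : ℕ} (p : Fin g → 𝒜 →ₐ[O] k) : Ideal (k ⊗[O] 𝒜) :=
  ∏ i, RingHom.ker (ff_pt k (p i))

variable (O 𝒜)

/-- **linear equivalence** `D₁ + D₂ ∼ D₃ + D₄` of effective divisors off the cusps, in ideal form: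
`h · I₁ I₂ = h' · I₃ I₄` for two functions `h, h' ∈ L(s · cusps)` with unit leading terms (= with
exact pole order `s` at every cusp). -/
def ff_LinEq (I₁ I₂ I₃ I₄ : Ideal (k ⊗[O] 𝒜)) : Prop :=
  ∃ (s : ℕ) (h h' : k ⊗[O] ↥(Λ s)),
    IsUnit (ff_leadk O 𝒜 C k Λ lead s h) ∧ IsUnit (ff_leadk O 𝒜 C k Λ lead s h') ∧
    Ideal.span {ff_incl O 𝒜 k Λ s h} * I₁ * I₂ = Ideal.span {ff_incl O 𝒜 k Λ s h'} * I₃ * I₄

/-- **`l(D) = 1`** in ideal form (`I` the ideal of the effective divisor `D` off the cusps): a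
function `u / u'` (`u, u' ∈ L(s · cusps)`, `u'` with unit leading term, so `u / u'` is regular at
the cusps) with `(u / u') · I ⊆ k ⊗ 𝒜` is constant. -/
def ff_Uniq (I : Ideal (k ⊗[O] 𝒜)) : Prop :=
  ∀ (s : ℕ) (u u' : k ⊗[O] ↥(Λ s)), IsUnit (ff_leadk O 𝒜 C k Λ lead s u') →
    (∀ v ∈ I, ff_incl O 𝒜 k Λ s u' ∣ ff_incl O 𝒜 k Λ s u * v) → ∃ c : k, u = c • u'

end Fibre

/-! ### the abstract package -/

/-- **The abstract package**: an affine chart `𝒜` of a relative curve over the discrete valuation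
ring `O` (complement of the cusps), with its pole-order filtration and leading terms. -/
structure ff_IsPkg (O : Type) [CommRing O] (𝒜 : Type) [CommRing 𝒜] [Algebra O 𝒜]
    (C : Type) [CommRing C] [Algebra O C] (π : O)
    (Kb : Type) [Field Kb] [Algebra O Kb] (κ : Type) [Field κ] [Algebra O κ]
    (Λ : ℕ → Submodule O 𝒜) (lead : ∀ m, ↥(Λ m) →ₗ[O] C) (g n m0 c0 : ℕ) : Prop where
  /-- `π` is a uniformiser, `κ = O / π`, `O ⊆ Kb` -/
  irr : Irreducible π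
  res_surj : Function.Surjective (algebraMap O κ)
  res_ker : RingHom.ker (algebraMap O κ) = Ideal.span {π}
  inj : Function.Injective (algebraMap O Kb)
  /-- the chart -/
  ft : Algebra.FiniteType O 𝒜
  tf : ∀ a : 𝒜, π • a = 0 → a = 0
  dedκ : IsDedekindDomain (κ ⊗[O] 𝒜)
  notFieldκ : ¬ IsField (κ ⊗[O] 𝒜)
  dedK : IsDedekindDomain (Kb ⊗[O] 𝒜)
  /-- the pole-order filtration -/
  mono : Monotone Λ
  exh : ∀ a : 𝒜, ∃ m, a ∈ Λ m
  one_mem : (1 : 𝒜) ∈ Λ 0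
  zero_const : ∀ x ∈ Λ 0, ∃ o : O, x = algebraMap O 𝒜 o
  mul_mem : ∀ (a b : ℕ) (x y : 𝒜), x ∈ Λ a → y ∈ Λ b → x * y ∈ Λ (a + b)
  fg : ∀ m, (Λ m).FG
  sat : ∀ (m : ℕ) (a : 𝒜), π • a ∈ Λ m → a ∈ Λ m
  /-- the cuspidal algebra and the leading terms -/
  Cfin : Module.Finite O C
  Cfree : Module.Free O C
  Crank : Module.finrank O C = n
  lead_ker : ∀ (m : ℕ) (x : ↥(Λ (m + 1))), lead (m + 1) x = 0 ↔ (x : 𝒜) ∈ Λ m
  lead_zero : ∀ x : ↥(Λ 0), lead 0 x = 0 → x = 0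
  lead_one : lead 0 ⟨1, one_mem⟩ = 1
  lead_mul : ∀ (a b : ℕ) (x : ↥(Λ a)) (y : ↥(Λ b)),
    lead (a + b) ⟨(x : 𝒜) * (y : 𝒜), mul_mem a b x y x.2 y.2⟩ = lead a x * lead b y
  lead_surj : ∀ m, m0 ≤ m → Function.Surjective (lead m)
  /-- Riemann: the rank of `Λ m`, and surjectivity onto jets on the special fibre -/
  rank : ∀ m, m0 ≤ m → Module.finrank O ↥(Λ m) + g = m * n + 1
  riemann : ∀ (I : Ideal (κ ⊗[O] 𝒜)) (m : ℕ), Module.Finite κ ((κ ⊗[O] 𝒜) ⧸ I) →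
    m0 ≤ m → Module.finrank κ ((κ ⊗[O] 𝒜) ⧸ I) + c0 ≤ m * n →
    Function.Surjective fun u : κ ⊗[O] ↥(Λ m) => Ideal.Quotient.mk I (ff_incl O 𝒜 κ Λ m u)

/-! ### the functions `e_i(a(P_z))` and the algebra they generate -/

section Sym

variable {O : Type} [CommRing O] {𝒜 : Type} [CommRing 𝒜] [Algebra O 𝒜]
  {Kb : Type} [Field Kb] [Algebra O Kb] {M : Type} {g : ℕ}

/-- the function `z ↦ e_i(a(P_{z,0}), …, a(P_{z,g-1}))` (`i`-th elementary symmetric function) -/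
def ff_symFun (PK : M → Fin g → 𝒜 →ₐ[O] Kb) (a : 𝒜) (i : ℕ) : M → Kb :=
  fun z => ((Finset.univ : Finset (Fin g)).val.map fun j => PK z j a).esymm i

/-- `H = O[e_i(a(P_z)) : a ∈ 𝒜, i]` -/
def ff_symAlg (PK : M → Fin g → 𝒜 →ₐ[O] Kb) : Subalgebra O (M → Kb) :=
  Algebra.adjoin O {φ | ∃ (a : 𝒜) (i : ℕ), φ = ff_symFun PK a i}

end Sym

/-! ### [ADD] the abstract residuation theorem -/

/-- **[ADD]** the abstract residuation theorem. -/
def ff_SeamADD : Prop :=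
  ∀ (O : Type) [CommRing O] [IsDomain O] [IsDiscreteValuationRing O]
    (𝒜 : Type) [CommRing 𝒜] [Algebra O 𝒜] (C : Type) [CommRing C] [Algebra O C] (π : O)
    (Kb : Type) [Field Kb] [IsAlgClosed Kb] [Algebra O Kb]
    (κ : Type) [Field κ] [IsAlgClosed κ] [Algebra O κ]
    (Λ : ℕ → Submodule O 𝒜) (lead : ∀ m, ↥(Λ m) →ₗ[O] C) (g n m0 c0 : ℕ),
    ff_IsPkg O 𝒜 C π Kb κ Λ lead g n m0 c0 →
  ∀ (M : Type) [AddCommGroup M] [Finite M]
    (PK : M → Fin g → 𝒜 →ₐ[O] Kb) (Pκ : M → Fin g → 𝒜 →ₐ[O] κ) (P0 : Fin g → 𝒜 →ₐ[O] O)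
    (Av : Subring Kb) (res : ↥Av →+* κ),
    -- `O ⊆ Av`, compatibly with the residue maps
    (∀ o : O, ∃ h : algebraMap O Kb o ∈ Av, res ⟨_, h⟩ = algebraMap O κ o) →
    -- the points are `Av`-integral and `Pκ` is their reduction
    (∀ z j a, ∃ h : PK z j a ∈ Av, res ⟨_, h⟩ = Pκ z j a) →
    -- generic fibre: `D_{x+y} + E₀ ∼ D_x + D_y`, `l(D_z) = 1`
    (∀ x y : M, ff_LinEq O 𝒜 C Kb Λ lead (ff_ptIdeal Kb (PK (x + y)))
      (ff_ptIdeal Kb fun j => (Algebra.ofId O Kb).comp (P0 j))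
      (ff_ptIdeal Kb (PK x)) (ff_ptIdeal Kb (PK y))) →
    (∀ z : M, ff_Uniq O 𝒜 C Kb Λ lead (ff_ptIdeal Kb (PK z))) →
    -- special fibre: the same
    (∀ x y : M, ff_LinEq O 𝒜 C κ Λ lead (ff_ptIdeal κ (Pκ (x + y)))
      (ff_ptIdeal κ fun j => (Algebra.ofId O κ).comp (P0 j))
      (ff_ptIdeal κ (Pκ x)) (ff_ptIdeal κ (Pκ y))) →
    (∀ z : M, ff_Uniq O 𝒜 C κ Λ lead (ff_ptIdeal κ (Pκ z))) →
    -- `H` is a finite `O`-order in `Map(M, Kb)` whose closed points are the `z ∈ M`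
    Module.Finite O ↥(ff_symAlg PK) →
    (∀ (ι : Type) [Fintype ι] (φ : ι → M → Kb), (∀ j, φ j ∈ ff_symAlg PK) →
      LinearIndependent O φ → LinearIndependent Kb φ) →
    (∀ 𝔪 : Ideal ↥(ff_symAlg PK), 𝔪.IsMaximal → ∃ z : M, ∀ φ : ↥(ff_symAlg PK),
      φ ∈ 𝔪 ↔ ∃ c : ↥Av, (c : Kb) = (φ : M → Kb) z ∧ res c = 0) →
    -- CONCLUSION: `Δ (e_i(a)) ∈ H ⊗ H`
    ∀ (a : 𝒜) (i : ℕ), ∃ (r : ℕ) (α β : Fin r → M → Kb),
      (∀ j, α j ∈ ff_symAlg PK) ∧ (∀ j, β j ∈ ff_symAlg PK) ∧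
      ∀ x y : M, ff_symFun PK a i (x + y) = ∑ j, α j x * β j y

/-! ### [GAL] abstract Galois theory of equivariant function algebras -/

/-- **[GAL]** Let `L₁ ⊆ Q̄` be a field, `O = A ∩ L₁` (a discrete valuation ring), `M` a finite
`G_ℚ`-module with open stabilisers, `H` an `O`-algebra of `A`-valued `Gal(Q̄/L₁)`-equivariant
functions on `M`.  Then `H` is a finite `O`-module [it lies in the maximal order of the étale
`L₁`-algebra `Map_{G_{L₁}}(M, Q̄)`], `O`-linearly independent elements of `H` are `Q̄`-linearly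
independent [Artin], and every maximal ideal of `H` is `{φ | φ z ∈ 𝔪_A}` for some `z ∈ M` [the
valuation rings of `Q̄` above `O` are conjugate under `Gal(Q̄/L₁)`]. -/
def ff_SeamGAL : Prop :=
  ∀ (A : ValuationSubring ff_Qb) (L₁ : IntermediateField ℚ ff_Qb)
    (O : Type) [CommRing O] [IsDomain O] [IsDiscreteValuationRing O] [Algebra O ff_Qb],
    Set.range (algebraMap O ff_Qb) = (A : Set ff_Qb) ∩ (L₁ : Set ff_Qb) →
  ∀ (M : Type) [AddCommGroup M] [Finite M] [DistribMulAction ff_GQ M],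
    (∀ x : M, ∃ K : IntermediateField ℚ ff_Qb, FiniteDimensional ℚ K ∧
      ∀ σ ∈ K.fixingSubgroup, σ • x = x) →
  ∀ H : Subalgebra O (M → ff_Qb),
    (∀ φ ∈ H, ∀ x : M, φ x ∈ A) →
    (∀ φ ∈ H, ∀ σ ∈ L₁.fixingSubgroup, ∀ x : M, φ (σ • x) = σ (φ x)) →
    Module.Finite O ↥H ∧
    (∀ (ι : Type) [Fintype ι] (φ : ι → M → ff_Qb), (∀ j, φ j ∈ H) →
      LinearIndependent O φ → LinearIndependent ff_Qb φ) ∧
    (∀ 𝔪 : Ideal ↥H, 𝔪.IsMaximal → ∃ z : M, ∀ φ : ↥H,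
      φ ∈ 𝔪 ↔ (φ : M → ff_Qb) z ∈ A.nonunits)

/-! ### [INST] the geometric instance -/

open ModularCurve AlgebraicCurve in
/-- **[INST]** the geometric instance of the package for `J₀(N)[ℓ^k]` at a place `A` of `Q̄` over
`ℓ ∤ N`: an unramified level `L₁ ⊇ K₀`, `O = A ∩ L₁`, the `j`-chart `𝒜` of `X₀(N)` over `O` with
`Λ m = 𝒜 ∩ j^m 𝒜'`, `C = 𝒜' / (1/j)`, and for every `z ∈ J₀(N)[ℓ^k]` the `g` points of the unique
effective divisor `D_z ∼ z + E₀` (they are `A`-integral points of the `j`-chart, by the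
genericity (C) of `E₀`), compatible with the action of `Gal(Q̄/L₁)`. -/
def ff_SeamINST (N : ℕ) [NeZero N] (ℓ k : ℕ) : Prop :=
  ∀ A : ValuationSubring ff_Qb, A.LiesOverPrime ℓ →
  ∃ (L₁ : IntermediateField ℚ ff_Qb)
    (O : Type) (_ : CommRing O) (_ : IsDomain O) (_ : IsDiscreteValuationRing O)
    (_ : Algebra O ff_Qb) (_ : Algebra O (IsLocalRing.ResidueField ↥A))
    (_ : IsAlgClosed (IsLocalRing.ResidueField ↥A))
    (𝒜 : Type) (_ : CommRing 𝒜) (_ : Algebra O 𝒜) (C : Type) (_ : CommRing C) (_ : Algebra O C)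
    (π : O) (Λ : ℕ → Submodule O 𝒜) (lead : ∀ m, ↥(Λ m) →ₗ[O] C) (g n m0 c0 : ℕ)
    (PK : ↥(Submodule.torsionBy ℤ (JZero N) ((ℓ : ℤ) ^ k)) → Fin g → 𝒜 →ₐ[O] ff_Qb)
    (Pκ : ↥(Submodule.torsionBy ℤ (JZero N) ((ℓ : ℤ) ^ k)) → Fin g →
      𝒜 →ₐ[O] IsLocalRing.ResidueField ↥A)
    (P0 : Fin g → 𝒜 →ₐ[O] O),
    -- the level is unramified, `O = A ∩ L₁`, compatibly with the residue maps
    (∀ a ∈ L₁, a ∈ A.nonunits → a / (ℓ : ff_Qb) ∈ A) ∧
    Set.range (algebraMap O ff_Qb) = (A : Set ff_Qb) ∩ (L₁ : Set ff_Qb) ∧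
    (∀ (o : O) (h : algebraMap O ff_Qb o ∈ A),
      IsLocalRing.residue ↥A ⟨_, h⟩ = algebraMap O (IsLocalRing.ResidueField ↥A) o) ∧
    -- the package
    ff_IsPkg O 𝒜 C π ff_Qb (IsLocalRing.ResidueField ↥A) Λ lead g n m0 c0 ∧
    -- the points of `D_z` are `A`-integral, `Pκ` is their reduction
    (∀ z j a, ∃ h : PK z j a ∈ A, IsLocalRing.residue ↥A ⟨_, h⟩ = Pκ z j a) ∧
    -- both fibres: `D_{x+y} + E₀ ∼ D_x + D_y`, `l(D_z) = 1`
    (∀ x y, ff_LinEq O 𝒜 C ff_Qb Λ lead (ff_ptIdeal ff_Qb (PK (x + y)))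
      (ff_ptIdeal ff_Qb fun j => (Algebra.ofId O ff_Qb).comp (P0 j))
      (ff_ptIdeal ff_Qb (PK x)) (ff_ptIdeal ff_Qb (PK y))) ∧
    (∀ z, ff_Uniq O 𝒜 C ff_Qb Λ lead (ff_ptIdeal ff_Qb (PK z))) ∧
    (∀ x y, ff_LinEq O 𝒜 C (IsLocalRing.ResidueField ↥A) Λ lead
      (ff_ptIdeal (IsLocalRing.ResidueField ↥A) (Pκ (x + y)))
      (ff_ptIdeal (IsLocalRing.ResidueField ↥A) fun j =>
        (Algebra.ofId O (IsLocalRing.ResidueField ↥A)).comp (P0 j))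
      (ff_ptIdeal (IsLocalRing.ResidueField ↥A) (Pκ x))
      (ff_ptIdeal (IsLocalRing.ResidueField ↥A) (Pκ y))) ∧
    (∀ z, ff_Uniq O 𝒜 C (IsLocalRing.ResidueField ↥A) Λ lead
      (ff_ptIdeal (IsLocalRing.ResidueField ↥A) (Pκ z))) ∧
    -- Galois equivariance and separation
    (∀ σ ∈ L₁.fixingSubgroup, ∀ z a i,
      ff_symFun PK a i (σ • z) = σ (ff_symFun PK a i z)) ∧
    (∀ z z', z ≠ z' → ∃ a i, ff_symFun PK a i z ≠ ff_symFun PK a i z')

end Fermat.Agent.FF
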