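/-
Project FF (S19 + S32), leaf [RK]: **freeness from constant fibre dimension over a reduced
semilocal ring.**

`B` a commutative ring with finitely many maximal ideals, reduced.  The fibre of a `B`-module `M`
at a `B`-field `K` is `K ⊗[B] M`.

* `ffr_fibre_eq`      : the fibre dimension does not change under field extension `K ⊆ K'`;
* `ffr_exists_span`   : if all fibres at the maximal ideals have dimension `d`, a finite `M` is
                        generated by `d` elements (CRT + Nakayama; no reducedness);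
* `ffr_linearIndependent` : `d` generators are linearly independent as soon as the fibres at a
                        family of `B`-fields with jointly trivial kernel have dimension `d`;
* `ffr_free_of_fibre` : (RK1) `M` finite with fibre dimension `d` at all maximal ideals and all
                        minimal primes is free of rank `d` (no noetherian hypothesis);
* `ffr_map`           : (RK2) a map of finite free modules with constant fibre rank has free kernel,
                        range and cokernel, and a generalised inverse (`φ ψ φ = φ`);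
* `ffr_ker_baseChange`: for such a map, kernel and range commute with every base change.
Owner: helper13.  Prefix `ffr_`.  Mathlib only.
-/
import Mathlib

set_option autoImplicit false
set_option linter.style.haveILetI false
set_option linter.unusedSectionVars false

open TensorProduct Module

namespace Fermat.Agent.FF

universe u v w

section fibre

variable {B : Type u} [CommRing B] {M : Type v} [AddCommGroup M] [Module B M]

/-- (RK0) The fibre dimension is insensitive to field extensions. -/
theorem ffr_fibre_eq (K : Type*) (K' : Type*) [Field K] [Field K'] [Algebra B K] [Algebra B K']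
    [Algebra K K'] [IsScalarTower B K K'] :
    finrank K' (K' ⊗[B] M) = finrank K (K ⊗[B] M) := by
  rw [← Module.finrank_baseChange (R := K') (S := K) (M' := K ⊗[B] M)]
  exact (TensorProduct.AlgebraTensorModule.cancelBaseChange B K K' K' M).symm.finrank_eq

/-- Generators of `M` give generators of every fibre. -/
theorem ffr_span_tmul {ι : Type*} {b : ι → M} (hb : ⊤ ≤ Submodule.span B (Set.range b))
    (K : Type*) [Field K] [Algebra B K] :
    ⊤ ≤ Submodule.span K (Set.range fun i => (1 : K) ⊗ₜ[B] b i) := by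
  have h : Submodule.span B (Set.range b) = ⊤ := top_le_iff.mp hb
  have h2 := Submodule.baseChange_span (R := B) (A := K) (Set.range b)
  rw [h, Submodule.baseChange_top] at h2
  rw [h2, ← Set.range_comp]
  exact le_of_eq rfl

/-- A linear relation between `d` generators of `M` dies in every `B`-field whose fibre has
dimension `d`. -/
theorem ffr_coeff_mem_ker {d : ℕ} {b : Fin d → M} (hb : ⊤ ≤ Submodule.span B (Set.range b))
    (K : Type*) [Field K] [Algebra B K] (hK : finrank K (K ⊗[B] M) = d)
    (c : Fin d → B) (hc : ∑ k, c k • b k = 0) (k : Fin d) : algebraMap B K (c k) = 0 := by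
  have hli : LinearIndependent K (fun i => (1 : K) ⊗ₜ[B] b i) :=
    linearIndependent_of_top_le_span_of_card_eq_finrank (ffr_span_tmul hb K)
      (by rw [Fintype.card_fin, hK])
  have h0 : ∑ i, algebraMap B K (c i) • ((1 : K) ⊗ₜ[B] b i) = 0 := by
    have h1 : (1 : K) ⊗ₜ[B] (∑ i, c i • b i) = 0 := by rw [hc, tmul_zero]
    rw [tmul_sum] at h1
    rw [← h1]
    refine Finset.sum_congr rfl fun i _ => ?_
    rw [tmul_smul, algebraMap_smul]
  exact (Fintype.linearIndependent_iff.mp hli) (fun i => algebraMap B K (c i)) h0 k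

/-- `d` generators of `M` are linearly independent if the fibres at a family of `B`-fields with
jointly trivial kernel all have dimension `d`. -/
theorem ffr_linearIndependent {d : ℕ} {b : Fin d → M}
    (hb : ⊤ ≤ Submodule.span B (Set.range b)) (S : Set (Ideal B))
    (hS : ∀ c : B, (∀ 𝔭 ∈ S, c ∈ 𝔭) → c = 0)
    (hfib : ∀ 𝔭 ∈ S, ∃ (K : Type w) (_ : Field K) (_ : Algebra B K),
      RingHom.ker (algebraMap B K) ≤ 𝔭 ∧ finrank K (K ⊗[B] M) = d) :
    LinearIndependent B b := by
  rw [Fintype.linearIndependent_iff]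
  intro c hc k
  refine hS _ fun 𝔭 h𝔭 => ?_
  obtain ⟨K, _, _, hker, hK⟩ := hfib 𝔭 h𝔭
  exact hker (ffr_coeff_mem_ker hb K hK c hc k)

end fibre

section generation

variable {B : Type u} [CommRing B] [Finite (MaximalSpectrum B)] {M : Type v} [AddCommGroup M]
  [Module B M] [Module.Finite B M]

/-- If all fibres of a finite module at the maximal ideals of a semilocal ring have dimension `d`,
the module is generated by `d` elements. -/
theorem ffr_exists_span (d : ℕ)
    (hmax : ∀ 𝔪 : Ideal B, 𝔪.IsMaximal → finrank (B ⧸ 𝔪) ((B ⧸ 𝔪) ⊗[B] M) = d) :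
    ∃ b : Fin d → M, ⊤ ≤ Submodule.span B (Set.range b) := by
  classical
  let := @Ideal.Quotient.field
  have hcop : Pairwise (Function.onFun IsCoprime fun P : MaximalSpectrum B => P.asIdeal) :=
    fun _ _ ne => Ideal.isCoprime_of_isMaximal (MaximalSpectrum.ext_iff.ne.mp ne)
  have b' (P : MaximalSpectrum B) := Module.finBasisOfFinrankEq (B ⧸ P.asIdeal)
    ((B ⧸ P.asIdeal) ⊗[B] M) (hmax P.asIdeal P.isMaximal)
  choose b hb using fun i => Ideal.pi_tensorProductMk_quotient_surjective M _ hcop (b' · i)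
  have hb' : ∀ (k : Fin d) (P : MaximalSpectrum B), (1 : B ⧸ P.asIdeal) ⊗ₜ[B] b k = b' P k :=
    fun k P => congrFun (hb k) P
  refine ⟨b, ?_⟩
  set J : Ideal B := ⨅ P : MaximalSpectrum B, P.asIdeal with hJ
  have hJjac : J ≤ Ideal.jacobson ⊥ := by
    refine le_sInf fun 𝔪 h𝔪 => ?_
    exact iInf_le (fun P : MaximalSpectrum B => P.asIdeal) ⟨𝔪, h𝔪.2⟩
  refine Submodule.le_of_le_smul_of_le_jacobson_bot Module.Finite.fg_top hJjac ?_
  intro m _
  obtain ⟨r, hr⟩ : ∃ r : Fin d → B, ∀ (P : MaximalSpectrum B) (k : Fin d),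
      Ideal.Quotient.mk P.asIdeal (r k) = (b' P).repr ((1 : B ⧸ P.asIdeal) ⊗ₜ[B] m) k := by
    choose r hr using fun k => Ideal.pi_quotient_surjective hcop
      (fun P => (b' P).repr ((1 : B ⧸ P.asIdeal) ⊗ₜ[B] m) k)
    exact ⟨r, fun P k => hr k P⟩
  have hker : m - ∑ k, r k • b k ∈ J • (⊤ : Submodule B M) := by
    rw [hJ, ← Ideal.ker_tensorProductMk_quotient M _ hcop, LinearMap.mem_ker]
    funext P
    change (1 : B ⧸ P.asIdeal) ⊗ₜ[B] (m - ∑ k, r k • b k) = 0
    rw [tmul_sub, tmul_sum, sub_eq_zero]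
    conv_lhs => rw [← (b' P).sum_repr ((1 : B ⧸ P.asIdeal) ⊗ₜ[B] m)]
    refine Finset.sum_congr rfl fun k _ => ?_
    rw [← hr P k, tmul_smul, hb' k P, ← Ideal.Quotient.algebraMap_eq, algebraMap_smul]
  have hm : m = ∑ k, r k • b k + (m - ∑ k, r k • b k) := by abel
  rw [hm]
  exact Submodule.add_mem_sup
    (Submodule.sum_mem _ fun k _ => Submodule.smul_mem _ _ (Submodule.subset_span ⟨k, rfl⟩)) hker

end generation

section main

variable {B : Type u} [CommRing B] [IsReduced B] [Finite (MaximalSpectrum B)] {M : Type v}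
  [AddCommGroup M] [Module B M] [Module.Finite B M]

omit [Finite (MaximalSpectrum B)] [Module.Finite B M] in
/-- In a reduced ring an element lying in all minimal primes is zero. -/
theorem ffr_eq_zero_of_mem_minimalPrimes (c : B) (hc : ∀ 𝔭 ∈ minimalPrimes B, c ∈ 𝔭) : c = 0 := by
  have h1 : c ∈ sInf (minimalPrimes B) := by
    rw [Submodule.mem_sInf]
    exact hc
  rw [minimalPrimes, Ideal.sInf_minimalPrimes] at h1
  have h2 : (⊥ : Ideal B).radical = ⊥ := nilradical_eq_zero B
  rw [h2] at h1
  exact h1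

/-- The fibre at a field `K` with `ker (B → K) = 𝔪` maximal is the fibre at `B ⧸ 𝔪`. -/
theorem ffr_fibre_quotient {B : Type u} [CommRing B] {M : Type v} [AddCommGroup M] [Module B M]
    (𝔪 : Ideal B) [𝔪.IsMaximal] (K : Type w) [Field K] [Algebra B K]
    (hker : 𝔪 ≤ RingHom.ker (algebraMap B K)) :
    letI := Ideal.Quotient.field 𝔪
    finrank K (K ⊗[B] M) = finrank (B ⧸ 𝔪) ((B ⧸ 𝔪) ⊗[B] M) := by
  letI := Ideal.Quotient.field 𝔪
  letI : Algebra (B ⧸ 𝔪) K :=
    (Ideal.Quotient.lift 𝔪 (algebraMap B K) (fun a ha => hker ha)).toAlgebra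
  haveI : IsScalarTower B (B ⧸ 𝔪) K := IsScalarTower.of_algebraMap_eq' (by
    ext a
    rfl)
  exact ffr_fibre_eq (B ⧸ 𝔪) K

/-- **(RK1), basis form.**  A finite module over a reduced semilocal ring with the same fibre
dimension `d` at all maximal ideals and all minimal primes has a basis of `d` elements. -/
theorem ffr_exists_basis (d : ℕ)
    (hmax : ∀ 𝔪 : Ideal B, 𝔪.IsMaximal → finrank (B ⧸ 𝔪) ((B ⧸ 𝔪) ⊗[B] M) = d)
    (hmin : ∀ (𝔭 : Ideal B) [𝔭.IsPrime], 𝔭 ∈ minimalPrimes B →
      finrank 𝔭.ResidueField (𝔭.ResidueField ⊗[B] M) = d) :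
    Nonempty (Basis (Fin d) B M) := by
  obtain ⟨b, hb⟩ := ffr_exists_span d hmax
  have hli : LinearIndependent B b := by
    refine ffr_linearIndependent.{u, v, u} hb (minimalPrimes B)
      ffr_eq_zero_of_mem_minimalPrimes ?_
    intro 𝔭 h𝔭
    haveI := h𝔭.1.1
    exact ⟨𝔭.ResidueField, inferInstance, inferInstance,
      (Ideal.ker_algebraMap_residueField 𝔭).le, hmin 𝔭 h𝔭⟩
  exact ⟨Basis.mk hli hb⟩

/-- **(RK1).**  A finite module over a reduced semilocal ring with the same fibre dimension `d`
at all maximal ideals and all minimal primes is free of rank `d`. -/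
theorem ffr_free_of_fibre [Nontrivial B] (d : ℕ)
    (hmax : ∀ 𝔪 : Ideal B, 𝔪.IsMaximal → finrank (B ⧸ 𝔪) ((B ⧸ 𝔪) ⊗[B] M) = d)
    (hmin : ∀ (𝔭 : Ideal B) [𝔭.IsPrime], 𝔭 ∈ minimalPrimes B →
      finrank 𝔭.ResidueField (𝔭.ResidueField ⊗[B] M) = d) :
    Module.Free B M ∧ finrank B M = d := by
  obtain ⟨b⟩ := ffr_exists_basis d hmax hmin
  exact ⟨Module.Free.of_basis b, by rw [Module.finrank_eq_card_basis b, Fintype.card_fin]⟩

/-- **(RK1), flexible form**: the fibres may be computed in ANY `B`-fields `K` with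
`ker (B → K) = 𝔪` (maximal ideals) resp. `ker (B → K) ≤ 𝔭` (minimal primes). -/
theorem ffr_exists_basis' (d : ℕ)
    (hmax : ∀ 𝔪 : Ideal B, 𝔪.IsMaximal → ∃ (K : Type w) (_ : Field K) (_ : Algebra B K),
      𝔪 ≤ RingHom.ker (algebraMap B K) ∧ finrank K (K ⊗[B] M) = d)
    (hmin : ∀ 𝔭 ∈ minimalPrimes B, ∃ (K : Type w) (_ : Field K) (_ : Algebra B K),
      RingHom.ker (algebraMap B K) ≤ 𝔭 ∧ finrank K (K ⊗[B] M) = d) :
    Nonempty (Basis (Fin d) B M) := by
  have hmax' : ∀ 𝔪 : Ideal B, 𝔪.IsMaximal → finrank (B ⧸ 𝔪) ((B ⧸ 𝔪) ⊗[B] M) = d := by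
    intro 𝔪 h𝔪
    obtain ⟨K, _, _, hker, hK⟩ := hmax 𝔪 h𝔪
    haveI := h𝔪
    rw [← hK]
    exact (ffr_fibre_quotient 𝔪 K hker).symm
  obtain ⟨b, hb⟩ := ffr_exists_span d hmax'
  exact ⟨Basis.mk (ffr_linearIndependent.{u, v, w} hb (minimalPrimes B)
    ffr_eq_zero_of_mem_minimalPrimes hmin) hb⟩

end main

section coker

variable {B : Type u} [CommRing B] {P : Type v} {Q : Type w} [AddCommGroup P] [Module B P]
  [AddCommGroup Q] [Module B Q] [Module.Finite B Q] (φ : P →ₗ[B] Q)

/-- The base change of the cokernel sequence is exact: `ker (K ⊗ Q → K ⊗ coker φ) = range (K ⊗ φ)`. -/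
theorem ffr_ker_mkQ_baseChange (A : Type*) [CommRing A] [Algebra B A] :
    LinearMap.ker ((LinearMap.range φ).mkQ.baseChange A) = LinearMap.range (φ.baseChange A) := by
  have hex : Function.Exact φ (LinearMap.range φ).mkQ := LinearMap.exact_map_mkQ_range φ
  have h := lTensor_exact A hex (Submodule.mkQ_surjective _)
  have hex' : Function.Exact (φ.baseChange A) ((LinearMap.range φ).mkQ.baseChange A) := by
    rw [LinearMap.baseChange_eq_ltensor, LinearMap.baseChange_eq_ltensor]
    exact h
  exact LinearMap.exact_iff.mp hex'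

theorem ffr_mkQ_baseChange_surjective (A : Type*) [CommRing A] [Algebra B A] :
    Function.Surjective ((LinearMap.range φ).mkQ.baseChange A) := by
  rw [LinearMap.baseChange_eq_ltensor]
  exact LinearMap.lTensor_surjective A (Submodule.mkQ_surjective _)

/-- Fibre dimension of the cokernel: `dim (K ⊗ coker φ) + rank (K ⊗ φ) = dim (K ⊗ Q)`. -/
theorem ffr_coker_fibre (K : Type*) [Field K] [Algebra B K] :
    finrank K (K ⊗[B] (Q ⧸ LinearMap.range φ)) + finrank K (LinearMap.range (φ.baseChange K)) =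
      finrank K (K ⊗[B] Q) := by
  have h := LinearMap.finrank_range_add_finrank_ker ((LinearMap.range φ).mkQ.baseChange K)
  rw [LinearMap.range_eq_top.mpr (ffr_mkQ_baseChange_surjective φ K), finrank_top,
    ffr_ker_mkQ_baseChange φ K] at h
  exact h

end coker

section geninv

/-! ### Maps with a generalised inverse (`φ ψ φ = φ`) -/

variable {B : Type u} [CommRing B] {P : Type v} {Q : Type w} [AddCommGroup P] [Module B P]
  [AddCommGroup Q] [Module B Q] (φ : P →ₗ[B] Q)

/-- A map onto a projective cokernel, out of ... : if `Q` and `coker φ` are projective, `φ` has a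
generalised inverse. -/
theorem ffr_exists_geninv [Module.Projective B Q] [Module.Projective B (Q ⧸ LinearMap.range φ)] :
    ∃ ψ : Q →ₗ[B] P, φ ∘ₗ ψ ∘ₗ φ = φ := by
  obtain ⟨s, hs⟩ := Module.projective_lifting_property (LinearMap.range φ).mkQ LinearMap.id
    (Submodule.mkQ_surjective _)
  have hs' : ∀ c, (LinearMap.range φ).mkQ (s c) = c := fun c => LinearMap.congr_fun hs c
  set πR : Q →ₗ[B] Q := LinearMap.id - s ∘ₗ (LinearMap.range φ).mkQ with hπR
  have hπR_mem : ∀ y, πR y ∈ LinearMap.range φ := by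
    intro y
    rw [← Submodule.ker_mkQ (LinearMap.range φ), LinearMap.mem_ker, hπR]
    rw [LinearMap.sub_apply, map_sub, LinearMap.comp_apply, hs', LinearMap.id_apply, sub_self]
  have hπR_id : ∀ y ∈ LinearMap.range φ, πR y = y := by
    intro y hy
    have h0 : (LinearMap.range φ).mkQ y = 0 := (Submodule.Quotient.mk_eq_zero _).mpr hy
    rw [hπR, LinearMap.sub_apply, LinearMap.comp_apply, h0, map_zero, LinearMap.id_apply, sub_zero]
  set ρ : Q →ₗ[B] LinearMap.range φ := πR.codRestrict _ hπR_mem with hρdef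
  have hρ : ρ ∘ₗ (LinearMap.range φ).subtype = LinearMap.id := by
    ext y
    exact hπR_id y.1 y.2
  haveI : Module.Projective B (LinearMap.range φ) :=
    Module.Projective.of_split (LinearMap.range φ).subtype ρ hρ
  obtain ⟨t, ht⟩ := Module.projective_lifting_property φ.rangeRestrict LinearMap.id
    (LinearMap.surjective_rangeRestrict φ)
  refine ⟨t ∘ₗ ρ, ?_⟩
  ext x
  have h1 : ρ (φ x) = ⟨φ x, ⟨x, rfl⟩⟩ := Subtype.ext (hπR_id _ ⟨x, rfl⟩)
  have h2 : φ.rangeRestrict (t ⟨φ x, ⟨x, rfl⟩⟩) = ⟨φ x, ⟨x, rfl⟩⟩ := LinearMap.congr_fun ht _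
  have h3 : φ (t ⟨φ x, ⟨x, rfl⟩⟩) = φ x := congrArg Subtype.val h2
  rw [LinearMap.comp_apply, LinearMap.comp_apply, LinearMap.comp_apply, h1, h3]

variable {φ} {ψ : Q →ₗ[B] P} (hψ : φ ∘ₗ ψ ∘ₗ φ = φ)

include hψ in
theorem ffr_geninv_apply (x : P) : φ (ψ (φ x)) = φ x := LinearMap.congr_fun hψ x

/-- The projection of `P` onto `ker φ` attached to a generalised inverse. -/
def ffr_kerProj : P →ₗ[B] LinearMap.ker φ :=
  (LinearMap.id - ψ ∘ₗ φ).codRestrict (LinearMap.ker φ) (fun x => by
    rw [LinearMap.mem_ker, LinearMap.sub_apply, map_sub, LinearMap.comp_apply,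
      ffr_geninv_apply hψ, LinearMap.id_apply, sub_self])

theorem ffr_kerProj_coe (x : P) : ((ffr_kerProj hψ x : LinearMap.ker φ) : P) = x - ψ (φ x) := rfl

theorem ffr_kerProj_comp_subtype :
    ffr_kerProj hψ ∘ₗ (LinearMap.ker φ).subtype = LinearMap.id := by
  ext x
  have hx : φ (x : P) = 0 := x.2
  rw [LinearMap.comp_apply, ffr_kerProj_coe, Submodule.subtype_apply, hx, map_zero, sub_zero,
    LinearMap.id_apply]

/-- The projection of `Q` onto `range φ` attached to a generalised inverse. -/
def ffr_rangeProj : Q →ₗ[B] LinearMap.range φ :=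
  (φ ∘ₗ ψ).codRestrict (LinearMap.range φ) (fun y => ⟨ψ y, rfl⟩)

theorem ffr_rangeProj_coe (y : Q) : ((ffr_rangeProj (φ := φ) (ψ := ψ) y : LinearMap.range φ) : Q) =
    φ (ψ y) := rfl

include hψ in
theorem ffr_rangeProj_comp_subtype :
    ffr_rangeProj (φ := φ) (ψ := ψ) ∘ₗ (LinearMap.range φ).subtype = LinearMap.id := by
  ext y
  obtain ⟨x, hx⟩ := y.2
  rw [LinearMap.comp_apply, ffr_rangeProj_coe, Submodule.subtype_apply, ← hx,
    ffr_geninv_apply hψ, LinearMap.id_apply]
  exact hx

include hψ in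
theorem ffr_projective_ker [Module.Projective B P] : Module.Projective B (LinearMap.ker φ) :=
  Module.Projective.of_split (LinearMap.ker φ).subtype (ffr_kerProj hψ) (ffr_kerProj_comp_subtype hψ)

include hψ in
theorem ffr_projective_range [Module.Projective B Q] : Module.Projective B (LinearMap.range φ) :=
  Module.Projective.of_split (LinearMap.range φ).subtype ffr_rangeProj
    (ffr_rangeProj_comp_subtype hψ)

include hψ in
theorem ffr_finite_ker [Module.Finite B P] : Module.Finite B (LinearMap.ker φ) :=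
  Module.Finite.of_surjective (ffr_kerProj hψ) (fun x =>
    ⟨x, LinearMap.congr_fun (ffr_kerProj_comp_subtype hψ) x⟩)

/-! #### Base change -/

variable (A : Type*) [CommRing A] [Algebra B A]

include hψ in
/-- The inclusion of the kernel stays injective after every base change. -/
theorem ffr_ker_subtype_baseChange_injective :
    Function.Injective ((LinearMap.ker φ).subtype.baseChange A) := by
  have h : (ffr_kerProj hψ).baseChange A ∘ₗ (LinearMap.ker φ).subtype.baseChange A =
      LinearMap.id := by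
    rw [← LinearMap.baseChange_comp, ffr_kerProj_comp_subtype, LinearMap.baseChange_id]
  exact Function.LeftInverse.injective (g := (ffr_kerProj hψ).baseChange A)
    (fun x => LinearMap.congr_fun h x)

include hψ in
/-- The inclusion of the range stays injective after every base change. -/
theorem ffr_range_subtype_baseChange_injective :
    Function.Injective ((LinearMap.range φ).subtype.baseChange A) := by
  have h : (ffr_rangeProj (φ := φ) (ψ := ψ)).baseChange A ∘ₗ
      (LinearMap.range φ).subtype.baseChange A = LinearMap.id := by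
    rw [← LinearMap.baseChange_comp, ffr_rangeProj_comp_subtype hψ, LinearMap.baseChange_id]
  exact Function.LeftInverse.injective (g := (ffr_rangeProj (φ := φ) (ψ := ψ)).baseChange A)
    (fun x => LinearMap.congr_fun h x)

omit hψ in
/-- The range of the base change is the image of the base change of the range (always). -/
theorem ffr_range_baseChange (φ : P →ₗ[B] Q) :
    LinearMap.range (φ.baseChange A) =
      LinearMap.range ((LinearMap.range φ).subtype.baseChange A) := by
  have h : φ = (LinearMap.range φ).subtype ∘ₗ φ.rangeRestrict := by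
    ext x
    rfl
  have hsurj : Function.Surjective (φ.rangeRestrict.baseChange A) := by
    rw [LinearMap.baseChange_eq_ltensor]
    exact LinearMap.lTensor_surjective A (LinearMap.surjective_rangeRestrict φ)
  conv_lhs => rw [h, LinearMap.baseChange_comp]
  exact LinearMap.range_comp_of_range_eq_top _ (LinearMap.range_eq_top.mpr hsurj)

include hψ in
/-- **Kernels commute with base change** for a map with a generalised inverse. -/
theorem ffr_ker_baseChange :
    LinearMap.ker (φ.baseChange A) =
      LinearMap.range ((LinearMap.ker φ).subtype.baseChange A) := by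
  apply le_antisymm
  · intro x hx
    have hx0 : φ.baseChange A x = 0 := hx
    have h1 : (LinearMap.ker φ).subtype ∘ₗ ffr_kerProj hψ = LinearMap.id - ψ ∘ₗ φ := by
      ext y
      rfl
    have h2 := congrArg (fun f => (f.baseChange A) x) h1
    simp only [LinearMap.baseChange_comp, LinearMap.baseChange_sub, LinearMap.baseChange_id,
      LinearMap.comp_apply, LinearMap.sub_apply, LinearMap.id_apply, hx0, map_zero, sub_zero] at h2
    exact ⟨_, h2⟩
  · rintro _ ⟨y, rfl⟩
    rw [LinearMap.mem_ker, ← LinearMap.comp_apply, ← LinearMap.baseChange_comp]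
    have h0 : φ ∘ₗ (LinearMap.ker φ).subtype = 0 := by
      ext y
      exact y.2
    rw [h0, LinearMap.baseChange_zero, LinearMap.zero_apply]

end geninv

section fibres_of_split

variable {B : Type u} [CommRing B] {P : Type v} {Q : Type w} [AddCommGroup P] [Module B P]
  [AddCommGroup Q] [Module B Q] {φ : P →ₗ[B] Q} {ψ : Q →ₗ[B] P} (hψ : φ ∘ₗ ψ ∘ₗ φ = φ)
  (K : Type*) [Field K] [Algebra B K]

include hψ in
/-- The fibre of `range φ` is the range of the fibre of `φ`. -/
theorem ffr_fibre_range :
    finrank K (K ⊗[B] LinearMap.range φ) = finrank K (LinearMap.range (φ.baseChange K)) := by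
  rw [ffr_range_baseChange K φ]
  exact (LinearEquiv.ofInjective _ (ffr_range_subtype_baseChange_injective hψ K)).finrank_eq

include hψ in
/-- The fibre of `ker φ` is the kernel of the fibre of `φ`. -/
theorem ffr_fibre_ker [Module.Finite B P] :
    finrank K (K ⊗[B] LinearMap.ker φ) + finrank K (LinearMap.range (φ.baseChange K)) =
      finrank K (K ⊗[B] P) := by
  have h1 : finrank K (K ⊗[B] LinearMap.ker φ) = finrank K (LinearMap.ker (φ.baseChange K)) := by
    rw [ffr_ker_baseChange hψ K]
    exact (LinearEquiv.ofInjective _ (ffr_ker_subtype_baseChange_injective hψ K)).finrank_eq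
  rw [h1, add_comm]
  exact LinearMap.finrank_range_add_finrank_ker (φ.baseChange K)

end fibres_of_split

section map

variable {B : Type u} [CommRing B] [Nontrivial B] [IsReduced B] [Finite (MaximalSpectrum B)]
  {P : Type v}
  {Q : Type w} [AddCommGroup P] [Module B P] [Module.Finite B P] [Module.Free B P]
  [AddCommGroup Q] [Module B Q] [Module.Finite B Q] [Module.Free B Q]

/-- **(RK2), cokernel.**  A map of finite free modules over a reduced semilocal ring whose fibres
at all maximal ideals and all minimal primes have rank `r` has a free cokernel of rank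
`rank Q - r`. -/
theorem ffr_coker_basis (φ : P →ₗ[B] Q) (r : ℕ)
    (hmax : ∀ 𝔪 : Ideal B, 𝔪.IsMaximal →
      finrank (B ⧸ 𝔪) (LinearMap.range (φ.baseChange (B ⧸ 𝔪))) = r)
    (hmin : ∀ (𝔭 : Ideal B) [𝔭.IsPrime], 𝔭 ∈ minimalPrimes B →
      finrank 𝔭.ResidueField (LinearMap.range (φ.baseChange 𝔭.ResidueField)) = r) :
    Nonempty (Basis (Fin (finrank B Q - r)) B (Q ⧸ LinearMap.range φ)) := by
  refine ffr_exists_basis (finrank B Q - r) ?_ ?_
  · intro 𝔪 h𝔪
    letI := Ideal.Quotient.field 𝔪
    have h1 := ffr_coker_fibre φ (B ⧸ 𝔪)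
    have h2 : finrank (B ⧸ 𝔪) ((B ⧸ 𝔪) ⊗[B] Q) = finrank B Q := Module.finrank_baseChange
    have h3 := hmax 𝔪 h𝔪
    omega
  · intro 𝔭 _ h𝔭
    have h1 := ffr_coker_fibre φ 𝔭.ResidueField
    have h2 : finrank 𝔭.ResidueField (𝔭.ResidueField ⊗[B] Q) = finrank B Q :=
      Module.finrank_baseChange
    have h3 := hmin 𝔭 h𝔭
    omega

/-- **(RK2).**  A map `φ : P → Q` of finite free modules over a reduced semilocal ring whose
fibres at all maximal ideals and all minimal primes have rank `r`: cokernel, range and kernel are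
free of ranks `rank Q - r`, `r`, `rank P - r`, and `φ` has a generalised inverse (so kernel and
range commute with every base change: `ffr_ker_baseChange`, `ffr_range_baseChange`,
`ffr_range_subtype_baseChange_injective`). -/
theorem ffr_map (φ : P →ₗ[B] Q) (r : ℕ)
    (hmax : ∀ 𝔪 : Ideal B, 𝔪.IsMaximal →
      finrank (B ⧸ 𝔪) (LinearMap.range (φ.baseChange (B ⧸ 𝔪))) = r)
    (hmin : ∀ (𝔭 : Ideal B) [𝔭.IsPrime], 𝔭 ∈ minimalPrimes B →
      finrank 𝔭.ResidueField (LinearMap.range (φ.baseChange 𝔭.ResidueField)) = r) :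
    Nonempty (Basis (Fin (finrank B Q - r)) B (Q ⧸ LinearMap.range φ)) ∧
    Nonempty (Basis (Fin r) B (LinearMap.range φ)) ∧
    Nonempty (Basis (Fin (finrank B P - r)) B (LinearMap.ker φ)) ∧
    ∃ ψ : Q →ₗ[B] P, φ ∘ₗ ψ ∘ₗ φ = φ := by
  obtain ⟨bC⟩ := ffr_coker_basis φ r hmax hmin
  haveI : Module.Free B (Q ⧸ LinearMap.range φ) := Module.Free.of_basis bC
  obtain ⟨ψ, hψ⟩ := ffr_exists_geninv φ
  haveI : Module.Projective B (LinearMap.range φ) := ffr_projective_range hψ
  haveI : Module.Projective B (LinearMap.ker φ) := ffr_projective_ker hψ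
  haveI : Module.Finite B (LinearMap.ker φ) := ffr_finite_ker hψ
  refine ⟨⟨bC⟩, ?_, ?_, ψ, hψ⟩
  · refine Module.nonempty_basis_of_flat_of_finrank_eq B (LinearMap.range φ) r fun 𝔪 => ?_
    letI := Ideal.Quotient.field 𝔪.asIdeal
    rw [ffr_fibre_range hψ (B ⧸ 𝔪.asIdeal)]
    exact hmax 𝔪.asIdeal 𝔪.isMaximal
  · refine Module.nonempty_basis_of_flat_of_finrank_eq B (LinearMap.ker φ) (finrank B P - r)
      fun 𝔪 => ?_
    letI := Ideal.Quotient.field 𝔪.asIdeal
    have h1 := ffr_fibre_ker hψ (B ⧸ 𝔪.asIdeal)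
    have h2 : finrank (B ⧸ 𝔪.asIdeal) ((B ⧸ 𝔪.asIdeal) ⊗[B] P) = finrank B P :=
      Module.finrank_baseChange
    have h3 := hmax 𝔪.asIdeal 𝔪.isMaximal
    omega

end map

section corollaries

variable {B : Type u} [CommRing B] [Finite (MaximalSpectrum B)] {P : Type v} {Q : Type w}
  [AddCommGroup P] [Module B P] [AddCommGroup Q] [Module B Q]

/-- **Nakayama, semilocal form**: a map into a finite module which is surjective on the fibres at
all maximal ideals is surjective. -/
theorem ffr_surjective [Module.Finite B Q] (φ : P →ₗ[B] Q)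
    (h : ∀ 𝔪 : Ideal B, 𝔪.IsMaximal → Function.Surjective (φ.baseChange (B ⧸ 𝔪))) :
    Function.Surjective φ := by
  have hfib : ∀ 𝔪 : Ideal B, 𝔪.IsMaximal →
      finrank (B ⧸ 𝔪) ((B ⧸ 𝔪) ⊗[B] (Q ⧸ LinearMap.range φ)) = 0 := by
    intro 𝔪 h𝔪
    letI := Ideal.Quotient.field 𝔪
    have h1 := ffr_coker_fibre φ (B ⧸ 𝔪)
    rw [LinearMap.range_eq_top.mpr (h 𝔪 h𝔪), finrank_top] at h1
    omega
  obtain ⟨b, hb⟩ := ffr_exists_span (M := Q ⧸ LinearMap.range φ) 0 hfib
  have hbot : (⊤ : Submodule B (Q ⧸ LinearMap.range φ)) = ⊥ := by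
    refine le_antisymm (hb.trans ?_) bot_le
    rw [Submodule.span_le]
    rintro _ ⟨k, -⟩
    exact k.elim0
  rw [← LinearMap.range_eq_top]
  rw [eq_top_iff]
  intro y _
  have hy : (LinearMap.range φ).mkQ y ∈ (⊥ : Submodule B (Q ⧸ LinearMap.range φ)) := by
    rw [← hbot]
    exact Submodule.mem_top
  rw [Submodule.mem_bot, Submodule.mkQ_apply, Submodule.Quotient.mk_eq_zero] at hy
  exact hy

/-- The kernel of a surjection of finite free modules over a semilocal ring is free of rank
`rank P - rank Q`, and the surjection splits (so its kernel commutes with base change: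
`ffr_ker_baseChange`). -/
theorem ffr_ker_basis_of_surjective [Nontrivial B] [Module.Finite B P] [Module.Free B P]
    [Module.Finite B Q] [Module.Free B Q] (φ : P →ₗ[B] Q) (hφ : Function.Surjective φ) :
    Nonempty (Basis (Fin (finrank B P - finrank B Q)) B (LinearMap.ker φ)) ∧
      ∃ ψ : Q →ₗ[B] P, φ ∘ₗ ψ = LinearMap.id ∧ φ ∘ₗ ψ ∘ₗ φ = φ := by
  obtain ⟨ψ, hψ0⟩ := Module.projective_lifting_property φ LinearMap.id hφ
  have hψ : φ ∘ₗ ψ ∘ₗ φ = φ := by
    rw [← LinearMap.comp_assoc, hψ0, LinearMap.id_comp]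
  haveI : Module.Projective B (LinearMap.ker φ) := ffr_projective_ker hψ
  haveI : Module.Finite B (LinearMap.ker φ) := ffr_finite_ker hψ
  refine ⟨?_, ψ, hψ0, hψ⟩
  refine Module.nonempty_basis_of_flat_of_finrank_eq B (LinearMap.ker φ)
    (finrank B P - finrank B Q) fun 𝔪 => ?_
  letI := Ideal.Quotient.field 𝔪.asIdeal
  have h1 := ffr_fibre_ker hψ (B ⧸ 𝔪.asIdeal)
  have h2 : finrank (B ⧸ 𝔪.asIdeal) ((B ⧸ 𝔪.asIdeal) ⊗[B] P) = finrank B P :=
    Module.finrank_baseChange
  have h3 : finrank (B ⧸ 𝔪.asIdeal) ((B ⧸ 𝔪.asIdeal) ⊗[B] Q) = finrank B Q :=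
    Module.finrank_baseChange
  have hsurj : Function.Surjective (φ.baseChange (B ⧸ 𝔪.asIdeal)) := by
    rw [LinearMap.baseChange_eq_ltensor]
    exact LinearMap.lTensor_surjective _ hφ
  rw [LinearMap.range_eq_top.mpr hsurj, finrank_top] at h1
  omega

end corollaries

end Fermat.Agent.FF
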