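/-
Project FF (S19): THE ASSEMBLY.  `ff_SeamHO → ff_SeamDESC → ff_SeamLocal N ℓ k → ` the frozen
statement S19 (verbatim conclusion), using from main: `egs_exists_fixing` (stabilisers are open) and
`tj_finite` (finiteness of `J₀(N)[ℓ^k]`).  Prefix `ff_`.
-/
import Fermat.Agent.FF.Seams
import Fermat.Agent.JT3.ES.Smooth
import Fermat.Agent.JT3.Tate.JZeroLattice

set_option autoImplicit false

noncomputable section

namespace Fermat.Agent.FF

open ModularCurve AlgebraicCurve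

/-- there is a place of `Q̄` over every prime. -/
theorem ff_exists_place (ℓ : ℕ) (hℓ : ℓ.Prime) :
    ∃ A : ValuationSubring ff_Qb, A.LiesOverPrime ℓ := by
  let Z : Subring ff_Qb := (algebraMap ℤ ff_Qb).range
  let l : Z := ⟨(ℓ : ff_Qb), ⟨(ℓ : ℤ), by simp⟩⟩
  have hne : Ideal.span ({l} : Set Z) ≠ ⊤ := by
    intro h
    rw [Ideal.span_singleton_eq_top] at h
    obtain ⟨⟨b, hb⟩, hbl⟩ := h.exists_right_inv
    obtain ⟨n, rfl⟩ := hb
    have h1 : ((ℓ : ℤ) * n : ℤ) = 1 := by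
      have h2 : (algebraMap ℤ ff_Qb) ((ℓ : ℤ) * n) = (algebraMap ℤ ff_Qb) 1 := by
        rw [map_mul, map_one]
        have := congrArg Subtype.val hbl
        simpa [l] using this
      exact (algebraMap ℤ ff_Qb).injective_int h2
    have h3 : (ℓ : ℤ) ∣ 1 := ⟨n, h1.symm⟩
    have h4 : ℓ ∣ 1 := by exact_mod_cast h3
    exact hℓ.one_lt.ne' (Nat.dvd_one.1 h4)
  obtain ⟨B, -, hB⟩ := Ideal.image_subset_nonunits_valuationSubring (Ideal.span ({l} : Set Z)) hne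
  exact ⟨B, hB ⟨l, Ideal.subset_span rfl, rfl⟩⟩

/-- the torsion subgroups are finite. -/
theorem ff_finite_tors (N : ℕ) [NeZero N] (ℓ : ℕ) [Fact ℓ.Prime] (k : ℕ) :
    Finite ↥(Submodule.torsionBy ℤ (JZero N) ((ℓ : ℤ) ^ k)) := by
  have := Fermat.Agent.JT3.tj_finite N ℓ k
  refine Finite.of_injective
    (fun x : ↥(Submodule.torsionBy ℤ (JZero N) ((ℓ : ℤ) ^ k)) =>
      (⟨x.1, by
        have hx := x.2
        rw [Submodule.mem_torsionBy_iff] at hx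
        have h1 : ((ℓ : ℤ) ^ k) • (x : JZero N) = (ℓ ^ k : ℕ) • (x : JZero N) := by
          rw [← natCast_zsmul]; push_cast; rfl
        rw [← h1]; exact hx⟩ : {x : JZero N // ℓ ^ k • x = 0})) ?_
  intro x y h
  exact Subtype.ext (congrArg Subtype.val h)

/-- the abstract Hopf model of the torsion module from the seams. -/
theorem ff_hopfModel_of_seams (p : ℕ) [NeZero p] (ℓ : ℕ) [Fact ℓ.Prime] (k : ℕ)
    (hHO : ff_SeamHO) (hDESC : ff_SeamDESC) (hLOC : ff_SeamLocal p ℓ k) :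
    ff_HasHopfModel ℓ ↥(Submodule.torsionBy ℤ (JZero p) ((ℓ : ℤ) ^ k)) := by
  obtain ⟨A, hA⟩ := ff_exists_place ℓ (Fact.out : ℓ.Prime)
  have := ff_finite_tors p ℓ k
  obtain ⟨H₁, hH₁⟩ := hLOC A hA
  have hopen : ∀ x : ↥(Submodule.torsionBy ℤ (JZero p) ((ℓ : ℤ) ^ k)),
      ∃ K : IntermediateField ℚ ff_Qb, FiniteDimensional ℚ K ∧
        ∀ σ ∈ K.fixingSubgroup, σ • x = x := by
    intro x
    obtain ⟨L, hL, hfix⟩ := Fermat.Agent.JT3.egs_exists_fixing p (x : JZero p)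
    refine ⟨L, hL, fun σ hσ => Subtype.ext ?_⟩
    rw [ff_coe_smul_tors]
    exact hfix σ (fun y hy => hσ ⟨y, hy⟩)
  obtain ⟨H, hH⟩ := hDESC ℓ A hA _ hopen H₁ hH₁
  exact hHO ℓ _ H hH

/-- **FF assembly for S19.** -/
theorem ff_S19_of_seams (p : ℕ) [NeZero p] (ℓ : ℕ) [Fact ℓ.Prime] (_hℓp : ¬ ℓ ∣ p) (k : ℕ)
    (hHO : ff_SeamHO) (hDESC : ff_SeamDESC) (hLOC : ff_SeamLocal p ℓ k) :
    ∃ (H : Type) (_ : CommRing H) (_ : HopfAlgebra (GaloisRep.ratLocalizedAt ℓ) H),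
      Module.Finite (GaloisRep.ratLocalizedAt ℓ) H ∧ Module.Flat (GaloisRep.ratLocalizedAt ℓ) H ∧
      Coalgebra.IsCocomm (GaloisRep.ratLocalizedAt ℓ) H ∧
      ∃ e : WithConv (H →ₐ[GaloisRep.ratLocalizedAt ℓ] AlgebraicClosure ℚ) ≃
          ↥(Submodule.torsionBy ℤ (JZero p) ((ℓ : ℤ) ^ k)),
        (∀ f g, e (f * g) = e f + e g) ∧
        ∀ (σ : AlgebraicClosure ℚ ≃ₐ[ℚ] AlgebraicClosure ℚ)
          (f g : WithConv (H →ₐ[GaloisRep.ratLocalizedAt ℓ] AlgebraicClosure ℚ)),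
          (∀ h : H, g h = σ (f h)) → ((e g : JZero p)) = σ • (e f : JZero p) := by
  obtain ⟨H', i1, i2, h1, h2, h3, e, he1, he2⟩ := ff_hopfModel_of_seams p ℓ k hHO hDESC hLOC
  refine ⟨H', i1, i2, h1, h2, h3, e, he1, fun σ f g hfg => ?_⟩
  rw [he2 σ f g hfg, ff_coe_smul_tors]

end Fermat.Agent.FF
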