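/-
Project FF (S19): THE GEOMETRIC ASSEMBLY.
`ff_SeamADD → ff_SeamGAL → ff_SeamINST N ℓ k → ff_SeamLocal N ℓ k`, hence (with `FF/Assembly.lean`)
`ff_S19_of_geom : ff_SeamHO → ff_SeamDESC → ff_SeamADD → ff_SeamGAL → ff_SeamINST p ℓ k → ` S19.
Prefix `ff_`.
-/
import Fermat.Agent.FF.SeamsGeom
import Fermat.Agent.FF.Assembly

set_option autoImplicit false

noncomputable section

namespace Fermat.Agent.FF

open ModularCurve AlgebraicCurve

/-! ### the comultiplication-closed functions form a subalgebra -/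

section Comul

variable {M : Type} [AddCommGroup M] {K : Type} [Field K]

/-- `Δ φ ∈ S ⊗ S` -/
def ff_ComulIn (S : Set (M → K)) (φ : M → K) : Prop :=
  ∃ (r : ℕ) (α β : Fin r → M → K), (∀ j, α j ∈ S) ∧ (∀ j, β j ∈ S) ∧
    ∀ x y : M, φ (x + y) = ∑ j, α j x * β j y

theorem ff_comulIn_add {S : Set (M → K)} {φ ψ : M → K} (hφ : ff_ComulIn S φ)
    (hψ : ff_ComulIn S ψ) : ff_ComulIn S (φ + ψ) := by
  obtain ⟨r, α, β, hα, hβ, h⟩ := hφ
  obtain ⟨r', α', β', hα', hβ', h'⟩ := hψ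
  refine ⟨r + r', Fin.append α α', Fin.append β β', ?_, ?_, fun x y => ?_⟩
  · intro j
    refine Fin.addCases (fun i => ?_) (fun i => ?_) j
    · rw [Fin.append_left]; exact hα i
    · rw [Fin.append_right]; exact hα' i
  · intro j
    refine Fin.addCases (fun i => ?_) (fun i => ?_) j
    · rw [Fin.append_left]; exact hβ i
    · rw [Fin.append_right]; exact hβ' i
  · rw [Fin.sum_univ_add]
    simp only [Fin.append_left, Fin.append_right, Pi.add_apply]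
    rw [h, h']

theorem ff_comulIn_mul {S : Set (M → K)} (hS : ∀ a b, a ∈ S → b ∈ S → a * b ∈ S) {φ ψ : M → K}
    (hφ : ff_ComulIn S φ) (hψ : ff_ComulIn S ψ) : ff_ComulIn S (φ * ψ) := by
  obtain ⟨r, α, β, hα, hβ, h⟩ := hφ
  obtain ⟨r', α', β', hα', hβ', h'⟩ := hψ
  refine ⟨r * r', fun t => α (finProdFinEquiv.symm t).1 * α' (finProdFinEquiv.symm t).2,
    fun t => β (finProdFinEquiv.symm t).1 * β' (finProdFinEquiv.symm t).2,
    fun t => hS _ _ (hα _) (hα' _), fun t => hS _ _ (hβ _) (hβ' _), fun x y => ?_⟩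
  rw [Pi.mul_apply, h, h', Finset.sum_mul_sum]
  rw [← Finset.sum_product', Finset.univ_product_univ]
  rw [← Equiv.sum_comp finProdFinEquiv.symm]
  refine Finset.sum_congr rfl fun t _ => ?_
  simp only [Pi.mul_apply]
  ring

theorem ff_comulIn_const {S : Set (M → K)} (c : K) (hc : (fun _ : M => c) ∈ S)
    (h1 : (fun _ : M => (1 : K)) ∈ S) : ff_ComulIn S (fun _ : M => c) :=
  ⟨1, fun _ => fun _ => c, fun _ => fun _ => 1, fun _ => hc, fun _ => h1, fun x y => by simp⟩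

end Comul

/-! ### the assembly -/

theorem ff_local_of_seams (N : ℕ) [NeZero N] (ℓ : ℕ) [Fact ℓ.Prime] (k : ℕ)
    (hADD : ff_SeamADD) (hGAL : ff_SeamGAL) (hINST : ff_SeamINST N ℓ k) :
    ff_SeamLocal N ℓ k := by
  intro A hA
  obtain ⟨L₁, O, iO1, iO2, iO3, iO4, iO5, iκ, 𝒜, i𝒜1, i𝒜2, C, iC1, iC2, π, Λ, lead, g, n, m0, c0,
    PK, Pκ, P0, hunr, hrange, hres, hpkg, hP, hLK, hUK, hLκ, hUκ, hequiv, hsep⟩ := hINST A hA
  have hfinM := ff_finite_tors N ℓ k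
  let M : Type := ↥(Submodule.torsionBy ℤ (JZero N) ((ℓ : ℤ) ^ k))
  set H : Subalgebra O (M → ff_Qb) := ff_symAlg PK with hH
  have key : ∀ (c : ff_Qb) (hc : c ∈ A), IsLocalRing.residue ↥A ⟨c, hc⟩ = 0 ↔ c ∈ A.nonunits := by
    intro c hc
    rw [IsLocalRing.residue_eq_zero_iff, A.mem_nonunits_iff_exists_mem_maximalIdeal]
    exact ⟨fun h => ⟨hc, h⟩, fun ⟨_, h⟩ => h⟩
  -- constants
  have hOA : ∀ o : O, algebraMap O ff_Qb o ∈ A := fun o => by
    have : algebraMap O ff_Qb o ∈ (A : Set ff_Qb) ∩ (L₁ : Set ff_Qb) := by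
      rw [← hrange]; exact ⟨o, rfl⟩
    exact this.1
  have hOL : ∀ o : O, algebraMap O ff_Qb o ∈ L₁ := fun o => by
    have : algebraMap O ff_Qb o ∈ (A : Set ff_Qb) ∩ (L₁ : Set ff_Qb) := by
      rw [← hrange]; exact ⟨o, rfl⟩
    exact this.2
  -- the generators are `A`-valued
  have hgenA : ∀ (a : 𝒜) (i : ℕ) (z : M), ff_symFun PK a i z ∈ A := by
    intro a i z
    unfold ff_symFun
    rw [Multiset.esymm]
    refine Subring.multiset_sum_mem A.toSubring _ ?_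
    intro c hc
    rw [Multiset.mem_map] at hc
    obtain ⟨t, ht, rfl⟩ := hc
    refine Subring.multiset_prod_mem A.toSubring _ ?_
    intro d hd
    have hd' := Multiset.mem_of_le (Multiset.mem_powersetCard.1 ht).1 hd
    rw [Multiset.mem_map] at hd'
    obtain ⟨j, -, rfl⟩ := hd'
    exact (hP z j a).1
  -- all of `H` is `A`-valued and equivariant
  have hHA : ∀ φ ∈ H, ∀ x : M, φ x ∈ A := by
    intro φ hφ
    induction hφ using Algebra.adjoin_induction with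
    | mem φ hφ =>
      obtain ⟨a, i, rfl⟩ := hφ
      exact hgenA a i
    | algebraMap o => exact fun x => hOA o
    | add φ ψ _ _ h1 h2 => exact fun x => A.add_mem _ _ (h1 x) (h2 x)
    | mul φ ψ _ _ h1 h2 => exact fun x => A.mul_mem _ _ (h1 x) (h2 x)
  have hHeq : ∀ φ ∈ H, ∀ σ ∈ L₁.fixingSubgroup, ∀ x : M, φ (σ • x) = σ (φ x) := by
    intro φ hφ
    induction hφ using Algebra.adjoin_induction with
    | mem φ hφ =>
      obtain ⟨a, i, rfl⟩ := hφ
      exact fun σ hσ x => hequiv σ hσ x a i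
    | algebraMap o =>
      intro σ hσ x
      have h1 : (algebraMap O (M → ff_Qb) o) = fun _ => algebraMap O ff_Qb o := rfl
      rw [h1]
      exact (hσ ⟨_, hOL o⟩).symm
    | add φ ψ _ _ h1 h2 =>
      intro σ hσ x
      rw [Pi.add_apply, Pi.add_apply, h1 σ hσ x, h2 σ hσ x, map_add]
    | mul φ ψ _ _ h1 h2 =>
      intro σ hσ x
      rw [Pi.mul_apply, Pi.mul_apply, h1 σ hσ x, h2 σ hσ x, map_mul]
  have hopen : ∀ x : M, ∃ K : IntermediateField ℚ ff_Qb, FiniteDimensional ℚ K ∧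
      ∀ σ ∈ K.fixingSubgroup, σ • x = x := by
    intro x
    obtain ⟨L, hL, hfix⟩ := Fermat.Agent.JT3.egs_exists_fixing N (x : JZero N)
    refine ⟨L, hL, fun σ hσ => Subtype.ext ?_⟩
    rw [ff_coe_smul_tors]
    exact hfix σ (fun y hy => hσ ⟨y, hy⟩)
  obtain ⟨hHfin, hHinj, hHmax⟩ := hGAL A L₁ O hrange M hopen H hHA hHeq
  -- the abstract residuation theorem
  have hΔ := hADD O 𝒜 C π ff_Qb (IsLocalRing.ResidueField ↥A) Λ lead g n m0 c0 hpkg M PK Pκ P0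
    A.toSubring (IsLocalRing.residue ↥A)
    (fun o => ⟨hOA o, hres o (hOA o)⟩) hP hLK hUK hLκ hUκ hHfin hHinj
    (fun 𝔪 h𝔪 => by
      obtain ⟨z, hz⟩ := hHmax 𝔪 h𝔪
      refine ⟨z, fun φ => (hz φ).trans ⟨fun h => ?_, fun h => ?_⟩⟩
      · exact ⟨⟨_, hHA φ φ.2 z⟩, rfl, (key _ (hHA φ φ.2 z)).2 h⟩
      · obtain ⟨c, hc, hc0⟩ := h
        rw [← hc]
        exact (key _ c.2).1 hc0)
  -- comultiplication on all of `H`
  have hmulH : ∀ a b : M → ff_Qb, a ∈ (H : Set (M → ff_Qb)) → b ∈ (H : Set (M → ff_Qb)) →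
      a * b ∈ (H : Set (M → ff_Qb)) := fun a b ha hb => H.mul_mem ha hb
  have hcomul : ∀ φ ∈ H, ff_ComulIn (H : Set (M → ff_Qb)) φ := by
    intro φ hφ
    induction hφ using Algebra.adjoin_induction with
    | mem φ hφ =>
      obtain ⟨a, i, rfl⟩ := hφ
      exact hΔ a i
    | algebraMap o =>
      exact ff_comulIn_const _ (H.algebraMap_mem o) (by
        have := H.one_mem
        exact this)
    | add φ ψ _ _ h1 h2 => exact ff_comulIn_add h1 h2
    | mul φ ψ _ _ h1 h2 => exact ff_comulIn_mul hmulH h1 h2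
  refine ⟨H.toSubring, ⟨L₁, hunr, fun φ hφ σ hσ x => hHeq φ hφ σ hσ x⟩, fun φ hφ x => hHA φ hφ x,
    fun x y hxy => ?_, fun φ hφ => hcomul φ hφ⟩
  obtain ⟨a, i, hai⟩ := hsep x y hxy
  exact ⟨ff_symFun PK a i, Algebra.subset_adjoin ⟨a, i, rfl⟩, hai⟩

/-- **S19 from all the seams.** -/
theorem ff_S19_of_geom (p : ℕ) [NeZero p] (ℓ : ℕ) [Fact ℓ.Prime] (hℓp : ¬ ℓ ∣ p) (k : ℕ)
    (hHO : ff_SeamHO) (hDESC : ff_SeamDESC) (hADD : ff_SeamADD) (hGAL : ff_SeamGAL)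
    (hINST : ff_SeamINST p ℓ k) :
    ∃ (H : Type) (_ : CommRing H) (_ : HopfAlgebra (GaloisRep.ratLocalizedAt ℓ) H),
      Module.Finite (GaloisRep.ratLocalizedAt ℓ) H ∧ Module.Flat (GaloisRep.ratLocalizedAt ℓ) H ∧
      Coalgebra.IsCocomm (GaloisRep.ratLocalizedAt ℓ) H ∧
      ∃ e : WithConv (H →ₐ[GaloisRep.ratLocalizedAt ℓ] AlgebraicClosure ℚ) ≃
          ↥(Submodule.torsionBy ℤ (JZero p) ((ℓ : ℤ) ^ k)),
        (∀ f g, e (f * g) = e f + e g) ∧
        ∀ (σ : AlgebraicClosure ℚ ≃ₐ[ℚ] AlgebraicClosure ℚ)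
          (f g : WithConv (H →ₐ[GaloisRep.ratLocalizedAt ℓ] AlgebraicClosure ℚ)),
          (∀ h : H, g h = σ (f h)) → ((e g : JZero p)) = σ • (e f : JZero p) :=
  ff_S19_of_seams p ℓ hℓp k hHO hDESC (ff_local_of_seams p ℓ k hADD hGAL hINST)

end Fermat.Agent.FF
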