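/-
Project FF (S19 + S32), leaf [DESC]: vocabulary of the final descent `ff_SeamDESC`.

`A` a valuation subring of `Q̄` over `ℓ`, `D = A.decompositionSubgroup ℚ`, `M` a finite `G_ℚ`-module,
`H₁` a local order at `A`.

* `ffx_conj σ ψ = (x ↦ σ (ψ (σ⁻¹ • x)))`: the conjugation action of `G_ℚ` on functions `M → Q̄`
  (`ψ` is `G_ℚ`-equivariant iff it is fixed by all `ffx_conj σ`).
* `ffx_HA A M H₁`: the `A`-subalgebra of `Map(M, Q̄)` generated by the `D`-conjugates of `H₁`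
  (`A`-valued, `D`-stable, `Δ`-closed; `Q̄ · H_A = Map(M, Q̄)`).
* `ffx_H ℓ A hA M H₁`: the `G_ℚ`-equivariant elements of `H_A`, a `ℤ_(ℓ)`-subalgebra: THE order.
* `ffx_Key`: the key claim `H₁ ⊆ A · H` (two-step descent: étale along the inertia field, density
  along the decomposition field); `ff_IsOrder ℓ M H` follows from it by pure algebra.
Owner: helper13.  Prefix `ffx_`.
-/
import Mathlib
import Fermat.Agent.FF.Seams

set_option autoImplicit false
set_option linter.style.haveILetI false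
set_option linter.unusedSectionVars false

noncomputable section

namespace Fermat.Agent.FF

section conj

variable {M : Type} [AddCommGroup M] [DistribMulAction ff_GQ M]

/-- the conjugation action of `G_ℚ` on functions `M → Q̄` -/
def ffx_conj (σ : ff_GQ) (ψ : M → ff_Qb) : M → ff_Qb := fun x => σ (ψ (σ⁻¹ • x))

theorem ffx_conj_apply (σ : ff_GQ) (ψ : M → ff_Qb) (x : M) :
    ffx_conj σ ψ x = σ (ψ (σ⁻¹ • x)) := rfl

theorem ffx_conj_one (ψ : M → ff_Qb) : ffx_conj 1 ψ = ψ := by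
  funext x
  simp [ffx_conj]

theorem ffx_conj_mul (σ τ : ff_GQ) (ψ : M → ff_Qb) :
    ffx_conj (σ * τ) ψ = ffx_conj σ (ffx_conj τ ψ) := by
  funext x
  simp [ffx_conj, mul_smul]

theorem ffx_conj_zero (σ : ff_GQ) : ffx_conj σ (0 : M → ff_Qb) = 0 := by
  funext x
  simp [ffx_conj]

theorem ffx_conj_add (σ : ff_GQ) (ψ χ : M → ff_Qb) :
    ffx_conj σ (ψ + χ) = ffx_conj σ ψ + ffx_conj σ χ := by
  funext x
  simp [ffx_conj]

theorem ffx_conj_neg (σ : ff_GQ) (ψ : M → ff_Qb) : ffx_conj σ (-ψ) = -ffx_conj σ ψ := by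
  funext x
  simp [ffx_conj]

theorem ffx_conj_sub (σ : ff_GQ) (ψ χ : M → ff_Qb) :
    ffx_conj σ (ψ - χ) = ffx_conj σ ψ - ffx_conj σ χ := by
  funext x
  simp [ffx_conj]

theorem ffx_conj_mul_fun (σ : ff_GQ) (ψ χ : M → ff_Qb) :
    ffx_conj σ (ψ * χ) = ffx_conj σ ψ * ffx_conj σ χ := by
  funext x
  simp [ffx_conj]

theorem ffx_conj_smul (σ : ff_GQ) (a : ff_Qb) (ψ : M → ff_Qb) :
    ffx_conj σ (a • ψ) = σ a • ffx_conj σ ψ := by
  funext x
  simp [ffx_conj]

theorem ffx_conj_const (σ : ff_GQ) (a : ff_Qb) :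
    ffx_conj σ (fun _ : M => a) = fun _ => σ a := rfl

theorem ffx_conj_sum {ι : Type*} (s : Finset ι) (σ : ff_GQ) (ψ : ι → M → ff_Qb) :
    ffx_conj σ (∑ i ∈ s, ψ i) = ∑ i ∈ s, ffx_conj σ (ψ i) := by
  funext x
  simp [ffx_conj, Finset.sum_apply]

/-- `ψ` is `G_ℚ`-equivariant iff it is fixed by the conjugation action. -/
theorem ffx_equivariant_iff (ψ : M → ff_Qb) :
    (∀ (σ : ff_GQ) (x : M), ψ (σ • x) = σ (ψ x)) ↔ ∀ σ : ff_GQ, ffx_conj σ ψ = ψ := by
  constructor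
  · intro h σ
    funext x
    rw [ffx_conj_apply, ← h, smul_inv_smul]
  · intro h σ x
    have := congrFun (h σ) (σ • x)
    rw [ffx_conj_apply, inv_smul_smul] at this
    exact this.symm

end conj

section order

theorem ffx_intCast_mem (A : ValuationSubring ff_Qb) (n : ℤ) : (n : ff_Qb) ∈ A := by
  have : ((n : ℤ) : ff_Qb) = ((n : A) : ff_Qb) := by push_cast; rfl
  rw [this]; exact (n : A).2

/-- `ℤ_(ℓ) ⊆ A`. -/
theorem ffx_rat_mem {ℓ : ℕ} [Fact ℓ.Prime] {A : ValuationSubring ff_Qb} (hA : A.LiesOverPrime ℓ)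
    (r : ff_R ℓ) : algebraMap (ff_R ℓ) ff_Qb r ∈ A := by
  have hr : (r : ℚ).den.Coprime ℓ := r.2
  have hℓ : A.valuation (ℓ : ff_Qb) < 1 := (ValuationSubring.mem_nonunits_iff (A := A)).1 hA
  have hden1 : A.valuation ((r : ℚ).den : ff_Qb) = 1 := by
    refine le_antisymm ?_ (not_lt.mp fun hlt => ?_)
    · rw [ValuationSubring.valuation_le_one_iff]
      exact_mod_cast ffx_intCast_mem A ((r : ℚ).den : ℤ)
    · obtain ⟨a, b, hab⟩ := Nat.isCoprime_iff_coprime.mpr hr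
      have h1 : (a : ff_Qb) * ((r : ℚ).den : ff_Qb) + (b : ff_Qb) * (ℓ : ff_Qb) = 1 := by
        have := congrArg (fun z : ℤ => (z : ff_Qb)) hab
        push_cast at this
        exact this
      have ha : A.valuation (a : ff_Qb) ≤ 1 :=
        (ValuationSubring.valuation_le_one_iff A _).2 (ffx_intCast_mem A a)
      have hb : A.valuation (b : ff_Qb) ≤ 1 :=
        (ValuationSubring.valuation_le_one_iff A _).2 (ffx_intCast_mem A b)
      have h2 : A.valuation ((a : ff_Qb) * ((r : ℚ).den : ff_Qb) + (b : ff_Qb) * (ℓ : ff_Qb)) < 1 := by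
        refine Valuation.map_add_lt _ ?_ ?_
        · rw [map_mul]
          exact mul_lt_one_of_nonneg_of_lt_one_right ha zero_le hlt
        · rw [map_mul]
          exact mul_lt_one_of_nonneg_of_lt_one_right hb zero_le hℓ
      rw [h1, map_one] at h2
      exact lt_irrefl _ h2
  have hcast : algebraMap (ff_R ℓ) ff_Qb r = ((r : ℚ).num : ff_Qb) / ((r : ℚ).den : ff_Qb) := by
    have h0 : algebraMap (ff_R ℓ) ff_Qb r = algebraMap ℚ ff_Qb (r : ℚ) := rfl
    rw [h0]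
    conv_lhs => rw [← Rat.num_div_den (r : ℚ)]
    rw [map_div₀, map_intCast, map_natCast]
  rw [hcast, ← ValuationSubring.valuation_le_one_iff, map_div₀, hden1, div_one,
    ValuationSubring.valuation_le_one_iff]
  exact ffx_intCast_mem A _

variable (ℓ : ℕ) [Fact ℓ.Prime] (A : ValuationSubring ff_Qb) (hA : A.LiesOverPrime ℓ)
  (M : Type) [AddCommGroup M] [DistribMulAction ff_GQ M] (H₁ : Subring (M → ff_Qb))

/-- the generators of `H_A`: the conjugates of `H₁` under the decomposition group of `A` -/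
def ffx_gens : Set (M → ff_Qb) :=
  {ψ | ∃ σ ∈ A.decompositionSubgroup ℚ, ∃ φ ∈ H₁, ψ = ffx_conj σ φ}

/-- the `A`-subalgebra of `Map(M, Q̄)` generated by the conjugates of `H₁` under the decomposition
group of `A` -/
def ffx_HA : Subalgebra A (M → ff_Qb) := Algebra.adjoin A (ffx_gens A M H₁)

/-- THE order: the `G_ℚ`-equivariant elements of `H_A`, a `ℤ_(ℓ)`-subalgebra of `Map(M, Q̄)`. -/
def ffx_H : Subalgebra (ff_R ℓ) (M → ff_Qb) where
  carrier := {φ | φ ∈ ffx_HA A M H₁ ∧ ∀ (σ : ff_GQ) (x : M), φ (σ • x) = σ (φ x)}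
  mul_mem' {a b} ha hb := ⟨mul_mem ha.1 hb.1, fun σ x => by
    rw [Pi.mul_apply, Pi.mul_apply, ha.2, hb.2, map_mul]⟩
  one_mem' := ⟨one_mem _, fun σ x => by rw [Pi.one_apply, Pi.one_apply, map_one]⟩
  add_mem' {a b} ha hb := ⟨add_mem ha.1 hb.1, fun σ x => by
    rw [Pi.add_apply, Pi.add_apply, ha.2, hb.2, map_add]⟩
  zero_mem' := ⟨zero_mem _, fun σ x => by rw [Pi.zero_apply, Pi.zero_apply, map_zero]⟩
  algebraMap_mem' r := by
    refine ⟨?_, fun σ x => ?_⟩
    · have h : algebraMap (ff_R ℓ) (M → ff_Qb) r =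
          algebraMap A (M → ff_Qb) ⟨algebraMap (ff_R ℓ) ff_Qb r, ffx_rat_mem hA r⟩ := rfl
      rw [h]
      exact Subalgebra.algebraMap_mem _ _
    · have h : ∀ y : M, algebraMap (ff_R ℓ) (M → ff_Qb) r y = algebraMap ℚ ff_Qb (r : ℚ) :=
        fun _ => rfl
      rw [h, h, AlgEquiv.commutes]

theorem ffx_mem_H (φ : M → ff_Qb) :
    φ ∈ ffx_H ℓ A hA M H₁ ↔
      φ ∈ ffx_HA A M H₁ ∧ ∀ (σ : ff_GQ) (x : M), φ (σ • x) = σ (φ x) := Iff.rfl

/-- **The key claim of [DESC]**: `H₁ ⊆ A · H`. -/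
def ffx_Key : Prop :=
  ∀ φ ∈ H₁, φ ∈ Submodule.span A ((ffx_H ℓ A hA M H₁ : Subalgebra (ff_R ℓ) (M → ff_Qb)) :
    Set (M → ff_Qb))

end order

end Fermat.Agent.FF
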