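/-
Project FF (S19 + S32), leaf [HO]: the algebra reduction.

`R = ℤ_(ℓ) ⊆ ℚ` (`GaloisRep.ratLocalizedAt ℓ`), `M` a finite abelian group with an action of
`Γℚ`, `H` an `R`-subalgebra of the algebra of functions `M → Q̄` such that
* every `φ ∈ H` is `Γℚ`-equivariant,
* `H` is a finite `R`-module,
* `H` separates the points of `M`,
* `H` is closed under `Δ φ (x, y) = φ (x + y)` (inside the image of `H ⊗ H`).
Then `H` is a finite flat cocommutative Hopf algebra over `R` whose `Q̄`-points are `M`,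
compatibly with the group structures and the Galois actions (the conclusion of S19 / of
`GaloisRepAdic.IsFlatAt` for the module `M`).

Prefix `ffh_`.
-/
import Mathlib
import Fermat.Prelude.Def_GaloisRep_Flat

set_option autoImplicit false
set_option linter.unusedSectionVars false
set_option linter.style.haveILetI false

noncomputable section

open scoped TensorProduct

namespace Fermat.Agent.FF

local notation "Qb" => AlgebraicClosure ℚ
local notation "GQ" => (AlgebraicClosure ℚ ≃ₐ[ℚ] AlgebraicClosure ℚ)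

/-! ### The base ring `ℤ_(ℓ)` -/

section Base

variable (ℓ : ℕ) [hℓ : Fact ℓ.Prime]

theorem ffh_mem_iff (q : ℚ) : q ∈ GaloisRep.ratLocalizedAt ℓ ↔ ¬ ℓ ∣ q.den := by
  change q.den.Coprime ℓ ↔ _
  rw [Nat.coprime_comm, Nat.Prime.coprime_iff_not_dvd hℓ.out]

theorem ffh_mem_of_padic {q : ℚ} (_hq : q ≠ 0) (h : 0 ≤ padicValRat ℓ q) :
    q ∈ GaloisRep.ratLocalizedAt ℓ := by
  rw [ffh_mem_iff]
  intro hdvd
  have hnum : ¬ (ℓ : ℤ) ∣ q.num := by
    intro h2
    have h3 : ℓ ∣ q.num.natAbs := Int.natCast_dvd.1 h2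
    have := Nat.dvd_gcd h3 hdvd
    rw [q.reduced] at this
    exact hℓ.out.one_lt.ne' (Nat.dvd_one.1 this)
  have h1 : padicValRat ℓ q = padicValInt ℓ q.num - padicValNat ℓ q.den := rfl
  have h2 : padicValInt ℓ q.num = 0 := padicValInt.eq_zero_of_not_dvd hnum
  have h3 : 1 ≤ padicValNat ℓ q.den :=
    one_le_padicValNat_of_dvd (Nat.pos_of_ne_zero q.den_nz).ne' hdvd
  rw [h1, h2] at h
  omega

theorem ffh_padic_nonneg {q : ℚ} (hq : q ∈ GaloisRep.ratLocalizedAt ℓ) :
    0 ≤ padicValRat ℓ q := by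
  rw [ffh_mem_iff] at hq
  have h1 : padicValRat ℓ q = padicValInt ℓ q.num - padicValNat ℓ q.den := rfl
  have h3 : padicValNat ℓ q.den = 0 := padicValNat.eq_zero_of_not_dvd hq
  rw [h1, h3]
  simp

instance ffh_isDomain : IsDomain ↥(GaloisRep.ratLocalizedAt ℓ) := inferInstance

instance ffh_isPrincipalIdealRing : IsPrincipalIdealRing ↥(GaloisRep.ratLocalizedAt ℓ) := by
  classical
  refine ⟨fun I => ?_⟩
  by_cases hI : I = ⊥
  · exact ⟨0, by rw [hI]; simp⟩
  have hex : ∃ n : ℕ, ∃ x ∈ I, x ≠ 0 ∧ padicValRat ℓ (x : ℚ) = n := by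
    obtain ⟨x, hxI, hx0⟩ := Submodule.exists_mem_ne_zero_of_ne_bot hI
    have h0 := ffh_padic_nonneg ℓ x.2
    exact ⟨(padicValRat ℓ (x : ℚ)).toNat, x, hxI, hx0, (Int.toNat_of_nonneg h0).symm⟩
  obtain ⟨x, hxI, hx0, hxn⟩ := Nat.find_spec hex
  refine ⟨x, le_antisymm ?_ ?_⟩
  · intro y hy
    by_cases hy0 : y = 0
    · rw [hy0]; exact Submodule.zero_mem _
    have hyn : padicValRat ℓ (y : ℚ) = ((padicValRat ℓ (y : ℚ)).toNat : ℤ) :=
      (Int.toNat_of_nonneg (ffh_padic_nonneg ℓ y.2)).symm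
    have hmin : Nat.find hex ≤ (padicValRat ℓ (y : ℚ)).toNat :=
      Nat.find_min' hex ⟨y, hy, hy0, hyn⟩
    have hx0' : (x : ℚ) ≠ 0 := fun h => hx0 (Subtype.ext h)
    have hy0' : (y : ℚ) ≠ 0 := fun h => hy0 (Subtype.ext h)
    have hq : (y : ℚ) / (x : ℚ) ∈ GaloisRep.ratLocalizedAt ℓ := by
      apply ffh_mem_of_padic ℓ (div_ne_zero hy0' hx0')
      rw [padicValRat.div hy0' hx0', hxn, hyn]
      have : ((Nat.find hex : ℕ) : ℤ) ≤ ((padicValRat ℓ (y : ℚ)).toNat : ℤ) := by
        exact_mod_cast hmin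
      linarith
    rw [Submodule.mem_span_singleton]
    refine ⟨⟨_, hq⟩, ?_⟩
    apply Subtype.ext
    change (y : ℚ) / (x : ℚ) * (x : ℚ) = (y : ℚ)
    field_simp
  · rw [Submodule.span_le]
    intro y hy
    rw [Set.mem_singleton_iff] at hy
    rw [hy]
    exact hxI

end Base

section Base2

variable (ℓ : ℕ) [hℓ : Fact ℓ.Prime]

theorem ffh_intCast_mem (n : ℤ) : (n : ℚ) ∈ GaloisRep.ratLocalizedAt ℓ := by
  rw [ffh_mem_iff, Rat.den_intCast]
  exact fun h => hℓ.out.one_lt.ne' (Nat.dvd_one.1 h)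

instance ffh_isFractionRing : IsFractionRing ↥(GaloisRep.ratLocalizedAt ℓ) ℚ := by
  apply IsFractionRing.of_field
  intro z
  refine ⟨⟨(z.num : ℚ), ffh_intCast_mem ℓ _⟩, ⟨((z.den : ℤ) : ℚ), ffh_intCast_mem ℓ _⟩, ?_⟩
  change z = (z.num : ℚ) / (((z.den : ℤ) : ℚ))
  rw [Int.cast_natCast]
  exact (Rat.num_div_den z).symm

/-- An element of `ℚ` which is integral over `ℤ_(ℓ)` lies in `ℤ_(ℓ)`. -/
theorem ffh_mem_of_isIntegral {q : ℚ} (hq : IsIntegral ↥(GaloisRep.ratLocalizedAt ℓ) q) :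
    q ∈ GaloisRep.ratLocalizedAt ℓ := by
  obtain ⟨y, hy⟩ := IsIntegrallyClosed.isIntegral_iff.1 hq
  rw [← hy]
  exact y.2

end Base2

/-! ### Linear independence -/

section Indep

instance ffh_isGalois : IsGalois ℚ Qb := by
  haveI : Algebra.IsAlgebraic ℚ Qb := AlgebraicClosure.isAlgebraic ℚ
  haveI : IsAlgClosure ℚ Qb := ⟨inferInstance, inferInstance⟩
  exact IsAlgClosure.isGalois ℚ Qb

/-- An element of `Q̄` fixed by the whole Galois group is rational. -/
theorem ffh_fixed_mem_rat (c : Qb) (h : ∀ σ : GQ, σ c = c) : ∃ q : ℚ, algebraMap ℚ Qb q = c := by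
  have hbot : c ∈ (⊥ : IntermediateField ℚ Qb) := (InfiniteGalois.mem_bot_iff_fixed c).2 h
  exact IntermediateField.mem_bot.1 hbot

variable {M : Type} [AddCommGroup M] [DistribMulAction GQ M]

/-- **Galois descent of linear independence**: `ℚ`-linearly independent equivariant functions
`M → Q̄` are `Q̄`-linearly independent. -/
theorem ffh_indep_descent {ι : Type} [Fintype ι] (e : ι → M → Qb)
    (heq : ∀ i (σ : GQ) x, e i (σ • x) = σ (e i x))
    (hℚ : ∀ c : ι → ℚ, (∀ x, ∑ i, algebraMap ℚ Qb (c i) * e i x = 0) → c = 0) :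
    ∀ c : ι → Qb, (∀ x, ∑ i, c i * e i x = 0) → c = 0 := by
  classical
  have key : ∀ n : ℕ, ∀ c : ι → Qb, (Finset.univ.filter fun i => c i ≠ 0).card = n →
      (∀ x, ∑ i, c i * e i x = 0) → c = 0 := by
    intro n
    induction n using Nat.strong_induction_on with
    | _ n ih =>
      intro c hcard hrel
      by_contra hc
      obtain ⟨i₀, hi₀⟩ : ∃ i₀, c i₀ ≠ 0 := by
        by_contra hcon
        push Not at hcon
        exact hc (funext hcon)
      -- normalise
      set c' : ι → Qb := fun i => (c i₀)⁻¹ * c i with hc'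
      have hc'i₀ : c' i₀ = 1 := inv_mul_cancel₀ hi₀
      have hrel' : ∀ x, ∑ i, c' i * e i x = 0 := by
        intro x
        have : ∑ i, c' i * e i x = (c i₀)⁻¹ * ∑ i, c i * e i x := by
          rw [Finset.mul_sum]
          refine Finset.sum_congr rfl fun i _ => ?_
          simp only [hc']
          ring
        rw [this, hrel x, mul_zero]
      have hsupp' : (Finset.univ.filter fun i => c' i ≠ 0) = Finset.univ.filter fun i => c i ≠ 0 := by
        ext i
        simp only [Finset.mem_filter, Finset.mem_univ, true_and, hc']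
        constructor
        · intro h h0
          exact h (by rw [h0, mul_zero])
        · intro h
          exact mul_ne_zero (inv_ne_zero hi₀) h
      -- the coefficients are Galois-invariant
      have hinv : ∀ (σ : GQ) i, σ (c' i) = c' i := by
        intro σ
        set d : ι → Qb := fun i => σ (c' i) - c' i with hd
        have hdrel : ∀ x, ∑ i, d i * e i x = 0 := by
          intro x
          have h1 : ∑ i, σ (c' i) * e i x = σ (∑ i, c' i * e i (σ⁻¹ • x)) := by
            rw [map_sum]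
            refine Finset.sum_congr rfl fun i _ => ?_
            have h3 : σ (e i (σ⁻¹ • x)) = e i x := by rw [← heq i σ, smul_inv_smul]
            rw [map_mul σ (c' i) (e i (σ⁻¹ • x)), h3]
          have h2 : ∑ i, d i * e i x = ∑ i, σ (c' i) * e i x - ∑ i, c' i * e i x := by
            rw [← Finset.sum_sub_distrib]
            refine Finset.sum_congr rfl fun i _ => ?_
            simp only [hd]
            ring
          rw [h2, h1, hrel' (σ⁻¹ • x), hrel' x, map_zero, sub_zero]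
        have hdsub : (Finset.univ.filter fun i => d i ≠ 0) ⊂
            Finset.univ.filter fun i => c' i ≠ 0 := by
          rw [Finset.ssubset_iff_of_subset]
          · refine ⟨i₀, ?_, ?_⟩
            · simp only [Finset.mem_filter, Finset.mem_univ, true_and]
              rw [hc'i₀]
              exact one_ne_zero
            · simp only [Finset.mem_filter, Finset.mem_univ, true_and, not_not, hd]
              rw [hc'i₀, map_one, sub_self]
          · intro i
            simp only [Finset.mem_filter, Finset.mem_univ, true_and, hd]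
            intro h h0
            apply h
            rw [h0, map_zero, sub_zero]
        have hlt : (Finset.univ.filter fun i => d i ≠ 0).card < n := by
          rw [← hcard, ← hsupp']
          exact Finset.card_lt_card hdsub
        have hd0 := ih _ hlt d rfl hdrel
        intro i
        have := congrFun hd0 i
        simp only [hd, Pi.zero_apply] at this
        exact sub_eq_zero.1 this
      -- hence rational
      have hq : ∀ i, ∃ q : ℚ, algebraMap ℚ Qb q = c' i := fun i =>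
        ffh_fixed_mem_rat (c' i) (fun σ => hinv σ i)
      choose q hq using hq
      have hq0 : q = 0 := by
        apply hℚ
        intro x
        simp only [hq]
        exact hrel' x
      have : c' i₀ = 0 := by rw [← hq i₀, hq0, Pi.zero_apply, map_zero]
      rw [hc'i₀] at this
      exact one_ne_zero this
  intro c hrel
  exact key _ c rfl hrel

/-- Products of linearly independent families of functions are linearly independent. -/
theorem ffh_indep_prod {K X Y ι κ : Type*} [Field K] [Fintype ι] [Fintype κ]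
    (e : ι → X → K) (f : κ → Y → K)
    (he : ∀ c : ι → K, (∀ x, ∑ i, c i * e i x = 0) → c = 0)
    (hf : ∀ c : κ → K, (∀ y, ∑ j, c j * f j y = 0) → c = 0) :
    ∀ c : ι × κ → K, (∀ x y, ∑ p, c p * (e p.1 x * f p.2 y) = 0) → c = 0 := by
  intro c hrel
  have h1 : ∀ y i, ∑ j, c (i, j) * f j y = 0 := by
    intro y
    have := he (fun i => ∑ j, c (i, j) * f j y) (by
      intro x
      have := hrel x y
      rw [Fintype.sum_prod_type] at this
      rw [← this]
      refine Finset.sum_congr rfl fun i _ => ?_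
      rw [Finset.sum_mul]
      refine Finset.sum_congr rfl fun j _ => ?_
      ring)
    intro i
    exact congrFun this i
  funext ⟨i, j⟩
  have := hf (fun j => c (i, j)) (fun y => h1 y i)
  exact congrFun this j

end Indep

/-! ### Functions on `M`, `M × M`, `M × (M × M)` -/

section Maps

variable (ℓ : ℕ) [hℓ : Fact ℓ.Prime]

/-- Pull-back of `Q̄`-valued functions along a map, as a homomorphism of `ℤ_(ℓ)`-algebras. -/
def ffh_pull {X Y : Type*} (u : X → Y) :
    (Y → Qb) →ₐ[GaloisRep.ratLocalizedAt ℓ] (X → Qb) :=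
  AlgHom.pi (fun x => Pi.evalAlgHom _ (fun _ : Y => Qb) (u x))

@[simp] theorem ffh_pull_apply {X Y : Type*} (u : X → Y) (f : Y → Qb) (x : X) :
    ffh_pull ℓ u f x = f (u x) := rfl

theorem ffh_algebraMap_injective :
    Function.Injective (algebraMap (GaloisRep.ratLocalizedAt ℓ) Qb) := by
  intro a b hab
  apply Subtype.ext
  exact (algebraMap ℚ Qb).injective hab

theorem ffh_algebraMap_fun_apply {X : Type*} (r : GaloisRep.ratLocalizedAt ℓ) (x : X) :
    (algebraMap (GaloisRep.ratLocalizedAt ℓ) (X → Qb) r) x =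
      algebraMap (GaloisRep.ratLocalizedAt ℓ) Qb r := rfl

variable {M : Type} [AddCommGroup M] [DistribMulAction GQ M]
variable (H : Subalgebra (GaloisRep.ratLocalizedAt ℓ) (M → Qb))

/-- `a ⊗ b ↦ ((x, y) ↦ a x * b y)`. -/
def ffh_Phi2 : H ⊗[GaloisRep.ratLocalizedAt ℓ] H →ₐ[GaloisRep.ratLocalizedAt ℓ] (M × M → Qb) :=
  Algebra.TensorProduct.productMap ((ffh_pull ℓ Prod.fst).comp H.val)
    ((ffh_pull ℓ Prod.snd).comp H.val)

@[simp] theorem ffh_Phi2_tmul (a b : H) (z : M × M) :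
    ffh_Phi2 ℓ H (a ⊗ₜ b) z = (a : M → Qb) z.1 * (b : M → Qb) z.2 := by
  simp [ffh_Phi2, Algebra.TensorProduct.productMap_apply_tmul]

/-- `a ⊗ (b ⊗ c) ↦ ((x, (y, z)) ↦ a x * b y * c z)`. -/
def ffh_Phi3 : H ⊗[GaloisRep.ratLocalizedAt ℓ] (H ⊗[GaloisRep.ratLocalizedAt ℓ] H)
    →ₐ[GaloisRep.ratLocalizedAt ℓ] (M × (M × M) → Qb) :=
  Algebra.TensorProduct.productMap ((ffh_pull ℓ Prod.fst).comp H.val)
    ((ffh_pull ℓ Prod.snd).comp (ffh_Phi2 ℓ H))

@[simp] theorem ffh_Phi3_tmul (a : H) (t : H ⊗[GaloisRep.ratLocalizedAt ℓ] H) (z : M × (M × M)) :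
    ffh_Phi3 ℓ H (a ⊗ₜ t) z = (a : M → Qb) z.1 * ffh_Phi2 ℓ H t z.2 := by
  simp [ffh_Phi3, Algebra.TensorProduct.productMap_apply_tmul]

end Maps

/-! ### Injectivity of `H ⊗ H → Map(M × M, Q̄)` -/

section Inj

variable (ℓ : ℕ) [hℓ : Fact ℓ.Prime]
variable {M : Type} [AddCommGroup M] [DistribMulAction GQ M]
variable (H : Subalgebra (GaloisRep.ratLocalizedAt ℓ) (M → Qb))

instance ffh_torsionFree : Module.IsTorsionFree (GaloisRep.ratLocalizedAt ℓ) H where
  isSMulRegular r hr := by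
    have hr0 : r ≠ 0 := hr.ne_zero
    have hr1 : algebraMap (GaloisRep.ratLocalizedAt ℓ) Qb r ≠ 0 := by
      intro h
      exact hr0 (ffh_algebraMap_injective ℓ (h.trans (map_zero _).symm))
    intro φ ψ h
    apply Subtype.ext
    funext x
    have h1 : (r • (φ : M → Qb)) x = (r • (ψ : M → Qb)) x := by
      have := congrArg (fun χ : H => (χ : M → Qb) x) h
      exact this
    rw [Pi.smul_apply, Pi.smul_apply, Algebra.smul_def, Algebra.smul_def] at h1
    exact mul_left_cancel₀ hr1 h1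

/-- A linear map to a space of functions which sends a basis to a `Q̄`-linearly independent
family is injective. -/
theorem ffh_injective_of_indep {N X κ : Type*} [AddCommGroup N]
    [Module (GaloisRep.ratLocalizedAt ℓ) N] [Fintype κ]
    (B : Module.Basis κ (GaloisRep.ratLocalizedAt ℓ) N)
    (Φ : N →ₗ[GaloisRep.ratLocalizedAt ℓ] (X → Qb))
    (hind : ∀ c : κ → Qb, (∀ x, ∑ p, c p * Φ (B p) x = 0) → c = 0) :
    Function.Injective Φ := by
  rw [injective_iff_map_eq_zero]
  intro t ht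
  have h1 : ∀ x, ∑ p, algebraMap (GaloisRep.ratLocalizedAt ℓ) Qb (B.repr t p) * Φ (B p) x = 0 := by
    intro x
    have h2 : Φ t = ∑ p, B.repr t p • Φ (B p) := by
      conv_lhs => rw [← B.sum_repr t]
      rw [map_sum]
      refine Finset.sum_congr rfl fun p _ => ?_
      rw [map_smul]
    have h3 := congrFun h2 x
    rw [ht, Finset.sum_apply] at h3
    rw [Pi.zero_apply] at h3
    rw [h3]
    refine Finset.sum_congr rfl fun p _ => ?_
    rw [Pi.smul_apply, Algebra.smul_def]
  have h4 := hind _ h1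
  have h5 : B.repr t = 0 := by
    apply Finsupp.ext
    intro p
    have := congrFun h4 p
    simp only [Pi.zero_apply] at this
    rw [Finsupp.zero_apply]
    exact ffh_algebraMap_injective ℓ (this.trans (map_zero _).symm)
  exact B.repr.map_eq_zero_iff.1 h5

variable (hequiv : ∀ φ ∈ H, ∀ (σ : GQ) (x : M), φ (σ • x) = σ (φ x))

include hequiv in
/-- An `ℤ_(ℓ)`-basis of `H` is `Q̄`-linearly independent. -/
theorem ffh_basis_indep {n : ℕ} (b : Module.Basis (Fin n) (GaloisRep.ratLocalizedAt ℓ) H) :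
    ∀ c : Fin n → Qb, (∀ x, ∑ i, c i * (b i : M → Qb) x = 0) → c = 0 := by
  apply ffh_indep_descent (fun i => (b i : M → Qb)) (fun i σ x => hequiv _ (b i).2 σ x)
  intro c hc
  have hli : LinearIndependent (GaloisRep.ratLocalizedAt ℓ) (fun i => (b i : M → Qb)) := by
    have := b.linearIndependent.map' H.val.toLinearMap
      (LinearMap.ker_eq_bot.2 Subtype.val_injective)
    exact this
  have hliQ : LinearIndependent ℚ (fun i => (b i : M → Qb)) :=
    (LinearIndependent.iff_fractionRing (GaloisRep.ratLocalizedAt ℓ) ℚ).1 hli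
  have h0 : ∑ i, c i • (b i : M → Qb) = 0 := by
    funext x
    rw [Finset.sum_apply, Pi.zero_apply, ← hc x]
    refine Finset.sum_congr rfl fun i _ => ?_
    rw [Pi.smul_apply, Algebra.smul_def]
  funext i
  exact Fintype.linearIndependent_iff.1 hliQ c h0 i

include hequiv in
theorem ffh_Phi2_injective [hfin : Module.Finite (GaloisRep.ratLocalizedAt ℓ) H] :
    Function.Injective (ffh_Phi2 ℓ H) := by
  obtain ⟨n, b⟩ := Module.basisOfFiniteTypeTorsionFree' (R := GaloisRep.ratLocalizedAt ℓ) (M := H)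
  have he := ffh_basis_indep ℓ H hequiv b
  have := ffh_injective_of_indep ℓ (b.tensorProduct b) (ffh_Phi2 ℓ H).toLinearMap (by
    intro c hc
    apply ffh_indep_prod (fun i => (b i : M → Qb)) (fun i => (b i : M → Qb)) he he c
    intro x y
    rw [← hc (x, y)]
    refine Finset.sum_congr rfl fun p _ => ?_
    rw [Module.Basis.tensorProduct_apply, AlgHom.toLinearMap_apply, ffh_Phi2_tmul])
  exact this

include hequiv in
theorem ffh_Phi3_injective [hfin : Module.Finite (GaloisRep.ratLocalizedAt ℓ) H] :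
    Function.Injective (ffh_Phi3 ℓ H) := by
  obtain ⟨n, b⟩ := Module.basisOfFiniteTypeTorsionFree' (R := GaloisRep.ratLocalizedAt ℓ) (M := H)
  have he := ffh_basis_indep ℓ H hequiv b
  have he2 : ∀ c : Fin n × Fin n → Qb,
      (∀ w : M × M, ∑ p, c p * ((b p.1 : M → Qb) w.1 * (b p.2 : M → Qb) w.2) = 0) → c = 0 :=
    fun c hc => ffh_indep_prod (fun i => (b i : M → Qb)) (fun i => (b i : M → Qb)) he he c
      (fun x y => hc (x, y))
  have := ffh_injective_of_indep ℓ (b.tensorProduct (b.tensorProduct b))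
    (ffh_Phi3 ℓ H).toLinearMap (by
    intro c hc
    apply ffh_indep_prod (fun i => (b i : M → Qb))
      (fun (q : Fin n × Fin n) (w : M × M) => (b q.1 : M → Qb) w.1 * (b q.2 : M → Qb) w.2)
      he he2 c
    intro x y
    rw [← hc (x, y)]
    refine Finset.sum_congr rfl fun p _ => ?_
    rw [Module.Basis.tensorProduct_apply, Module.Basis.tensorProduct_apply,
      AlgHom.toLinearMap_apply, ffh_Phi3_tmul, ffh_Phi2_tmul])
  exact this

end Inj

/-! ### Lifting through an injective homomorphism -/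

section Lift

variable {S A B C : Type*} [CommSemiring S] [Semiring A] [Semiring B] [Semiring C]
  [Algebra S A] [Algebra S B] [Algebra S C]

/-- Lift an algebra homomorphism `g : A → C` through an injective `Φ : B → C` whose range contains
the range of `g`. -/
def ffh_liftInj (Φ : B →ₐ[S] C) (hΦ : Function.Injective Φ) (g : A →ₐ[S] C)
    (hg : ∀ a, g a ∈ Φ.range) : A →ₐ[S] B :=
  ((AlgEquiv.ofInjective Φ hΦ).symm : Φ.range →ₐ[S] B).comp (g.codRestrict Φ.range hg)

theorem ffh_liftInj_spec (Φ : B →ₐ[S] C) (hΦ : Function.Injective Φ) (g : A →ₐ[S] C)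
    (hg : ∀ a, g a ∈ Φ.range) (a : A) : Φ (ffh_liftInj Φ hΦ g hg a) = g a := by
  have h1 : (AlgEquiv.ofInjective Φ hΦ) (ffh_liftInj Φ hΦ g hg a) = g.codRestrict Φ.range hg a := by
    simp [ffh_liftInj]
  have h2 := congrArg Subtype.val h1
  rw [AlgEquiv.ofInjective_apply] at h2
  exact h2

end Lift

/-! ### The structure maps -/

section Structure

variable (ℓ : ℕ) [hℓ : Fact ℓ.Prime]
variable {M : Type} [AddCommGroup M] [DistribMulAction GQ M]
variable (H : Subalgebra (GaloisRep.ratLocalizedAt ℓ) (M → Qb))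
variable [hfin : Module.Finite (GaloisRep.ratLocalizedAt ℓ) H]
variable (hequiv : ∀ φ ∈ H, ∀ (σ : GQ) (x : M), φ (σ • x) = σ (φ x))
variable (hΔ : ∀ φ ∈ H, ∃ (n : ℕ) (a b : Fin n → M → Qb), (∀ i, a i ∈ H) ∧ (∀ i, b i ∈ H) ∧
      ∀ x y : M, φ (x + y) = ∑ i, a i x * b i y)

include hΔ in
theorem ffh_comul_mem_range (φ : H) :
    ((ffh_pull ℓ (fun p : M × M => p.1 + p.2)).comp H.val) φ ∈ (ffh_Phi2 ℓ H).range := by
  obtain ⟨n, a, b, ha, hb, hab⟩ := hΔ φ φ.2
  refine ⟨∑ i, (⟨a i, ha i⟩ : H) ⊗ₜ (⟨b i, hb i⟩ : H), ?_⟩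
  funext z
  rw [map_sum, Finset.sum_apply]
  simp only [AlgHom.comp_apply, ffh_pull_apply, Subalgebra.coe_val]
  exact (hab z.1 z.2).symm

/-- The comultiplication. -/
def ffh_comul : H →ₐ[GaloisRep.ratLocalizedAt ℓ] H ⊗[GaloisRep.ratLocalizedAt ℓ] H :=
  ffh_liftInj (ffh_Phi2 ℓ H) (ffh_Phi2_injective ℓ H hequiv)
    ((ffh_pull ℓ (fun p : M × M => p.1 + p.2)).comp H.val) (ffh_comul_mem_range ℓ H hΔ)

theorem ffh_comul_spec (φ : H) (x y : M) :
    ffh_Phi2 ℓ H (ffh_comul ℓ H hequiv hΔ φ) (x, y) = (φ : M → Qb) (x + y) := by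
  unfold ffh_comul
  rw [ffh_liftInj_spec]
  rfl

include hequiv in
theorem ffh_counit_mem_range (φ : H) :
    ((Pi.evalAlgHom (GaloisRep.ratLocalizedAt ℓ) (fun _ : M => Qb) 0).comp H.val) φ ∈
      (Algebra.ofId (GaloisRep.ratLocalizedAt ℓ) Qb).range := by
  have hinv : ∀ σ : GQ, σ ((φ : M → Qb) 0) = (φ : M → Qb) 0 := by
    intro σ
    rw [← hequiv _ φ.2 σ 0, smul_zero]
  obtain ⟨q, hq⟩ := ffh_fixed_mem_rat _ hinv
  haveI : Algebra.IsIntegral (GaloisRep.ratLocalizedAt ℓ) H := Algebra.IsIntegral.of_finite _ _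
  have hint : IsIntegral (GaloisRep.ratLocalizedAt ℓ) ((φ : M → Qb) 0) :=
    (Algebra.IsIntegral.isIntegral φ).map
      ((Pi.evalAlgHom (GaloisRep.ratLocalizedAt ℓ) (fun _ : M => Qb) 0).comp H.val)
  rw [← hq] at hint
  have hq' : IsIntegral (GaloisRep.ratLocalizedAt ℓ) q :=
    (isIntegral_algebraMap_iff (algebraMap ℚ Qb).injective).1 hint
  refine ⟨⟨q, ffh_mem_of_isIntegral ℓ hq'⟩, ?_⟩
  exact hq

/-- The counit `φ ↦ φ 0`. -/
def ffh_counit : H →ₐ[GaloisRep.ratLocalizedAt ℓ] GaloisRep.ratLocalizedAt ℓ :=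
  ffh_liftInj (Algebra.ofId (GaloisRep.ratLocalizedAt ℓ) Qb) (ffh_algebraMap_injective ℓ)
    ((Pi.evalAlgHom (GaloisRep.ratLocalizedAt ℓ) (fun _ : M => Qb) 0).comp H.val)
    (ffh_counit_mem_range ℓ H hequiv)

theorem ffh_counit_spec (φ : H) :
    algebraMap (GaloisRep.ratLocalizedAt ℓ) Qb (ffh_counit ℓ H hequiv φ) = (φ : M → Qb) 0 := by
  unfold ffh_counit
  exact ffh_liftInj_spec (Algebra.ofId (GaloisRep.ratLocalizedAt ℓ) Qb) _ _ _ φ

include hequiv hΔ in
theorem ffh_nsmul_mem (n : ℕ) : ∀ φ ∈ H, (fun x : M => φ (n • x)) ∈ H := by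
  induction n with
  | zero =>
    intro φ hφ
    have : (fun x : M => φ (0 • x)) =
        algebraMap (GaloisRep.ratLocalizedAt ℓ) (M → Qb) (ffh_counit ℓ H hequiv ⟨φ, hφ⟩) := by
      funext x
      rw [zero_smul, ffh_algebraMap_fun_apply, ffh_counit_spec]
    rw [this]
    exact H.algebraMap_mem _
  | succ n ih =>
    intro φ hφ
    obtain ⟨k, a, b, ha, hb, hab⟩ := hΔ φ hφ
    have : (fun x : M => φ ((n + 1) • x)) = ∑ i, (fun x : M => a i (n • x)) * b i := by
      funext x
      rw [succ_nsmul, hab, Finset.sum_apply]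
      rfl
    rw [this]
    exact H.sum_mem fun i _ => H.mul_mem (ih _ (ha i)) (hb i)

include hequiv hΔ in
theorem ffh_neg_mem [Finite M] (φ : H) : ((ffh_pull ℓ (Neg.neg : M → M)).comp H.val) φ ∈ H := by
  have h1 := ffh_nsmul_mem ℓ H hequiv hΔ (Nat.card M - 1) φ φ.2
  have h2 : (fun x : M => (φ : M → Qb) ((Nat.card M - 1) • x)) =
      ((ffh_pull ℓ (Neg.neg : M → M)).comp H.val) φ := by
    funext x
    have hpos : 0 < Nat.card M := Nat.card_pos
    have h3 : (Nat.card M - 1) • x + x = 0 := by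
      rw [← succ_nsmul, Nat.sub_add_cancel hpos]
      exact card_nsmul_eq_zero'
    have h4 : (Nat.card M - 1) • x = -x := eq_neg_of_add_eq_zero_left h3
    rw [h4]
    rfl
  rw [← h2]
  exact h1

/-- The antipode `φ ↦ φ ∘ (-·)`. -/
def ffh_antipode [Finite M] : H →ₐ[GaloisRep.ratLocalizedAt ℓ] H :=
  AlgHom.codRestrict ((ffh_pull ℓ (Neg.neg : M → M)).comp H.val) H (ffh_neg_mem ℓ H hequiv hΔ)

theorem ffh_antipode_spec [Finite M] (φ : H) (x : M) :
    (ffh_antipode ℓ H hequiv hΔ φ : M → Qb) x = (φ : M → Qb) (-x) := rfl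

end Structure

/-! ### The Hopf algebra axioms -/

section Axioms

variable (ℓ : ℕ) [hℓ : Fact ℓ.Prime]
variable {M : Type} [AddCommGroup M] [DistribMulAction GQ M]
variable (H : Subalgebra (GaloisRep.ratLocalizedAt ℓ) (M → Qb))
variable [hfin : Module.Finite (GaloisRep.ratLocalizedAt ℓ) H]
variable (hequiv : ∀ φ ∈ H, ∀ (σ : GQ) (x : M), φ (σ • x) = σ (φ x))
variable (hΔ : ∀ φ ∈ H, ∃ (n : ℕ) (a b : Fin n → M → Qb), (∀ i, a i ∈ H) ∧ (∀ i, b i ∈ H) ∧
      ∀ x y : M, φ (x + y) = ∑ i, a i x * b i y)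

set_option quotPrecheck false in
local notation "R" => ↥(GaloisRep.ratLocalizedAt ℓ)

/-- naturality of `Φ₃` with respect to `id ⊗ Δ` -/
theorem ffh_nat1 :
    (ffh_Phi3 ℓ H).comp (Algebra.TensorProduct.map (AlgHom.id R H) (ffh_comul ℓ H hequiv hΔ)) =
      (ffh_pull ℓ (fun w : M × (M × M) => (w.1, w.2.1 + w.2.2))).comp (ffh_Phi2 ℓ H) := by
  apply Algebra.TensorProduct.ext'
  intro a b
  funext w
  simp only [AlgHom.comp_apply, Algebra.TensorProduct.map_tmul, AlgHom.id_apply, ffh_Phi3_tmul,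
    ffh_pull_apply, ffh_Phi2_tmul]
  rw [← ffh_comul_spec ℓ H hequiv hΔ b w.2.1 w.2.2]

/-- `Φ₃ ∘ assoc` on `(s ⊗ c)`. -/
theorem ffh_nat3 (s : H ⊗[R] H) (c : H) (w : M × (M × M)) :
    ffh_Phi3 ℓ H (Algebra.TensorProduct.assoc R R R H H H (s ⊗ₜ c)) w =
      ffh_Phi2 ℓ H s (w.1, w.2.1) * (c : M → Qb) w.2.2 := by
  induction s using TensorProduct.induction_on with
  | zero => simp
  | tmul a b =>
    rw [Algebra.TensorProduct.assoc_tmul, ffh_Phi3_tmul, ffh_Phi2_tmul, ffh_Phi2_tmul]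
    ring
  | add s t hs ht =>
    rw [TensorProduct.add_tmul, map_add, map_add, Pi.add_apply, hs, ht, map_add, Pi.add_apply]
    ring

/-- naturality of `Φ₃ ∘ assoc` with respect to `Δ ⊗ id` -/
theorem ffh_nat2 :
    ((ffh_Phi3 ℓ H).comp (Algebra.TensorProduct.assoc R R R H H H : _ →ₐ[R] _)).comp
        (Algebra.TensorProduct.map (ffh_comul ℓ H hequiv hΔ) (AlgHom.id R H)) =
      (ffh_pull ℓ (fun w : M × (M × M) => (w.1 + w.2.1, w.2.2))).comp (ffh_Phi2 ℓ H) := by
  apply Algebra.TensorProduct.ext'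
  intro a b
  funext w
  simp only [AlgHom.comp_apply, Algebra.TensorProduct.map_tmul, AlgHom.id_apply,
    ffh_pull_apply, ffh_Phi2_tmul, AlgEquiv.coe_toAlgHom]
  rw [ffh_nat3, ffh_comul_spec]

theorem ffh_coassoc :
    (Algebra.TensorProduct.assoc R R R H H H : _ →ₐ[R] _).comp
        ((Algebra.TensorProduct.map (ffh_comul ℓ H hequiv hΔ) (AlgHom.id R H)).comp
          (ffh_comul ℓ H hequiv hΔ)) =
      (Algebra.TensorProduct.map (AlgHom.id R H) (ffh_comul ℓ H hequiv hΔ)).comp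
        (ffh_comul ℓ H hequiv hΔ) := by
  apply AlgHom.ext
  intro φ
  apply ffh_Phi3_injective ℓ H hequiv
  funext w
  have h1 := congrFun (DFunLike.congr_fun (ffh_nat1 ℓ H hequiv hΔ) (ffh_comul ℓ H hequiv hΔ φ)) w
  have h2 := congrFun (DFunLike.congr_fun (ffh_nat2 ℓ H hequiv hΔ) (ffh_comul ℓ H hequiv hΔ φ)) w
  simp only [AlgHom.comp_apply, ffh_pull_apply, AlgEquiv.coe_toAlgHom] at h1 h2
  simp only [AlgHom.comp_apply, AlgEquiv.coe_toAlgHom]
  rw [h1, h2, ffh_comul_spec, ffh_comul_spec, add_assoc]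

theorem ffh_nat4 :
    H.val.comp ((Algebra.TensorProduct.lid R H : _ →ₐ[R] _).comp
        (Algebra.TensorProduct.map (ffh_counit ℓ H hequiv) (AlgHom.id R H))) =
      (ffh_pull ℓ (fun y : M => ((0 : M), y))).comp (ffh_Phi2 ℓ H) := by
  apply Algebra.TensorProduct.ext'
  intro a b
  funext y
  simp only [AlgHom.comp_apply, Algebra.TensorProduct.map_tmul, AlgHom.id_apply, ffh_pull_apply,
    ffh_Phi2_tmul, AlgEquiv.coe_toAlgHom, Algebra.TensorProduct.lid_tmul, Subalgebra.coe_val,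
    Subalgebra.coe_smul, Pi.smul_apply]
  rw [Algebra.smul_def, ffh_counit_spec]

theorem ffh_rTensor :
    (Algebra.TensorProduct.map (ffh_counit ℓ H hequiv) (AlgHom.id R H)).comp
        (ffh_comul ℓ H hequiv hΔ) = (Algebra.TensorProduct.lid R H).symm := by
  apply AlgHom.ext
  intro φ
  rw [AlgEquiv.coe_toAlgHom, AlgEquiv.eq_symm_apply]
  apply Subtype.ext
  funext y
  have h1 := congrFun (DFunLike.congr_fun (ffh_nat4 ℓ H hequiv) (ffh_comul ℓ H hequiv hΔ φ)) y
  simp only [AlgHom.comp_apply, ffh_pull_apply, AlgEquiv.coe_toAlgHom, Subalgebra.coe_val] at h1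
  rw [AlgHom.comp_apply, h1, ffh_comul_spec, zero_add]

theorem ffh_nat5 :
    H.val.comp ((Algebra.TensorProduct.rid R R H : _ →ₐ[R] _).comp
        (Algebra.TensorProduct.map (AlgHom.id R H) (ffh_counit ℓ H hequiv))) =
      (ffh_pull ℓ (fun x : M => (x, (0 : M)))).comp (ffh_Phi2 ℓ H) := by
  apply Algebra.TensorProduct.ext'
  intro a b
  funext y
  simp only [AlgHom.comp_apply, Algebra.TensorProduct.map_tmul, AlgHom.id_apply, ffh_pull_apply,
    ffh_Phi2_tmul, AlgEquiv.coe_toAlgHom, Algebra.TensorProduct.rid_tmul, Subalgebra.coe_val,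
    Subalgebra.coe_smul, Pi.smul_apply]
  rw [Algebra.smul_def, ffh_counit_spec, mul_comm]

theorem ffh_lTensor :
    (Algebra.TensorProduct.map (AlgHom.id R H) (ffh_counit ℓ H hequiv)).comp
        (ffh_comul ℓ H hequiv hΔ) = (Algebra.TensorProduct.rid R R H).symm := by
  apply AlgHom.ext
  intro φ
  rw [AlgEquiv.coe_toAlgHom, AlgEquiv.eq_symm_apply]
  apply Subtype.ext
  funext y
  have h1 := congrFun (DFunLike.congr_fun (ffh_nat5 ℓ H hequiv) (ffh_comul ℓ H hequiv hΔ φ)) y
  simp only [AlgHom.comp_apply, ffh_pull_apply, AlgEquiv.coe_toAlgHom, Subalgebra.coe_val] at h1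
  rw [AlgHom.comp_apply, h1, ffh_comul_spec, add_zero]

/-- The bialgebra structure on `H`. -/
@[reducible] def ffh_bialgebra : Bialgebra R H :=
  Bialgebra.ofAlgHom (ffh_comul ℓ H hequiv hΔ) (ffh_counit ℓ H hequiv)
    (ffh_coassoc ℓ H hequiv hΔ) (ffh_rTensor ℓ H hequiv hΔ) (ffh_lTensor ℓ H hequiv hΔ)

end Axioms

/-! ### The antipode axioms, cocommutativity -/

section Hopf

variable (ℓ : ℕ) [hℓ : Fact ℓ.Prime]
variable {M : Type} [AddCommGroup M] [Finite M] [DistribMulAction GQ M]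
variable (H : Subalgebra (GaloisRep.ratLocalizedAt ℓ) (M → Qb))
variable [hfin : Module.Finite (GaloisRep.ratLocalizedAt ℓ) H]
variable (hequiv : ∀ φ ∈ H, ∀ (σ : GQ) (x : M), φ (σ • x) = σ (φ x))
variable (hΔ : ∀ φ ∈ H, ∃ (n : ℕ) (a b : Fin n → M → Qb), (∀ i, a i ∈ H) ∧ (∀ i, b i ∈ H) ∧
      ∀ x y : M, φ (x + y) = ∑ i, a i x * b i y)

set_option quotPrecheck false in
local notation "R" => ↥(GaloisRep.ratLocalizedAt ℓ)

theorem ffh_nat6 :
    H.val.comp (Algebra.TensorProduct.lift (ffh_antipode ℓ H hequiv hΔ) (AlgHom.id R H)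
        (fun _ _ => Commute.all _ _)) =
      (ffh_pull ℓ (fun x : M => (-x, x))).comp (ffh_Phi2 ℓ H) := by
  apply Algebra.TensorProduct.ext'
  intro a b
  funext x
  simp only [AlgHom.comp_apply, Algebra.TensorProduct.lift_tmul, AlgHom.id_apply, ffh_pull_apply,
    ffh_Phi2_tmul, Subalgebra.coe_val, Subalgebra.coe_mul, Pi.mul_apply, ffh_antipode_spec]

theorem ffh_nat7 :
    H.val.comp (Algebra.TensorProduct.lift (AlgHom.id R H) (ffh_antipode ℓ H hequiv hΔ)
        (fun _ _ => Commute.all _ _)) =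
      (ffh_pull ℓ (fun x : M => (x, -x))).comp (ffh_Phi2 ℓ H) := by
  apply Algebra.TensorProduct.ext'
  intro a b
  funext x
  simp only [AlgHom.comp_apply, Algebra.TensorProduct.lift_tmul, AlgHom.id_apply, ffh_pull_apply,
    ffh_Phi2_tmul, Subalgebra.coe_val, Subalgebra.coe_mul, Pi.mul_apply, ffh_antipode_spec]

/-- The Hopf algebra structure on `H`. -/
@[reducible] def ffh_hopf : HopfAlgebra R H :=
  letI := ffh_bialgebra ℓ H hequiv hΔ
  HopfAlgebra.ofAlgHom (ffh_antipode ℓ H hequiv hΔ)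
    (by
      apply AlgHom.ext
      intro φ
      apply Subtype.ext
      funext x
      have h1 := congrFun (DFunLike.congr_fun (ffh_nat6 ℓ H hequiv hΔ)
        (ffh_comul ℓ H hequiv hΔ φ)) x
      simp only [AlgHom.comp_apply, ffh_pull_apply, Subalgebra.coe_val] at h1
      have h2 : (((Algebra.ofId R H).comp (Bialgebra.counitAlgHom R H)) φ : M → Qb) x =
          algebraMap R Qb (ffh_counit ℓ H hequiv φ) := rfl
      rw [h2, ffh_counit_spec]
      refine Eq.trans ?_ (h1.trans ?_)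
      · rfl
      · rw [ffh_comul_spec, neg_add_cancel])
    (by
      apply AlgHom.ext
      intro φ
      apply Subtype.ext
      funext x
      have h1 := congrFun (DFunLike.congr_fun (ffh_nat7 ℓ H hequiv hΔ)
        (ffh_comul ℓ H hequiv hΔ φ)) x
      simp only [AlgHom.comp_apply, ffh_pull_apply, Subalgebra.coe_val] at h1
      have h2 : (((Algebra.ofId R H).comp (Bialgebra.counitAlgHom R H)) φ : M → Qb) x =
          algebraMap R Qb (ffh_counit ℓ H hequiv φ) := rfl
      rw [h2, ffh_counit_spec]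
      refine Eq.trans ?_ (h1.trans ?_)
      · rfl
      · rw [ffh_comul_spec, add_neg_cancel])

theorem ffh_Phi2_comm (t : H ⊗[R] H) (z : M × M) :
    ffh_Phi2 ℓ H (TensorProduct.comm R H H t) z = ffh_Phi2 ℓ H t (z.2, z.1) := by
  induction t using TensorProduct.induction_on with
  | zero => simp
  | tmul a b =>
    rw [TensorProduct.comm_tmul, ffh_Phi2_tmul, ffh_Phi2_tmul, mul_comm]
  | add s t hs ht =>
    rw [map_add, map_add, Pi.add_apply, hs, ht, map_add, Pi.add_apply]

theorem ffh_cocomm :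
    letI := ffh_hopf ℓ H hequiv hΔ
    Coalgebra.IsCocomm R H := by
  letI := ffh_hopf ℓ H hequiv hΔ
  refine ⟨?_⟩
  apply LinearMap.ext
  intro φ
  apply ffh_Phi2_injective ℓ H hequiv
  funext z
  change ffh_Phi2 ℓ H (TensorProduct.comm R H H (ffh_comul ℓ H hequiv hΔ φ)) z =
    ffh_Phi2 ℓ H (ffh_comul ℓ H hequiv hΔ φ) z
  rw [ffh_Phi2_comm, ffh_comul_spec, add_comm, ← ffh_comul_spec ℓ H hequiv hΔ φ z.1 z.2]

end Hopf

/-! ### The points of `H` -/

section Points

variable (ℓ : ℕ) [hℓ : Fact ℓ.Prime]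
variable {M : Type} [AddCommGroup M] [Finite M] [DistribMulAction GQ M]
variable (H : Subalgebra (GaloisRep.ratLocalizedAt ℓ) (M → Qb))
variable [hfin : Module.Finite (GaloisRep.ratLocalizedAt ℓ) H]
variable (hequiv : ∀ φ ∈ H, ∀ (σ : GQ) (x : M), φ (σ • x) = σ (φ x))
variable (hsep : ∀ x y : M, x ≠ y → ∃ φ ∈ H, φ x ≠ φ y)

set_option quotPrecheck false in
local notation "Rl" => ↥(GaloisRep.ratLocalizedAt ℓ)

/-- Evaluation at a point of `M`. -/
def ffh_ev (x : M) : H →ₐ[Rl] Qb :=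
  (Pi.evalAlgHom Rl (fun _ : M => Qb) x).comp H.val

@[simp] theorem ffh_ev_apply (x : M) (φ : H) : ffh_ev ℓ H x φ = (φ : M → Qb) x := rfl

include hsep in
theorem ffh_ev_injective : Function.Injective (ffh_ev ℓ H) := by
  intro x y hxy
  by_contra hne
  obtain ⟨φ, hφ, h⟩ := hsep x y hne
  exact h (DFunLike.congr_fun hxy ⟨φ, hφ⟩)

include hequiv hsep in
/-- Every `Q̄`-point of `H` is the evaluation at a point of `M` (counting argument: there are at
most `rank H ≤ |M|` of them by Dedekind's lemma). -/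
theorem ffh_ev_bijective : Function.Bijective (ffh_ev ℓ H) := by
  classical
  haveI : Fintype M := Fintype.ofFinite M
  obtain ⟨n, b⟩ := Module.basisOfFiniteTypeTorsionFree' (R := GaloisRep.ratLocalizedAt ℓ) (M := H)
  -- `n ≤ |M|`
  have hli : LinearIndependent Qb (fun i => (b i : M → Qb)) := by
    rw [Fintype.linearIndependent_iff]
    intro c hc i
    have := ffh_basis_indep ℓ H hequiv b c (by
      intro x
      have := congrFun hc x
      rw [Finset.sum_apply] at this
      simpa [Pi.smul_apply, smul_eq_mul] using this)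
    exact congrFun this i
  have h1 : n ≤ Nat.card M := by
    have := hli.fintype_card_le_finrank
    rw [Module.finrank_fintype_fun_eq_card, Fintype.card_fin] at this
    rw [Nat.card_eq_fintype_card]
    exact this
  -- at most `n` points
  let eqv : (Fin n → Qb) ≃ₗ[Qb] (H →ₗ[Rl] Qb) := b.constr Qb
  haveI : Module.Finite Qb (H →ₗ[Rl] Qb) := Module.Finite.equiv eqv
  have hfr : Module.finrank Qb (H →ₗ[Rl] Qb) = n := by
    rw [← eqv.finrank_eq, Module.finrank_fin_fun]
  have hli2 := linearIndependent_algHom_toLinearMap Rl H Qb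
  haveI : Finite (H →ₐ[Rl] Qb) := hli2.finite
  haveI : Fintype (H →ₐ[Rl] Qb) := Fintype.ofFinite _
  have h2 : Nat.card (H →ₐ[Rl] Qb) ≤ n := by
    rw [Nat.card_eq_fintype_card, ← hfr]
    exact hli2.fintype_card_le_finrank
  exact (ffh_ev_injective ℓ H hsep).bijective_of_nat_card_le (h2.trans h1)

end Points

/-! ### The main theorem -/

section MainThm

/-- **[HO]**: an `ℤ_(ℓ)`-order of equivariant functions on a finite Galois module `M` which is
finite, separates points and is closed under the comultiplication is a finite flat cocommutative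
Hopf algebra with `Q̄`-points `M`. -/
theorem ffh_main (ℓ : ℕ) [Fact ℓ.Prime] (M : Type) [AddCommGroup M] [Finite M]
    [DistribMulAction GQ M]
    (H : Subalgebra (GaloisRep.ratLocalizedAt ℓ) (M → Qb))
    (hequiv : ∀ φ ∈ H, ∀ (σ : GQ) (x : M), φ (σ • x) = σ (φ x))
    (hfin : Module.Finite (GaloisRep.ratLocalizedAt ℓ) H)
    (hsep : ∀ x y : M, x ≠ y → ∃ φ ∈ H, φ x ≠ φ y)
    (hΔ : ∀ φ ∈ H, ∃ (n : ℕ) (a b : Fin n → M → Qb), (∀ i, a i ∈ H) ∧ (∀ i, b i ∈ H) ∧
      ∀ x y : M, φ (x + y) = ∑ i, a i x * b i y) :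
    ∃ (H' : Type) (_ : CommRing H') (_ : HopfAlgebra (GaloisRep.ratLocalizedAt ℓ) H'),
      Module.Finite (GaloisRep.ratLocalizedAt ℓ) H' ∧ Module.Flat (GaloisRep.ratLocalizedAt ℓ) H' ∧
      Coalgebra.IsCocomm (GaloisRep.ratLocalizedAt ℓ) H' ∧
      ∃ e : WithConv (H' →ₐ[GaloisRep.ratLocalizedAt ℓ] Qb) ≃ M,
        (∀ f g, e (f * g) = e f + e g) ∧
        ∀ (σ : GQ) (f g : WithConv (H' →ₐ[GaloisRep.ratLocalizedAt ℓ] Qb)),
          (∀ h : H', g h = σ (f h)) → e g = σ • e f := by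
  classical
  haveI := hfin
  letI hopf := ffh_hopf ℓ H hequiv hΔ
  refine ⟨H, inferInstance, hopf, hfin, inferInstance, ffh_cocomm ℓ H hequiv hΔ, ?_⟩
  have hbij := ffh_ev_bijective ℓ H hequiv hsep
  let e0 : M ≃ WithConv (H →ₐ[GaloisRep.ratLocalizedAt ℓ] Qb) :=
    (Equiv.ofBijective (ffh_ev ℓ H) hbij).trans (WithConv.equiv _).symm
  have he0 : ∀ x, e0 x = WithConv.toConv (ffh_ev ℓ H x) := fun x => rfl
  have hmul : ∀ x y : M, e0 x * e0 y = e0 (x + y) := by
    intro x y
    apply WithConv.ext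
    apply AlgHom.ext
    intro φ
    have h1 := AlgHom.convMul_apply (e0 x) (e0 y) φ
    change (e0 x * e0 y) φ = _
    rw [h1, he0, he0, he0]
    have h2 : ∀ t : H ⊗[GaloisRep.ratLocalizedAt ℓ] H,
        Algebra.TensorProduct.lift (ffh_ev ℓ H x) (ffh_ev ℓ H y) (fun _ _ => Commute.all _ _) t =
          ffh_Phi2 ℓ H t (x, y) := by
      intro t
      induction t using TensorProduct.induction_on with
      | zero => simp
      | tmul a b => rw [Algebra.TensorProduct.lift_tmul, ffh_Phi2_tmul]; rfl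
      | add s t hs ht => rw [map_add, hs, ht, map_add, Pi.add_apply]
    exact (h2 _).trans (ffh_comul_spec ℓ H hequiv hΔ φ x y)
  refine ⟨e0.symm, ?_, ?_⟩
  · intro f g
    obtain ⟨x, rfl⟩ := e0.surjective f
    obtain ⟨y, rfl⟩ := e0.surjective g
    rw [hmul, Equiv.symm_apply_apply, Equiv.symm_apply_apply, Equiv.symm_apply_apply]
  · intro σ f g hfg
    obtain ⟨x, rfl⟩ := e0.surjective f
    have hg : g = e0 (σ • x) := by
      apply WithConv.ext
      apply AlgHom.ext
      intro φ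
      have := hfg φ
      rw [he0] at this
      change g φ = _
      rw [this, he0]
      change σ ((φ : M → Qb) x) = (φ : M → Qb) (σ • x)
      exact (hequiv _ φ.2 σ x).symm
    rw [hg, Equiv.symm_apply_apply, Equiv.symm_apply_apply]

end MainThm

end Fermat.Agent.FF
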