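/-
Project FF (S19 + S32), leaf [DESC-ALG]: the pure algebra of the final descent.

`A` a valuation subring of `Q̄` over `ℓ`, `M` a finite `G_ℚ`-module with open stabilisers, `H₁` a local
order at `A`, `H_A = ffx_HA A M H₁`, `H = ffx_H ℓ A hA M H₁` (the equivariant elements of `H_A`).
From the key claim `ffx_Key` (`H₁ ⊆ A · H`) we deduce that `H` is an order:

* `ffx_alg_rat_mem_iff`  : `A ∩ ℚ = ℤ_(ℓ)`;
* `ffx_alg_isIntegral`   : an element of `Q̄` all of whose conjugates lie in `A` is integral over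
                           `ℤ_(ℓ)`;
* `ffx_alg_finite`       : a `ℤ_(ℓ)`-submodule of `Map(M, Q̄)` of equivariant `A`-valued functions is
                           finite;
* `ffx_alg_HA_le`        : `H_A ⊆ A · H` from the key claim;
* `ffx_order_of_key`     : `ff_IsOrder ℓ M H`.
Prefix `ffx_alg_`.
-/
import Mathlib
import Fermat.Agent.FF.DescentDefs
import Fermat.Agent.FF.HopfOrder

set_option autoImplicit false
set_option linter.style.haveILetI false
set_option linter.unusedSectionVars false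

noncomputable section

namespace Fermat.Agent.FF

open Polynomial
open scoped Pointwise

section Base

variable (ℓ : ℕ) [hℓ : Fact ℓ.Prime] (A : ValuationSubring ff_Qb) (hA : A.LiesOverPrime ℓ)

include hA in
/-- `A ∩ ℚ = ℤ_(ℓ)`. -/
theorem ffx_alg_rat_mem_iff (q : ℚ) : algebraMap ℚ ff_Qb q ∈ A ↔ q ∈ ff_R ℓ := by
  constructor
  · intro hq
    rw [ffh_mem_iff]
    intro hdvd
    -- `ℓ ∣ q.den`, so `ℓ ∤ q.num`
    have hcop : Nat.Coprime q.num.natAbs q.den := q.reduced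
    have hℓnum : ¬ (ℓ : ℤ) ∣ q.num := by
      intro h
      have h1 : ℓ ∣ q.num.natAbs := Int.natCast_dvd.mp h
      have := Nat.dvd_gcd h1 hdvd
      rw [hcop] at this
      exact hℓ.out.one_lt.ne' (Nat.dvd_one.mp this)
    have hℓv : A.valuation (ℓ : ff_Qb) < 1 := (ValuationSubring.mem_nonunits_iff (A := A)).1 hA
    have hint : ∀ n : ℤ, A.valuation (n : ff_Qb) ≤ 1 := fun n =>
      (ValuationSubring.valuation_le_one_iff A _).2 (ffx_intCast_mem A n)
    -- `v(den) < 1`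
    obtain ⟨d, hd⟩ := hdvd
    have hden : A.valuation ((q.den : ℤ) : ff_Qb) < 1 := by
      have : ((q.den : ℤ) : ff_Qb) = (ℓ : ff_Qb) * ((d : ℤ) : ff_Qb) := by
        rw [hd]; push_cast; ring
      rw [this, map_mul]
      exact mul_lt_one_of_nonneg_of_lt_one_left zero_le hℓv (hint d)
    -- `num = q * den`
    have hnum : ((q.num : ℤ) : ff_Qb) = algebraMap ℚ ff_Qb q * ((q.den : ℤ) : ff_Qb) := by
      have h1 : (q.num : ℚ) = q * (q.den : ℚ) := (Rat.mul_den_eq_num q).symm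
      have h2 := congrArg (algebraMap ℚ ff_Qb) h1
      rw [map_mul, map_intCast, map_natCast] at h2
      rw [h2]; push_cast; ring
    have hnumv : A.valuation ((q.num : ℤ) : ff_Qb) < 1 := by
      rw [hnum, map_mul]
      exact mul_lt_one_of_nonneg_of_lt_one_right ((ValuationSubring.valuation_le_one_iff A _).2 hq)
        zero_le hden
    -- Bezout
    have hcop2 : IsCoprime (q.num) (ℓ : ℤ) := by
      rw [isCoprime_comm]
      exact (Nat.prime_iff_prime_int.mp hℓ.out).coprime_iff_not_dvd.mpr hℓnum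
    obtain ⟨a, b, hab⟩ := hcop2
    have h1 : (a : ff_Qb) * ((q.num : ℤ) : ff_Qb) + (b : ff_Qb) * (ℓ : ff_Qb) = 1 := by
      have := congrArg (fun z : ℤ => (z : ff_Qb)) hab
      push_cast at this
      exact this
    have h2 : A.valuation ((a : ff_Qb) * ((q.num : ℤ) : ff_Qb) + (b : ff_Qb) * (ℓ : ff_Qb)) < 1 := by
      refine Valuation.map_add_lt _ ?_ ?_
      · rw [map_mul]
        exact mul_lt_one_of_nonneg_of_lt_one_right (hint a) zero_le hnumv
      · rw [map_mul]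
        exact mul_lt_one_of_nonneg_of_lt_one_right (hint b) zero_le hℓv
    rw [h1, map_one] at h2
    exact lt_irrefl _ h2
  · intro hq
    exact ffx_rat_mem hA ⟨q, hq⟩

include hA in
/-- An element of `Q̄` all of whose conjugates lie in `A` is integral over `ℤ_(ℓ)`. -/
theorem ffx_alg_isIntegral (z : ff_Qb) (hz : ∀ σ : ff_GQ, σ z ∈ A) : IsIntegral (ff_R ℓ) z := by
  have halg : IsAlgebraic ℚ z := (AlgebraicClosure.isAlgebraic ℚ).isAlgebraic z
  have hint : IsIntegral ℚ z := halg.isIntegral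
  have hmonic : (minpoly ℚ z).Monic := minpoly.monic hint
  set f : ff_Qb[X] := (minpoly ℚ z).map (algebraMap ℚ ff_Qb) with hf
  have hfs : f.Splits := IsAlgClosed.splits f
  have hfm : f.Monic := hmonic.map _
  have hroots : ∀ a ∈ f.roots, a ∈ (A.toSubring.subtype).range := by
    intro a ha
    have h0 : aeval a (minpoly ℚ z) = 0 := by
      have := (Polynomial.mem_roots (hfm.ne_zero)).mp ha
      rwa [Polynomial.IsRoot.def, hf, Polynomial.eval_map_algebraMap] at this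
    obtain ⟨σ, hσ⟩ := minpoly.exists_algEquiv_of_root' halg h0
    exact ⟨⟨a, hσ ▸ hz σ⟩, rfl⟩
  have hlift := hfs.mem_lift_of_roots_mem_range hfm (A.toSubring.subtype) hroots
  rw [Polynomial.lifts_iff_coeff_lifts] at hlift
  have hcoeff : ∀ n, (minpoly ℚ z).coeff n ∈ ff_R ℓ := by
    intro n
    rw [← ffx_alg_rat_mem_iff ℓ A hA]
    obtain ⟨a, ha⟩ := hlift n
    rw [hf, Polynomial.coeff_map] at ha
    rw [← ha]
    exact a.2
  have hlift2 : minpoly ℚ z ∈ Polynomial.lifts (algebraMap (ff_R ℓ) ℚ) := by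
    rw [Polynomial.lifts_iff_coeff_lifts]
    intro n
    exact ⟨⟨_, hcoeff n⟩, rfl⟩
  obtain ⟨g, hg, -, hgm⟩ := Polynomial.lifts_and_natDegree_eq_and_monic hlift2 hmonic
  refine ⟨g, hgm, ?_⟩
  have h1 : eval₂ (algebraMap (ff_R ℓ) ff_Qb) z g
      = eval₂ (algebraMap ℚ ff_Qb) z (g.map (algebraMap (ff_R ℓ) ℚ)) := by
    rw [Polynomial.eval₂_map]
    rfl
  rw [h1, hg]
  exact minpoly.aeval ℚ z

end Base

section Finite

variable (ℓ : ℕ) [hℓ : Fact ℓ.Prime] (A : ValuationSubring ff_Qb) (hA : A.LiesOverPrime ℓ)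
  (M : Type) [AddCommGroup M] [DistribMulAction ff_GQ M]

include hA in
/-- A `ℤ_(ℓ)`-module of equivariant `A`-valued functions on a finite `G_ℚ`-module with open
stabilisers is finitely generated: the values lie in the integral closure of `ℤ_(ℓ)` in a number
field. -/
theorem ffx_alg_fg [Finite M]
    (hopen : ∀ x : M, ∃ K : IntermediateField ℚ ff_Qb, FiniteDimensional ℚ K ∧
      ∀ σ ∈ K.fixingSubgroup, σ • x = x)
    (N : Submodule (ff_R ℓ) (M → ff_Qb))
    (hN : ∀ φ ∈ N, (∀ (σ : ff_GQ) (x : M), φ (σ • x) = σ (φ x)) ∧ ∀ x : M, φ x ∈ A) : N.FG := by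
  classical
  choose Kx hKfin hKfix using hopen
  haveI : ∀ x, FiniteDimensional ℚ (Kx x) := hKfin
  set K : IntermediateField ℚ ff_Qb := ⨆ x, Kx x with hK
  haveI : FiniteDimensional ℚ K := IntermediateField.finiteDimensional_iSup_of_finite
  -- the values lie in `K`
  have hval : ∀ φ ∈ N, ∀ x : M, φ x ∈ K := by
    intro φ hφ x
    rw [← InfiniteGalois.fixedField_fixingSubgroup K, IntermediateField.mem_fixedField_iff]
    intro σ hσ
    have hσx : σ ∈ (Kx x).fixingSubgroup := by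
      have hle : Kx x ≤ K := le_iSup Kx x
      exact (IntermediateField.fixingSubgroup_le hle) hσ
    rw [← (hN φ hφ).1 σ x, hKfix x σ hσx]
  -- and are integral
  have hint : ∀ φ ∈ N, ∀ x : M, IsIntegral (ff_R ℓ) (φ x) := by
    intro φ hφ x
    apply ffx_alg_isIntegral ℓ A hA
    intro σ
    rw [← (hN φ hφ).1 σ x]
    exact (hN φ hφ).2 _
  -- the integral closure of `ℤ_(ℓ)` in `K` is finite
  set C := integralClosure (ff_R ℓ) K with hC
  haveI : Module.Finite (ff_R ℓ) C := IsIntegralClosure.finite (ff_R ℓ) ℚ K C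
  haveI : IsScalarTower (ff_R ℓ) K ff_Qb := IsScalarTower.of_algebraMap_eq (fun r => rfl)
  let g : C →ₗ[ff_R ℓ] ff_Qb :=
    (IsScalarTower.toAlgHom (ff_R ℓ) K ff_Qb).toLinearMap.comp C.val.toLinearMap
  let ι : (M → C) →ₗ[ff_R ℓ] (M → ff_Qb) := g.compLeft M
  have hle : N ≤ LinearMap.range ι := by
    intro φ hφ
    have hintK : ∀ x, IsIntegral (ff_R ℓ) (⟨φ x, hval φ hφ x⟩ : K) := by
      intro x
      refine (isIntegral_algHom_iff (IsScalarTower.toAlgHom (ff_R ℓ) K ff_Qb)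
        (algebraMap K ff_Qb).injective).mp ?_
      exact hint φ hφ x
    refine ⟨fun x => ⟨⟨φ x, hval φ hφ x⟩, hintK x⟩, ?_⟩
    funext x
    rfl
  have hfg : (LinearMap.range ι).FG := by
    rw [LinearMap.range_eq_map]
    exact (Module.Finite.fg_top).map ι
  haveI : IsNoetherian (ff_R ℓ) (LinearMap.range ι) := isNoetherian_of_fg_of_noetherian _ hfg
  exact (isNoetherian_submodule.mp this) N hle

end Finite

section Alg

variable (ℓ : ℕ) [hℓ : Fact ℓ.Prime] (A : ValuationSubring ff_Qb) (hA : A.LiesOverPrime ℓ)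
  (M : Type) [AddCommGroup M] [DistribMulAction ff_GQ M] (H₁ : Subring (M → ff_Qb))

/-- The decomposition group preserves `A`. -/
theorem ffx_alg_decomp_mem {σ : ff_GQ} (hσ : σ ∈ A.decompositionSubgroup ℚ) {x : ff_Qb}
    (hx : x ∈ A) : σ x ∈ A := by
  have h1 : σ • x ∈ σ • A := ValuationSubring.smul_mem_pointwise_smul σ x A hx
  have h2 : σ • A = A := hσ
  rw [h2] at h1
  exact h1

/-- `A · H`, the `A`-span of the order. -/
def ffx_alg_AH : Submodule A (M → ff_Qb) :=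
  Submodule.span A ((ffx_H ℓ A hA M H₁ : Subalgebra (ff_R ℓ) (M → ff_Qb)) : Set (M → ff_Qb))

theorem ffx_alg_smul_eq (a : A) (ψ : M → ff_Qb) : a • ψ = (a : ff_Qb) • ψ := rfl

theorem ffx_alg_AH_of_mem {h : M → ff_Qb} (hh : h ∈ ffx_H ℓ A hA M H₁) :
    h ∈ ffx_alg_AH ℓ A hA M H₁ := Submodule.subset_span hh

theorem ffx_alg_AH_one : (1 : M → ff_Qb) ∈ ffx_alg_AH ℓ A hA M H₁ :=
  ffx_alg_AH_of_mem ℓ A hA M H₁ (one_mem _)

theorem ffx_alg_AH_mul {ψ χ : M → ff_Qb} (hψ : ψ ∈ ffx_alg_AH ℓ A hA M H₁)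
    (hχ : χ ∈ ffx_alg_AH ℓ A hA M H₁) : ψ * χ ∈ ffx_alg_AH ℓ A hA M H₁ := by
  have h1 : ψ * χ ∈ ffx_alg_AH ℓ A hA M H₁ * ffx_alg_AH ℓ A hA M H₁ := Submodule.mul_mem_mul hψ hχ
  rw [ffx_alg_AH, Submodule.span_mul_span] at h1
  refine Submodule.span_mono ?_ h1
  rintro _ ⟨a, ha, b, hb, rfl⟩
  exact mul_mem ha hb

/-- `A · H` as an `A`-subalgebra. -/
def ffx_alg_AHalg : Subalgebra A (M → ff_Qb) :=
  (ffx_alg_AH ℓ A hA M H₁).toSubalgebra (ffx_alg_AH_one ℓ A hA M H₁)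
    (fun _ _ hx hy => ffx_alg_AH_mul ℓ A hA M H₁ hx hy)

theorem ffx_alg_mem_AHalg (ψ : M → ff_Qb) :
    ψ ∈ ffx_alg_AHalg ℓ A hA M H₁ ↔ ψ ∈ ffx_alg_AH ℓ A hA M H₁ := Iff.rfl

/-- `A · H` is stable under conjugation by the decomposition group. -/
theorem ffx_alg_AH_conj {σ : ff_GQ} (hσ : σ ∈ A.decompositionSubgroup ℚ) {ψ : M → ff_Qb}
    (hψ : ψ ∈ ffx_alg_AH ℓ A hA M H₁) : ffx_conj σ ψ ∈ ffx_alg_AH ℓ A hA M H₁ := by
  induction hψ using Submodule.span_induction with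
  | mem h hh =>
    have : ffx_conj σ h = h := (ffx_equivariant_iff h).mp hh.2 σ
    rw [this]
    exact Submodule.subset_span hh
  | zero => rw [ffx_conj_zero]; exact zero_mem _
  | add x y _ _ hx hy => rw [ffx_conj_add]; exact add_mem hx hy
  | smul a x _ hx =>
    rw [ffx_alg_smul_eq, ffx_conj_smul]
    have : σ (a : ff_Qb) • ffx_conj σ x
        = (⟨σ (a : ff_Qb), ffx_alg_decomp_mem A hσ a.2⟩ : A) • ffx_conj σ x := rfl
    rw [this]
    exact Submodule.smul_mem _ _ hx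

/-- **`H_A ⊆ A · H`** from the key claim. -/
theorem ffx_alg_HA_le (hkey : ffx_Key ℓ A hA M H₁) {ψ : M → ff_Qb} (hψ : ψ ∈ ffx_HA A M H₁) :
    ψ ∈ ffx_alg_AH ℓ A hA M H₁ := by
  have hle : ffx_HA A M H₁ ≤ ffx_alg_AHalg ℓ A hA M H₁ := by
    refine Algebra.adjoin_le ?_
    rintro _ ⟨σ, hσ, φ, hφ, rfl⟩
    exact ffx_alg_AH_conj ℓ A hA M H₁ hσ (hkey φ hφ)
  exact hle hψ

/-- Separation of points passes from `H₁` to `H`. -/
theorem ffx_alg_sep (hkey : ffx_Key ℓ A hA M H₁)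
    (hsep : ∀ x y : M, x ≠ y → ∃ φ ∈ H₁, φ x ≠ φ y) :
    ∀ x y : M, x ≠ y → ∃ φ ∈ ffx_H ℓ A hA M H₁, φ x ≠ φ y := by
  intro x y hxy
  obtain ⟨φ, hφ, hne⟩ := hsep x y hxy
  by_contra hcon
  apply hne
  have hcon' : ∀ h ∈ ffx_H ℓ A hA M H₁, h x = h y := by
    intro h hh
    by_contra h'
    exact hcon ⟨h, hh, h'⟩
  have key : ∀ ψ ∈ Submodule.span A
      ((ffx_H ℓ A hA M H₁ : Subalgebra (ff_R ℓ) (M → ff_Qb)) : Set (M → ff_Qb)), ψ x = ψ y := by
    intro ψ hψ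
    induction hψ using Submodule.span_induction with
    | mem h hh => exact hcon' h hh
    | zero => rfl
    | add u v _ _ hu hv => rw [Pi.add_apply, Pi.add_apply, hu, hv]
    | smul a u _ hu => rw [Pi.smul_apply, Pi.smul_apply, hu]
  exact key φ (hkey φ hφ)

/-- Every element of `A · H` is an `A`-combination of a `ℤ_(ℓ)`-basis of `H`. -/
theorem ffx_alg_AH_repr {m : ℕ} (b : Module.Basis (Fin m) (ff_R ℓ) (ffx_H ℓ A hA M H₁))
    {ψ : M → ff_Qb} (hψ : ψ ∈ ffx_alg_AH ℓ A hA M H₁) :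
    ∃ α : Fin m → A, ψ = ∑ j, (α j : ff_Qb) • ((b j : ffx_H ℓ A hA M H₁) : M → ff_Qb) := by
  induction hψ using Submodule.span_induction with
  | mem h hh =>
    refine ⟨fun j => ⟨algebraMap (ff_R ℓ) ff_Qb (b.repr ⟨h, hh⟩ j), ffx_rat_mem hA _⟩, ?_⟩
    have h1 := congrArg (fun z : ffx_H ℓ A hA M H₁ => (z : M → ff_Qb)) (b.sum_repr ⟨h, hh⟩)
    simp only at h1
    refine h1.symm.trans ?_
    rw [AddSubmonoidClass.coe_finsetSum]
    refine Finset.sum_congr rfl fun j _ => ?_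
    funext x
    change (b.repr ⟨h, hh⟩ j • ((b j : ffx_H ℓ A hA M H₁) : M → ff_Qb)) x = _
    rw [Pi.smul_apply, Pi.smul_apply, Algebra.smul_def, smul_eq_mul]
  | zero =>
    refine ⟨fun _ => 0, ?_⟩
    simp
  | add u v _ _ hu hv =>
    obtain ⟨α, rfl⟩ := hu
    obtain ⟨β, rfl⟩ := hv
    refine ⟨fun j => α j + β j, ?_⟩
    rw [← Finset.sum_add_distrib]
    refine Finset.sum_congr rfl fun j _ => ?_
    rw [← add_smul]
    rfl
  | smul a u _ hu =>
    obtain ⟨α, rfl⟩ := hu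
    refine ⟨fun j => a * α j, ?_⟩
    rw [ffx_alg_smul_eq, Finset.smul_sum]
    refine Finset.sum_congr rfl fun j _ => ?_
    rw [smul_smul]
    rfl

/-- Reindexing a decomposition `φ (x + y) = ∑ a_i(x) b_i(y)` from a finite type to `Fin n`. -/
theorem ffx_alg_reindex {ι : Type} [Fintype ι] (S : Set (M → ff_Qb)) (φ : M → ff_Qb)
    (a b : ι → M → ff_Qb) (ha : ∀ i, a i ∈ S) (hb : ∀ i, b i ∈ S)
    (hab : ∀ x y : M, φ (x + y) = ∑ i, a i x * b i y) :
    ∃ (n : ℕ) (a' b' : Fin n → M → ff_Qb), (∀ i, a' i ∈ S) ∧ (∀ i, b' i ∈ S) ∧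
      ∀ x y : M, φ (x + y) = ∑ i, a' i x * b' i y := by
  classical
  let e := Fintype.equivFin ι
  refine ⟨Fintype.card ι, fun i => a (e.symm i), fun i => b (e.symm i), fun i => ha _,
    fun i => hb _, fun x y => ?_⟩
  rw [hab x y]
  exact (Equiv.sum_comp e.symm (fun i => a i x * b i y)).symm

include hA in
/-- **`Δ`-closedness of `H`**, from `H_A ⊆ A · H`, the `Δ`-closedness of `H_A`, and Galois descent
of the coefficients (`A ∩ ℚ = ℤ_(ℓ)`). -/
theorem ffx_alg_comul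
    (hfin : Module.Finite (ff_R ℓ) (ffx_H ℓ A hA M H₁))
    (hle : ∀ ψ ∈ ffx_HA A M H₁, ψ ∈ ffx_alg_AH ℓ A hA M H₁)
    (hcomul : ∀ ψ ∈ ffx_HA A M H₁, ∃ (n : ℕ) (a b : Fin n → M → ff_Qb),
      (∀ i, a i ∈ ffx_HA A M H₁) ∧ (∀ i, b i ∈ ffx_HA A M H₁) ∧
      ∀ x y : M, ψ (x + y) = ∑ i, a i x * b i y) :
    ∀ φ ∈ ffx_H ℓ A hA M H₁, ∃ (n : ℕ) (a b : Fin n → M → ff_Qb),
      (∀ i, a i ∈ ffx_H ℓ A hA M H₁) ∧ (∀ i, b i ∈ ffx_H ℓ A hA M H₁) ∧
      ∀ x y : M, φ (x + y) = ∑ i, a i x * b i y := by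
  classical
  intro φ hφ
  set H := ffx_H ℓ A hA M H₁ with hH
  have hequiv : ∀ ψ ∈ H, ∀ (σ : ff_GQ) (x : M), ψ (σ • x) = σ (ψ x) := fun ψ hψ => hψ.2
  obtain ⟨m, bas⟩ := Module.basisOfFiniteTypeTorsionFree' (R := ff_R ℓ) (M := H)
  set e : Fin m → M → ff_Qb := fun j => ((bas j : H) : M → ff_Qb) with he
  have heH : ∀ j, e j ∈ H := fun j => (bas j).2
  have hind := ffh_basis_indep ℓ H hequiv bas
  obtain ⟨n, a, b, ha, hb, hab⟩ := hcomul φ hφ.1
  choose α hα using fun i => ffx_alg_AH_repr ℓ A hA M H₁ bas (hle (a i) (ha i))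
  choose β hβ using fun i => ffx_alg_AH_repr ℓ A hA M H₁ bas (hle (b i) (hb i))
  set c : Fin m × Fin m → ff_Qb := fun p => ∑ i, (α i p.1 : ff_Qb) * (β i p.2 : ff_Qb) with hc
  have hcA : ∀ p, c p ∈ A := fun p =>
    Subring.sum_mem A.toSubring (fun i _ => A.mul_mem _ _ (α i p.1).2 (β i p.2).2)
  -- the decomposition in terms of the basis
  have hφc : ∀ x y : M, φ (x + y) = ∑ p : Fin m × Fin m, c p * (e p.1 x * e p.2 y) := by
    intro x y
    rw [hab x y, Fintype.sum_prod_type]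
    have h1 : ∀ i, a i x * b i y
        = ∑ j, ∑ k, (α i j : ff_Qb) * (β i k : ff_Qb) * (e j x * e k y) := by
      intro i
      rw [hα i, hβ i, Finset.sum_apply, Finset.sum_apply, Finset.sum_mul_sum]
      refine Finset.sum_congr rfl fun j _ => Finset.sum_congr rfl fun k _ => ?_
      simp only [Pi.smul_apply, smul_eq_mul, he]
      ring
    rw [Finset.sum_congr rfl (fun i _ => h1 i), Finset.sum_comm]
    refine Finset.sum_congr rfl fun j _ => ?_
    rw [Finset.sum_comm]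
    refine Finset.sum_congr rfl fun k _ => ?_
    rw [hc, Finset.sum_mul]
  -- the coefficients are Galois invariant
  have hinv : ∀ (σ : ff_GQ) p, σ (c p) = c p := by
    intro σ
    have h0 : (fun p => σ (c p) - c p) = 0 := by
      apply ffh_indep_prod e e hind hind
      intro x y
      have h1 : φ (x + y) = σ (φ (σ⁻¹ • x + σ⁻¹ • y)) := by
        rw [← hequiv φ hφ σ, smul_add, smul_inv_smul, smul_inv_smul]
      have h2 : ∀ j z, σ (e j (σ⁻¹ • z)) = e j z := by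
        intro j z
        rw [← hequiv (e j) (heH j) σ, smul_inv_smul]
      rw [hφc (σ⁻¹ • x) (σ⁻¹ • y), map_sum] at h1
      have h3 : ∑ p : Fin m × Fin m, σ (c p) * (e p.1 x * e p.2 y) = φ (x + y) := by
        rw [h1]
        refine Finset.sum_congr rfl fun p _ => ?_
        rw [map_mul, map_mul, h2, h2]
      have h4 := hφc x y
      rw [← h3] at h4
      rw [← sub_eq_zero, ← Finset.sum_sub_distrib] at h4
      rw [← h4]
      refine Finset.sum_congr rfl fun p _ => ?_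
      ring
    intro p
    have := congrFun h0 p
    simpa [sub_eq_zero] using this
  have hrat : ∀ p, ∃ r : ff_R ℓ, algebraMap (ff_R ℓ) ff_Qb r = c p := by
    intro p
    obtain ⟨q, hq⟩ := ffh_fixed_mem_rat (c p) (fun σ => hinv σ p)
    have hqA : algebraMap ℚ ff_Qb q ∈ A := hq ▸ hcA p
    exact ⟨⟨q, (ffx_alg_rat_mem_iff ℓ A hA q).mp hqA⟩, hq⟩
  choose r hr using hrat
  refine ffx_alg_reindex M (H : Set (M → ff_Qb)) φ (fun p : Fin m × Fin m => r p • e p.1)
    (fun p => e p.2) (fun p => H.smul_mem (heH p.1) (r p)) (fun p => heH p.2) ?_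
  intro x y
  rw [hφc x y]
  refine Finset.sum_congr rfl fun p _ => ?_
  rw [Pi.smul_apply, Algebra.smul_def, hr p]
  ring

/-- `H_A` consists of `A`-valued functions. -/
theorem ffx_alg_HA_mem_A (hint : ∀ φ ∈ H₁, ∀ x : M, φ x ∈ A) :
    ∀ ψ ∈ ffx_HA A M H₁, ∀ x : M, ψ x ∈ A := by
  intro ψ hψ
  induction hψ using Algebra.adjoin_induction with
  | mem ψ hψ =>
    obtain ⟨σ, hσ, φ, hφ, rfl⟩ := hψ
    intro x
    exact ffx_alg_decomp_mem A hσ (hint φ hφ _)
  | algebraMap a =>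
    intro x
    exact a.2
  | add u v _ _ hu hv =>
    intro x
    exact A.add_mem _ _ (hu x) (hv x)
  | mul u v _ _ hu hv =>
    intro x
    exact A.mul_mem _ _ (hu x) (hv x)

/-- `H_A` is `Δ`-closed. -/
theorem ffx_alg_HA_comul
    (hcomul : ∀ φ ∈ H₁, ∃ (n : ℕ) (a b : Fin n → M → ff_Qb), (∀ i, a i ∈ H₁) ∧ (∀ i, b i ∈ H₁) ∧
      ∀ x y : M, φ (x + y) = ∑ i, a i x * b i y) :
    ∀ ψ ∈ ffx_HA A M H₁, ∃ (n : ℕ) (a b : Fin n → M → ff_Qb),
      (∀ i, a i ∈ ffx_HA A M H₁) ∧ (∀ i, b i ∈ ffx_HA A M H₁) ∧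
      ∀ x y : M, ψ (x + y) = ∑ i, a i x * b i y := by
  classical
  have key : ∀ ψ ∈ ffx_HA A M H₁, ∃ (ι : Type) (_ : Fintype ι) (a b : ι → M → ff_Qb),
      (∀ i, a i ∈ ffx_HA A M H₁) ∧ (∀ i, b i ∈ ffx_HA A M H₁) ∧
      ∀ x y : M, ψ (x + y) = ∑ i, a i x * b i y := by
    intro ψ hψ
    induction hψ using Algebra.adjoin_induction with
    | mem ψ hψ =>
      obtain ⟨σ, hσ, φ, hφ, rfl⟩ := hψ
      obtain ⟨n, a, b, ha, hb, hab⟩ := hcomul φ hφ
      refine ⟨Fin n, inferInstance, fun i => ffx_conj σ (a i), fun i => ffx_conj σ (b i),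
        fun i => Algebra.subset_adjoin ⟨σ, hσ, a i, ha i, rfl⟩,
        fun i => Algebra.subset_adjoin ⟨σ, hσ, b i, hb i, rfl⟩, fun x y => ?_⟩
      simp only [ffx_conj_apply]
      rw [smul_add, hab, map_sum]
      refine Finset.sum_congr rfl fun i _ => ?_
      rw [map_mul]
    | algebraMap c =>
      refine ⟨Unit, inferInstance, fun _ => algebraMap A (M → ff_Qb) c, fun _ => 1,
        fun _ => Subalgebra.algebraMap_mem _ c, fun _ => one_mem _, fun x y => ?_⟩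
      simp
    | add u v _ _ hu hv =>
      obtain ⟨ι, _, a, b, ha, hb, hab⟩ := hu
      obtain ⟨κ, _, a', b', ha', hb', hab'⟩ := hv
      refine ⟨ι ⊕ κ, inferInstance, Sum.elim a a', Sum.elim b b', ?_, ?_, fun x y => ?_⟩
      · rintro (i | j)
        · exact ha i
        · exact ha' j
      · rintro (i | j)
        · exact hb i
        · exact hb' j
      · rw [Pi.add_apply, hab, hab', Fintype.sum_sum_type]
        rfl
    | mul u v _ _ hu hv =>
      obtain ⟨ι, _, a, b, ha, hb, hab⟩ := hu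
      obtain ⟨κ, _, a', b', ha', hb', hab'⟩ := hv
      refine ⟨ι × κ, inferInstance, fun p => a p.1 * a' p.2, fun p => b p.1 * b' p.2,
        fun p => mul_mem (ha _) (ha' _), fun p => mul_mem (hb _) (hb' _), fun x y => ?_⟩
      rw [Pi.mul_apply, hab, hab', Finset.sum_mul_sum, Fintype.sum_prod_type]
      refine Finset.sum_congr rfl fun i _ => Finset.sum_congr rfl fun j _ => ?_
      simp only [Pi.mul_apply]
      ring
  intro ψ hψ
  obtain ⟨ι, _, a, b, ha, hb, hab⟩ := key ψ hψ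
  exact ffx_alg_reindex M _ ψ a b ha hb hab

end Alg

/-- **[DESC-ALG]** the equivariant elements of `H_A` form an order, as soon as `H₁ ⊆ A · H`. -/
theorem ffx_order_of_key (ℓ : ℕ) [Fact ℓ.Prime] (A : ValuationSubring ff_Qb)
    (hA : A.LiesOverPrime ℓ) (M : Type) [AddCommGroup M] [Finite M] [DistribMulAction ff_GQ M]
    (hopen : ∀ x : M, ∃ K : IntermediateField ℚ ff_Qb, FiniteDimensional ℚ K ∧
      ∀ σ ∈ K.fixingSubgroup, σ • x = x)
    (H₁ : Subring (M → ff_Qb)) (hH₁ : ff_IsLocalOrder ℓ A M H₁)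
    (hkey : ffx_Key ℓ A hA M H₁) : ff_IsOrder ℓ M (ffx_H ℓ A hA M H₁) := by
  have hfin : Module.Finite (ff_R ℓ) (ffx_H ℓ A hA M H₁) := by
    have hfg := ffx_alg_fg ℓ A hA M hopen (Subalgebra.toSubmodule (ffx_H ℓ A hA M H₁))
      (fun φ hφ => ⟨hφ.2, fun x => ffx_alg_HA_mem_A A M H₁ hH₁.int φ hφ.1 x⟩)
    exact Module.Finite.iff_fg.mpr hfg
  exact
    { equiv := fun φ hφ => hφ.2
      fin := hfin
      sep := ffx_alg_sep ℓ A hA M H₁ hkey hH₁.sep
      comul := ffx_alg_comul ℓ A hA M H₁ hfin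
        (fun ψ hψ => ffx_alg_HA_le ℓ A hA M H₁ hkey hψ)
        (ffx_alg_HA_comul A M H₁ hH₁.comul) }

end Fermat.Agent.FF
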