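/-
Project FF (S19 + S32), leaf [DESC]: the Galois system of a finite Galois extension of fields.

* `ffx_field_system`: `N / K` finite Galois.  There are `e, e' : Fin n → N` with
  `∑ i, e' i * γ (e i) = [γ = 1]` for all `γ ∈ Gal(N/K)` (a basis and its dual basis for the trace
  form).  With `ffx_coset_descent` this is Galois descent for vector spaces.
Owner: helper13.  Prefix `ffx_`.  Mathlib only.
-/
import Mathlib

set_option autoImplicit false
set_option linter.style.haveILetI false
set_option linter.unusedSectionVars false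

namespace Fermat.Agent.FF

/-- **Galois system of a finite Galois extension**: a basis and its trace-dual basis. -/
theorem ffx_field_system (K N : Type*) [Field K] [Field N] [Algebra K N] [FiniteDimensional K N]
    [IsGalois K N] :
    ∃ (n : ℕ) (e e' : Fin n → N), (∑ i, e' i * e i = 1) ∧
      ∀ γ : N ≃ₐ[K] N, γ ≠ 1 → ∑ i, e' i * γ (e i) = 0 := by
  classical
  set n := Module.finrank K N with hn
  let b : Module.Basis (Fin n) K N := Module.finBasis K N
  have hnd := traceForm_nondegenerate K N
  let b' : Module.Basis (Fin n) K N := (Algebra.traceForm K N).dualBasis hnd b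
  have hcard : Fintype.card (N ≃ₐ[K] N) = n := by
    rw [← Nat.card_eq_fintype_card, IsGalois.card_aut_eq_finrank]
  let eqv : Fin n ≃ (N ≃ₐ[K] N) := (Fintype.equivFinOfCardEq hcard).symm
  -- `P i γ = γ (b' i)`, `Q γ j = γ (b j)`, `P * Q = 1`
  let P : Matrix (Fin n) (N ≃ₐ[K] N) N := fun i γ => γ (b' i)
  let Q : Matrix (N ≃ₐ[K] N) (Fin n) N := fun γ j => γ (b j)
  have hPQ : P * Q = 1 := by
    ext i j
    rw [Matrix.mul_apply]
    have h1 : ∑ γ : N ≃ₐ[K] N, P i γ * Q γ j = ∑ γ : N ≃ₐ[K] N, γ (b' i * b j) := by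
      refine Finset.sum_congr rfl fun γ _ => ?_
      rw [map_mul]
    rw [h1, ← trace_eq_sum_automorphisms, ← Algebra.traceForm_apply]
    have h2 : Algebra.traceForm K N (b' i) (b j) = if j = i then 1 else 0 :=
      LinearMap.BilinForm.apply_dualBasis_left hnd b i j
    rw [h2, Matrix.one_apply]
    by_cases hij : i = j
    · rw [if_pos hij, if_pos hij.symm, map_one]
    · rw [if_neg hij, if_neg (Ne.symm hij), map_zero]
  have hQP : Q * P = 1 := (Matrix.mul_eq_one_comm_of_equiv eqv).mp hPQ
  have hentry : ∀ γ : N ≃ₐ[K] N,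
      ∑ i, b' i * γ (b i) = (1 : Matrix (N ≃ₐ[K] N) (N ≃ₐ[K] N) N) γ 1 := by
    intro γ
    rw [← hQP, Matrix.mul_apply]
    refine Finset.sum_congr rfl fun i _ => ?_
    rw [mul_comm]
    rfl
  refine ⟨n, b, b', ?_, fun γ hγ => ?_⟩
  · have := hentry 1
    rw [Matrix.one_apply_eq] at this
    simpa using this
  · rw [hentry γ, Matrix.one_apply_ne hγ]

end Fermat.Agent.FF
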