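/-
Project FF (S19 + S32), leaf [DESC-HA]: the `A`-algebra `H_A = ffx_HA A M H₁` generated by the
`D_A`-conjugates of a local order `H₁`.

* `ffx_H₁_le_HA`   : `H₁ ⊆ H_A`;
* `ffx_HA_mem_A`   : `H_A` is `A`-valued;
* `ffx_HA_conj`    : `H_A` is stable under the conjugation action of `D_A`;
* `ffx_HA_comul`   : `H_A` is `Δ`-closed;
* `ffx_HA_open`    : `∀ f : M → Q̄, ∃ k, ℓ ^ k • f ∈ H_A` (Lagrange interpolation);
* `ffx_exists_pow_mul_mem` : `∀ z : Q̄, ∃ k, ℓ ^ k * z ∈ A`.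
Owner: helper13.  Prefix `ffx_`.
-/
import Mathlib
import Fermat.Agent.FF.DescentDefs

set_option autoImplicit false
set_option linter.style.haveILetI false
set_option linter.unusedSectionVars false

noncomputable section

namespace Fermat.Agent.FF

open scoped Pointwise

section arith

variable (A : ValuationSubring ff_Qb)

/-- algebraic integers lie in every valuation subring -/
theorem ffx_isIntegral_mem {z : ff_Qb} (hz : IsIntegral ℤ z) : z ∈ A := by
  have hz' : IsIntegral A z := hz.tower_top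
  obtain ⟨y, hy⟩ := IsIntegrallyClosed.isIntegral_iff.1 hz'
  rw [← hy]
  exact y.2

/-- the decomposition group preserves `A` -/
theorem ffx_D_mem {σ : ff_GQ} (hσ : σ ∈ A.decompositionSubgroup ℚ) {y : ff_Qb} (hy : y ∈ A) :
    σ y ∈ A := by
  have h1 : σ • A = A := hσ
  have h2 : σ • y ∈ σ • A := ValuationSubring.smul_mem_pointwise_smul σ y A hy
  rw [h1] at h2
  exact h2

variable {A} {ℓ : ℕ} [Fact ℓ.Prime]

/-- integers prime to `ℓ` are units of `A` -/
theorem ffx_valuation_natCast_eq_one (hA : A.LiesOverPrime ℓ) {m : ℕ} (hm : m.Coprime ℓ) :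
    A.valuation (m : ff_Qb) = 1 := by
  have hℓ : A.valuation (ℓ : ff_Qb) < 1 := (ValuationSubring.mem_nonunits_iff (A := A)).1 hA
  refine le_antisymm ?_ (not_lt.mp fun hlt => ?_)
  · rw [ValuationSubring.valuation_le_one_iff]
    exact_mod_cast ffx_intCast_mem A (m : ℤ)
  · obtain ⟨a, b, hab⟩ := Nat.isCoprime_iff_coprime.mpr hm
    have h1 : (a : ff_Qb) * (m : ff_Qb) + (b : ff_Qb) * (ℓ : ff_Qb) = 1 := by
      have := congrArg (fun z : ℤ => (z : ff_Qb)) hab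
      push_cast at this
      exact this
    have ha : A.valuation (a : ff_Qb) ≤ 1 :=
      (ValuationSubring.valuation_le_one_iff A _).2 (ffx_intCast_mem A a)
    have hb : A.valuation (b : ff_Qb) ≤ 1 :=
      (ValuationSubring.valuation_le_one_iff A _).2 (ffx_intCast_mem A b)
    have h2 : A.valuation ((a : ff_Qb) * (m : ff_Qb) + (b : ff_Qb) * (ℓ : ff_Qb)) < 1 := by
      refine Valuation.map_add_lt _ ?_ ?_
      · rw [map_mul]
        exact mul_lt_one_of_nonneg_of_lt_one_right ha zero_le hlt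
      · rw [map_mul]
        exact mul_lt_one_of_nonneg_of_lt_one_right hb zero_le hℓ
    rw [h1, map_one] at h2
    exact lt_irrefl _ h2

/-- every element of `Q̄` is moved into `A` by a power of `ℓ` -/
theorem ffx_exists_pow_mul_mem (hA : A.LiesOverPrime ℓ) (z : ff_Qb) :
    ∃ k : ℕ, (ℓ : ff_Qb) ^ k * z ∈ A := by
  have hℓp : ℓ.Prime := Fact.out
  have halg : IsAlgebraic ℤ z :=
    (IsFractionRing.isAlgebraic_iff ℤ ℚ ff_Qb).mpr ((AlgebraicClosure.isAlgebraic ℚ).isAlgebraic z)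
  obtain ⟨d, hd0, hd⟩ := halg.exists_integral_multiple
  have hdz : (d : ff_Qb) * z ∈ A := by
    have := ffx_isIntegral_mem A hd
    rwa [zsmul_eq_mul] at this
  -- `|d| = ℓ ^ k * m`, `m` prime to `ℓ`
  obtain ⟨k, m, hm, hdm⟩ := Nat.exists_eq_pow_mul_and_not_dvd (Int.natAbs_ne_zero.mpr hd0) ℓ
    hℓp.ne_one
  have hmcop : m.Coprime ℓ := (Nat.Coprime.symm ((Nat.Prime.coprime_iff_not_dvd hℓp).mpr hm))
  have hm1 := ffx_valuation_natCast_eq_one hA hmcop
  refine ⟨k, ?_⟩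
  rw [← ValuationSubring.valuation_le_one_iff] at hdz ⊢
  have habs : A.valuation (d : ff_Qb) = A.valuation ((d.natAbs : ℕ) : ff_Qb) := by
    rcases Int.natAbs_eq d with h | h
    · have h' : (d : ff_Qb) = ((d.natAbs : ℕ) : ff_Qb) := by
        have := congrArg (Int.cast : ℤ → ff_Qb) h
        rwa [Int.cast_natCast] at this
      rw [h']
    · have h' : (d : ff_Qb) = -((d.natAbs : ℕ) : ff_Qb) := by
        have := congrArg (Int.cast : ℤ → ff_Qb) h
        rwa [Int.cast_neg, Int.cast_natCast] at this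
      rw [h', Valuation.map_neg]
  rw [map_mul, habs, hdm] at hdz
  push_cast at hdz
  rw [map_mul, hm1, mul_one] at hdz
  rw [map_mul]
  exact hdz

end arith

section HA

variable {ℓ : ℕ} [Fact ℓ.Prime] {A : ValuationSubring ff_Qb}
  {M : Type} [AddCommGroup M] [DistribMulAction ff_GQ M] {H₁ : Subring (M → ff_Qb)}

theorem ffx_gens_le_HA : ffx_gens A M H₁ ⊆ ffx_HA A M H₁ := Algebra.subset_adjoin

theorem ffx_H₁_le_HA {φ : M → ff_Qb} (hφ : φ ∈ H₁) : φ ∈ ffx_HA A M H₁ :=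
  ffx_gens_le_HA ⟨1, one_mem _, φ, hφ, (ffx_conj_one φ).symm⟩

theorem ffx_const_mem_HA {a : ff_Qb} (ha : a ∈ A) : (fun _ : M => a) ∈ ffx_HA A M H₁ := by
  have h : (fun _ : M => a) = algebraMap A (M → ff_Qb) ⟨a, ha⟩ := rfl
  rw [h]
  exact Subalgebra.algebraMap_mem _ _

theorem ffx_smul_mem_HA {a : ff_Qb} (ha : a ∈ A) {ψ : M → ff_Qb} (hψ : ψ ∈ ffx_HA A M H₁) :
    a • ψ ∈ ffx_HA A M H₁ := by
  have h : a • ψ = (⟨a, ha⟩ : A) • ψ := rfl
  rw [h]
  exact Subalgebra.smul_mem _ hψ _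

/-- `H_A` is `A`-valued. -/
theorem ffx_HA_mem_A (hint : ∀ φ ∈ H₁, ∀ x : M, φ x ∈ A) {ψ : M → ff_Qb}
    (hψ : ψ ∈ ffx_HA A M H₁) (x : M) : ψ x ∈ A := by
  induction hψ using Algebra.adjoin_induction with
  | mem ψ hψ =>
    obtain ⟨σ, hσ, φ, hφ, rfl⟩ := hψ
    exact ffx_D_mem A hσ (hint φ hφ _)
  | algebraMap r => exact r.2
  | add ψ χ _ _ h1 h2 => exact A.add_mem _ _ h1 h2
  | mul ψ χ _ _ h1 h2 => exact A.mul_mem _ _ h1 h2

/-- `H_A` is stable under the conjugation action of the decomposition group. -/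
theorem ffx_HA_conj {σ : ff_GQ} (hσ : σ ∈ A.decompositionSubgroup ℚ) {ψ : M → ff_Qb}
    (hψ : ψ ∈ ffx_HA A M H₁) : ffx_conj σ ψ ∈ ffx_HA A M H₁ := by
  induction hψ using Algebra.adjoin_induction with
  | mem ψ hψ =>
    obtain ⟨τ, hτ, φ, hφ, rfl⟩ := hψ
    rw [← ffx_conj_mul]
    exact ffx_gens_le_HA ⟨σ * τ, mul_mem hσ hτ, φ, hφ, rfl⟩
  | algebraMap r =>
    have h : ffx_conj σ (algebraMap A (M → ff_Qb) r) = fun _ : M => σ (r : ff_Qb) := rfl
    rw [h]
    exact ffx_const_mem_HA (ffx_D_mem A hσ r.2)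
  | add ψ χ _ _ h1 h2 =>
    rw [ffx_conj_add]
    exact add_mem h1 h2
  | mul ψ χ _ _ h1 h2 =>
    rw [ffx_conj_mul_fun]
    exact mul_mem h1 h2

/-- `Δ`-closedness with an arbitrary finite index type. -/
theorem ffx_delta_of_fintype {S : Set (M → ff_Qb)} {ψ : M → ff_Qb} {ι : Type*} [Fintype ι]
    (a b : ι → M → ff_Qb) (ha : ∀ i, a i ∈ S) (hb : ∀ i, b i ∈ S)
    (h : ∀ x y : M, ψ (x + y) = ∑ i, a i x * b i y) :
    ∃ (n : ℕ) (a b : Fin n → M → ff_Qb), (∀ i, a i ∈ S) ∧ (∀ i, b i ∈ S) ∧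
      ∀ x y : M, ψ (x + y) = ∑ i, a i x * b i y := by
  classical
  let e := Fintype.equivFin ι
  refine ⟨Fintype.card ι, fun i => a (e.symm i), fun i => b (e.symm i), fun i => ha _,
    fun i => hb _, fun x y => ?_⟩
  rw [h]
  exact Fintype.sum_equiv e _ _ (fun i => by simp)

/-- `H_A` is `Δ`-closed. -/
theorem ffx_HA_comul
    (hcomul : ∀ φ ∈ H₁, ∃ (n : ℕ) (a b : Fin n → M → ff_Qb), (∀ i, a i ∈ H₁) ∧ (∀ i, b i ∈ H₁) ∧
      ∀ x y : M, φ (x + y) = ∑ i, a i x * b i y)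
    {ψ : M → ff_Qb} (hψ : ψ ∈ ffx_HA A M H₁) :
    ∃ (n : ℕ) (a b : Fin n → M → ff_Qb), (∀ i, a i ∈ ffx_HA A M H₁) ∧
      (∀ i, b i ∈ ffx_HA A M H₁) ∧ ∀ x y : M, ψ (x + y) = ∑ i, a i x * b i y := by
  induction hψ using Algebra.adjoin_induction with
  | mem ψ hψ =>
    obtain ⟨σ, hσ, φ, hφ, rfl⟩ := hψ
    obtain ⟨n, a, b, ha, hb, hab⟩ := hcomul φ hφ
    refine ⟨n, fun i => ffx_conj σ (a i), fun i => ffx_conj σ (b i),
      fun i => ffx_gens_le_HA ⟨σ, hσ, a i, ha i, rfl⟩,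
      fun i => ffx_gens_le_HA ⟨σ, hσ, b i, hb i, rfl⟩, fun x y => ?_⟩
    simp only [ffx_conj_apply]
    rw [smul_add, hab, map_sum]
    exact Finset.sum_congr rfl fun i _ => map_mul σ _ _
  | algebraMap r =>
    refine ⟨1, fun _ => algebraMap A (M → ff_Qb) r, fun _ => 1,
      fun _ => Subalgebra.algebraMap_mem _ _, fun _ => one_mem _, fun x y => ?_⟩
    simp
  | add ψ χ _ _ h1 h2 =>
    obtain ⟨n, a, b, ha, hb, hab⟩ := h1
    obtain ⟨m, a', b', ha', hb', hab'⟩ := h2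
    refine ffx_delta_of_fintype (ι := Fin n ⊕ Fin m) (Sum.elim a a') (Sum.elim b b')
      (fun i => by cases i <;> simp [ha, ha']) (fun i => by cases i <;> simp [hb, hb'])
      fun x y => ?_
    rw [Pi.add_apply, hab, hab', Fintype.sum_sum_type]
    simp
  | mul ψ χ _ _ h1 h2 =>
    obtain ⟨n, a, b, ha, hb, hab⟩ := h1
    obtain ⟨m, a', b', ha', hb', hab'⟩ := h2
    refine ffx_delta_of_fintype (ι := Fin n × Fin m) (fun p => a p.1 * a' p.2)
      (fun p => b p.1 * b' p.2) (fun p => mul_mem (ha _) (ha' _))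
      (fun p => mul_mem (hb _) (hb' _)) fun x y => ?_
    rw [Pi.mul_apply, hab, hab', Finset.sum_mul_sum, Fintype.sum_prod_type]
    refine Finset.sum_congr rfl fun i _ => Finset.sum_congr rfl fun j _ => ?_
    simp only [Pi.mul_apply]
    ring

/-- `Q̄ · H_A = Map(M, Q̄)`: every function is moved into `H_A` by a power of `ℓ`. -/
theorem ffx_HA_open [Finite M] (hA : A.LiesOverPrime ℓ) (hint : ∀ φ ∈ H₁, ∀ x : M, φ x ∈ A)
    (hsep : ∀ x y : M, x ≠ y → ∃ φ ∈ H₁, φ x ≠ φ y) (f : M → ff_Qb) :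
    ∃ k : ℕ, ((ℓ : ff_Qb) ^ k) • f ∈ ffx_HA A M H₁ := by
  classical
  haveI : Fintype M := Fintype.ofFinite M
  -- separating functions
  have hsep' : ∀ x y : M, ∃ φ ∈ H₁, x ≠ y → φ x ≠ φ y := by
    intro x y
    by_cases hxy : x = y
    · exact ⟨0, zero_mem _, fun h => absurd hxy h⟩
    · obtain ⟨φ, hφ, h⟩ := hsep x y hxy
      exact ⟨φ, hφ, fun _ => h⟩
  choose sp hsp hspne using hsep'
  -- the Lagrange numerators
  set g : M → M → ff_Qb := fun x =>
    ∏ y ∈ Finset.univ.erase x, (sp x y - fun _ => sp x y y) with hg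
  have hgmem : ∀ x, g x ∈ ffx_HA A M H₁ := by
    intro x
    refine Subalgebra.prod_mem _ fun y _ => ?_
    exact sub_mem (ffx_H₁_le_HA (hsp x y)) (ffx_const_mem_HA (hint _ (hsp x y) y))
  have hgval : ∀ x z, g x z = ∏ y ∈ Finset.univ.erase x, (sp x y z - sp x y y) := by
    intro x z
    rw [hg]
    simp only [Finset.prod_apply, Pi.sub_apply]
  have hgne : ∀ x, g x x ≠ 0 := by
    intro x
    rw [hgval, Finset.prod_ne_zero_iff]
    intro y hy
    exact sub_ne_zero.mpr (hspne x y (Finset.ne_of_mem_erase hy).symm)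
  have hgzero : ∀ x z, z ≠ x → g x z = 0 := by
    intro x z hzx
    rw [hgval]
    exact Finset.prod_eq_zero (Finset.mem_erase.mpr ⟨hzx, Finset.mem_univ z⟩) (sub_self _)
  -- exponents
  choose kk hkk using fun x : M => ffx_exists_pow_mul_mem hA (f x / g x x)
  refine ⟨Finset.univ.sup kk, ?_⟩
  have hdecomp : ((ℓ : ff_Qb) ^ (Finset.univ.sup kk)) • f =
      ∑ x : M, ((ℓ : ff_Qb) ^ (Finset.univ.sup kk) * (f x / g x x)) • g x := by
    funext z
    rw [Finset.sum_apply, Finset.sum_eq_single z]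
    · simp only [Pi.smul_apply, smul_eq_mul]
      field_simp [hgne z]
    · intro x _ hxz
      simp only [Pi.smul_apply, smul_eq_mul]
      rw [hgzero x z (Ne.symm hxz), mul_zero]
    · intro h
      exact absurd (Finset.mem_univ z) h
  rw [hdecomp]
  refine Subalgebra.sum_mem _ fun x _ => ffx_smul_mem_HA ?_ (hgmem x)
  have hle : kk x ≤ Finset.univ.sup kk := Finset.le_sup (Finset.mem_univ x)
  have h1 : (ℓ : ff_Qb) ^ (Finset.univ.sup kk) * (f x / g x x) =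
      (ℓ : ff_Qb) ^ (Finset.univ.sup kk - kk x) * ((ℓ : ff_Qb) ^ kk x * (f x / g x x)) := by
    rw [← mul_assoc, ← pow_add, Nat.sub_add_cancel hle]
  rw [h1]
  refine A.mul_mem _ _ (A.pow_mem ?_ _) (hkk x)
  exact_mod_cast ffx_intCast_mem A (ℓ : ℤ)

end HA

end Fermat.Agent.FF
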