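/-
Project FF (S19 + S32), leaf [DESC] (ii), instance half in abstract valuation-ring form:
**unramified descent**.

`N` a field, `G` a finite group acting on `N`, `V` a valuation subring of `N` with FINITE residue
field, `D ≤ G` a subgroup preserving `V`, `I ≤ D` its inertia subgroup (the elements of `D` acting
trivially on the residue field).

* `ffx_exists_invariant_lift` (the crux, `f(N/N^I) = 1`): every residue class of `V` contains an
  `I`-invariant element of `V`.  Elementary: the coefficients of `∏_{ι ∈ I} (X - ι x)` are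
  `I`-invariant and the polynomial reduces to `(X - x̄)^{|I|}`.
* `ffx_galois_system`: a Galois system `e i = θ ^ i`, `e'` in `V` with
  `∑ i, e' i * σ • e i = [σ ∈ I']` for `σ ∈ D'` (Vandermonde determinant in an `I'`-invariant lift
  `θ` of a generator of `κˣ`, conjugated by a transversal of `D' / I'`).
* `ffx_coset_descent`: descent along a finite quotient `D / K` with a Galois system: a `K`-fixed
  vector `w` of a `D`-stable lattice `Λ` is `∑ i, e' i • c i`, `c i ∈ Λ` `D`-invariant.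
Owner: helper13.  Prefix `ffx_`.  Mathlib only.
-/
import Mathlib

set_option autoImplicit false
set_option linter.style.haveILetI false
set_option linter.unusedSectionVars false

open Polynomial

namespace Fermat.Agent.FF

section poly

/-- In characteristic `p`: the coefficient of `X ^ (p^a (e'-1))` in `(X - b) ^ (p^a e')` is
`- e' b ^ (p^a)`. -/
theorem ffx_coeff_sub_pow {κ : Type*} [Field κ] (p : ℕ) [Fact p.Prime] [CharP κ p] (b : κ)
    (a e' : ℕ) (he' : 0 < e') :
    ((X - C b) ^ (p ^ a * e')).coeff (p ^ a * (e' - 1)) = -((e' : κ) * b ^ (p ^ a)) := by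
  have hpa : 0 < p ^ a := pow_pos (Fact.out : p.Prime).pos a
  have h1 : (X - C b) ^ (p ^ a * e') = expand κ (p ^ a) ((X + C (-(b ^ (p ^ a)))) ^ e') := by
    have hX : (X - C b) ^ (p ^ a) = expand κ (p ^ a) (X + C (-(b ^ (p ^ a)))) := by
      rw [sub_pow_char_pow, map_add, expand_X, expand_C, C_neg, C_pow, sub_eq_add_neg]
    rw [pow_mul, hX, ← map_pow]
  rw [h1, coeff_expand_mul' hpa, coeff_X_add_C_pow]
  have h2 : e' - (e' - 1) = 1 := by omega
  have h3 : e'.choose (e' - 1) = e' := by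
    rw [Nat.choose_symm (by omega : 1 ≤ e')]
    exact Nat.choose_one_right e'
  rw [h2, h3, pow_one]
  ring

end poly

section crux

variable {N : Type*} [Field N] {G : Type*} [Group G] [MulSemiringAction G N]
  (V : ValuationSubring N)

/-- Two elements of `V` have the same residue iff their difference is a nonunit. -/
theorem ffx_residue_eq_iff (a b : V) :
    IsLocalRing.residue V a = IsLocalRing.residue V b ↔ ((a : N) - (b : N)) ∈ V.nonunits := by
  rw [← sub_eq_zero, ← map_sub, IsLocalRing.residue_eq_zero_iff,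
    ← ValuationSubring.coe_mem_nonunits_iff]
  rfl

/-- **The crux (`f(N / N^I) = 1`)**: if the finite group `I` preserves `V` and acts trivially on
its finite residue field, every residue class contains an `I`-invariant element. -/
theorem ffx_exists_invariant_lift [Finite (IsLocalRing.ResidueField V)] (I : Subgroup G)
    [Finite I] (hIV : ∀ ι ∈ I, ∀ x ∈ V, ι • x ∈ V)
    (hI : ∀ ι ∈ I, ∀ x ∈ V, ι • x - x ∈ V.nonunits) (x : N) (hx : x ∈ V) :
    ∃ y ∈ V, (∀ ι ∈ I, ι • y = y) ∧ x - y ∈ V.nonunits := by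
  classical
  haveI : Fintype I := Fintype.ofFinite I
  haveI : Fintype (IsLocalRing.ResidueField V) := Fintype.ofFinite _
  set κ := IsLocalRing.ResidueField V with hκ
  set res := IsLocalRing.residue V with hres
  obtain ⟨p, hchar⟩ := CharP.exists κ
  haveI := hchar
  haveI : Fact p.Prime := ⟨CharP.char_is_prime κ p⟩
  obtain ⟨r, -, hq⟩ := FiniteField.card κ p
  -- the conjugates of `x`
  set xι : I → V := fun ι => ⟨(ι : G) • x, hIV ι ι.2 x hx⟩ with hxι
  set b : κ := res ⟨x, hx⟩ with hb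
  set P : V[X] := ∏ ι : I, (X - C (xι ι)) with hP
  -- reduction of `P`
  have hPres : P.map res = (X - C b) ^ Fintype.card I := by
    rw [hP, Polynomial.map_prod]
    rw [Finset.prod_congr rfl (g := fun _ => X - C b)]
    · rw [Finset.prod_const, Finset.card_univ]
    · intro ι _
      rw [Polynomial.map_sub, Polynomial.map_X, Polynomial.map_C]
      congr 2
      exact (ffx_residue_eq_iff V _ _).mpr (hI ι ι.2 x hx)
  -- invariance of the coefficients
  have hinv : ∀ (j : ℕ) (ι₀ : G), ι₀ ∈ I → ι₀ • ((P.coeff j : V) : N) = ((P.coeff j : V) : N) := by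
    intro j ι₀ hι₀
    have hQ : P.map V.subtype = ∏ ι : I, (X - C ((ι : G) • x)) := by
      rw [hP, Polynomial.map_prod]
      refine Finset.prod_congr rfl fun ι _ => ?_
      rw [Polynomial.map_sub, Polynomial.map_X, Polynomial.map_C]
      rfl
    have hQ2 : (P.map V.subtype).map (MulSemiringAction.toRingHom G N ι₀) = P.map V.subtype := by
      rw [hQ, Polynomial.map_prod]
      refine Fintype.prod_equiv (Equiv.mulLeft (⟨ι₀, hι₀⟩ : I)) _ _ fun ι => ?_
      rw [Polynomial.map_sub, Polynomial.map_X, Polynomial.map_C]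
      congr 2
      change ι₀ • ((ι : G) • x) = ((⟨ι₀, hι₀⟩ * ι : I) : G) • x
      rw [Subgroup.coe_mul, mul_smul]
    have h1 := congrArg (fun f => f.coeff j) hQ2
    simp only [Polynomial.coeff_map] at h1
    exact h1
  -- decompose the order of `I`
  obtain ⟨a, e', he'p, hcard⟩ := Nat.exists_eq_pow_mul_and_not_dvd
    (Fintype.card_ne_zero : Fintype.card I ≠ 0) p (Fact.out : p.Prime).ne_one
  have he'0 : 0 < e' := by
    rcases Nat.eq_zero_or_pos e' with h | h
    · exact absurd (h ▸ dvd_zero p) he'p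
    · exact h
  -- the relevant coefficient
  set c : V := P.coeff (p ^ a * (e' - 1)) with hc
  have hcres : res c = -((e' : κ) * b ^ (p ^ a)) := by
    rw [hc, ← Polynomial.coeff_map, hPres, hcard]
    exact ffx_coeff_sub_pow p b a e' he'0
  have he'κ : (e' : κ) ≠ 0 := by
    rw [Ne, CharP.cast_eq_zero_iff κ p]
    exact he'p
  have he'inv : (e' : κ) * (e' : κ) ^ (Fintype.card κ - 2) = 1 := by
    have h2 : 2 ≤ Fintype.card κ := Fintype.one_lt_card
    rw [← pow_succ', (by omega : Fintype.card κ - 2 + 1 = Fintype.card κ - 1)]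
    exact FiniteField.pow_card_sub_one_eq_one _ he'κ
  -- `y₁` with residue `b ^ (p ^ a)`
  set y₁ : V := -(((e' ^ (Fintype.card κ - 2) : ℕ) : V) * c) with hy₁
  have hy₁res : res y₁ = b ^ (p ^ a) := by
    rw [hy₁, map_neg, map_mul, hcres, map_natCast]
    push_cast
    have : (e' : κ) ^ (Fintype.card κ - 2) * -((e' : κ) * b ^ p ^ a) =
        -(((e' : κ) * (e' : κ) ^ (Fintype.card κ - 2)) * b ^ p ^ a) := by ring
    rw [this, he'inv, one_mul, neg_neg]
  have hy₁inv : ∀ ι₀ ∈ I, ι₀ • (y₁ : N) = (y₁ : N) := by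
    intro ι₀ hι₀
    rw [hy₁]
    push_cast
    rw [smul_neg, smul_mul', hinv _ ι₀ hι₀]
    congr 2
    exact map_pow (MulSemiringAction.toRingHom G N ι₀) _ _ |>.trans (by
      rw [map_natCast])
  -- raise to a power of `p` to come back to `b`
  set y : V := y₁ ^ (p ^ (a * ((r : ℕ) - 1))) with hy
  have hyres : res y = b := by
    rw [hy, map_pow, hy₁res, ← pow_mul, ← pow_add]
    have hr1 : 1 ≤ (r : ℕ) := r.pos
    have h3 : a + a * ((r : ℕ) - 1) = (r : ℕ) * a := by
      obtain ⟨r', hr'⟩ : ∃ r', (r : ℕ) = r' + 1 := ⟨(r : ℕ) - 1, by omega⟩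
      rw [hr']
      simp only [Nat.add_sub_cancel]
      ring
    rw [h3, pow_mul, ← hq]
    exact FiniteField.pow_card_pow a b
  refine ⟨(y : N), y.2, ?_, ?_⟩
  · intro ι₀ hι₀
    rw [hy]
    push_cast
    rw [smul_pow', hy₁inv ι₀ hι₀]
  · have := (ffx_residue_eq_iff V ⟨x, hx⟩ y).mp (by rw [hyres])
    exact this

end crux

section system

variable {N : Type*} [Field N] {Γ : Type*} [Group Γ] [MulSemiringAction Γ N]
  (V : ValuationSubring N)

theorem ffx_nonunits_add {a b : N} (ha : a ∈ V.nonunits) (hb : b ∈ V.nonunits) :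
    a + b ∈ V.nonunits := by
  rw [ValuationSubring.mem_nonunits_iff] at *
  exact Valuation.map_add_lt _ ha hb

theorem ffx_nonunits_neg {a : N} (ha : a ∈ V.nonunits) : -a ∈ V.nonunits := by
  rw [ValuationSubring.mem_nonunits_iff] at *
  rwa [Valuation.map_neg]

theorem ffx_nonunits_sub {a b : N} (ha : a ∈ V.nonunits) (hb : b ∈ V.nonunits) :
    a - b ∈ V.nonunits := by
  rw [sub_eq_add_neg]
  exact ffx_nonunits_add V ha (ffx_nonunits_neg V hb)

theorem ffx_nonunits_mul {a b : N} (ha : a ∈ V.nonunits) (hb : b ∈ V) : a * b ∈ V.nonunits := by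
  rw [ValuationSubring.mem_nonunits_iff] at *
  rw [← ValuationSubring.valuation_le_one_iff] at hb
  rw [map_mul]
  exact mul_lt_one_of_nonneg_of_lt_one_left zero_le ha hb

/-- a group element preserving `V` (together with its inverse) preserves the nonunits -/
theorem ffx_smul_mem_nonunits {σ : Γ} (hσ : ∀ x ∈ V, σ⁻¹ • x ∈ V) {x : N}
    (hx : x ∈ V.nonunits) : σ • x ∈ V.nonunits := by
  rw [ValuationSubring.mem_nonunits_iff_or] at *
  rcases hx with rfl | hx
  · left; exact smul_zero σ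
  · right
    intro h
    apply hx
    have h1 := hσ _ h
    rwa [← smul_inv'', inv_smul_smul] at h1

/-- **Galois system of an unramified quotient.**  `D'` a finite group preserving `V` (finite
residue field), `I' ≤ D'` its inertia subgroup.  There are `e i = θ ^ i ∈ V` fixed by `I'` and
`e' i ∈ V` with `∑ i, e' i * σ • e i = [σ ∈ I']` for all `σ ∈ D'`. -/
theorem ffx_galois_system [Finite (IsLocalRing.ResidueField V)] (D' I' : Subgroup Γ) [Finite D']
    (hID : I' ≤ D') (hDV : ∀ σ ∈ D', ∀ x ∈ V, σ • x ∈ V)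
    (hI : ∀ ι ∈ I', ∀ x ∈ V, ι • x - x ∈ V.nonunits)
    (hImem : ∀ σ ∈ D', (∀ x ∈ V, σ • x - x ∈ V.nonunits) → σ ∈ I') :
    ∃ (n : ℕ) (e e' : Fin n → N), (∀ i, e i ∈ V) ∧ (∀ i, e' i ∈ V) ∧
      (∀ i, ∀ ι ∈ I', ι • e i = e i) ∧
      (∀ σ ∈ D', σ ∈ I' → ∑ i, e' i * σ • e i = 1) ∧
      (∀ σ ∈ D', σ ∉ I' → ∑ i, e' i * σ • e i = 0) := by
  classical
  haveI : Finite I' := Finite.of_injective (Subgroup.inclusion hID) (Subgroup.inclusion_injective hID)
  set κ := IsLocalRing.ResidueField V with hκ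
  set res := IsLocalRing.residue V with hres
  -- `D'` preserves the nonunits
  have hDnu : ∀ σ ∈ D', ∀ x ∈ V.nonunits, σ • x ∈ V.nonunits := fun σ hσ x hx =>
    ffx_smul_mem_nonunits V (fun y hy => hDV _ (inv_mem hσ) y hy) hx
  -- a generator of `κˣ` and an `I'`-invariant lift
  obtain ⟨g₀, hg₀⟩ := IsCyclic.exists_monoid_generator (α := κˣ)
  obtain ⟨θ₀, hθ₀⟩ := IsLocalRing.residue_surjective (g₀ : κ)
  obtain ⟨θ, hθV, hθI, hθθ₀⟩ := ffx_exists_invariant_lift V I'
    (fun ι hι x hx => hDV ι (hID hι) x hx) hI (θ₀ : N) θ₀.2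
  have hθres : res ⟨θ, hθV⟩ = (g₀ : κ) := by
    rw [← hθ₀]
    exact ((ffx_residue_eq_iff V θ₀ ⟨θ, hθV⟩).mpr hθθ₀).symm
  -- every element of `V` is a nonunit or congruent to a power of `θ`
  have hcases : ∀ x ∈ V, x ∈ V.nonunits ∨ ∃ m : ℕ, x - θ ^ m ∈ V.nonunits := by
    intro x hx
    by_cases h0 : res ⟨x, hx⟩ = 0
    · left
      rw [hres, IsLocalRing.residue_eq_zero_iff] at h0
      exact ValuationSubring.coe_mem_nonunits_iff.mpr h0
    · right
      obtain ⟨m, hm⟩ := hg₀ (Units.mk0 _ h0)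
      refine ⟨m, ?_⟩
      have h1 : res ⟨x, hx⟩ = res (⟨θ, hθV⟩ ^ m) := by
        rw [map_pow, hθres, ← Units.val_pow_eq_pow_val]
        have := congrArg (Units.val) hm
        simp only [Units.val_mk0] at this
        rw [← this]
      exact (ffx_residue_eq_iff V ⟨x, hx⟩ (⟨θ, hθV⟩ ^ m)).mp h1
  -- an element of `D'` fixing `θ` modulo the maximal ideal lies in `I'`
  have hkey : ∀ g ∈ D', g • θ - θ ∈ V.nonunits → g ∈ I' := by
    intro g hg hgθ
    refine hImem g hg fun x hx => ?_
    rcases hcases x hx with hxnu | ⟨m, hm⟩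
    · exact ffx_nonunits_sub V (hDnu g hg x hxnu) hxnu
    · have h1 : g • x - x = (g • (x - θ ^ m) - (x - θ ^ m)) + ((g • θ) ^ m - θ ^ m) := by
        rw [smul_sub, smul_pow']
        ring
      rw [h1]
      refine ffx_nonunits_add V (ffx_nonunits_sub V (hDnu g hg _ hm) hm) ?_
      obtain ⟨c, hc⟩ := sub_dvd_pow_sub_pow (⟨g • θ, hDV g hg θ hθV⟩ : V) ⟨θ, hθV⟩ m
      have h2 : (g • θ) ^ m - θ ^ m = (g • θ - θ) * (c : N) := by
        have := congrArg (fun y : V => (y : N)) hc
        simpa using this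
      rw [h2]
      exact ffx_nonunits_mul V hgθ c.2
  -- the quotient `D' / I'` and the conjugates of `θ`
  set J : Subgroup D' := I'.subgroupOf D' with hJ
  haveI : Fintype (D' ⧸ J) := Fintype.ofFinite _
  set n := Fintype.card (D' ⧸ J) with hn
  let eq : (D' ⧸ J) ≃ Fin n := Fintype.equivFin _
  set v : Fin n → V := fun j =>
    ⟨(((eq.symm j).out : D') : Γ) • θ, hDV _ ((eq.symm j).out : D').2 θ hθV⟩ with hv
  -- any `σ ∈ D'` moves `θ` to the conjugate of its coset
  have hσθ : ∀ (σ : Γ) (hσ : σ ∈ D'), σ • θ = (v (eq ((⟨σ, hσ⟩ : D') : D' ⧸ J)) : N) := by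
    intro σ hσ
    rw [hv]
    simp only [Equiv.symm_apply_apply]
    obtain ⟨k, hk⟩ := QuotientGroup.mk_out_eq_mul J (⟨σ, hσ⟩ : D')
    rw [hk]
    have hkI : ((k : D') : Γ) ∈ I' := Subgroup.mem_subgroupOf.mp k.2
    rw [Subgroup.coe_mul, mul_smul, hθI _ hkI]
  -- the conjugates are pairwise incongruent
  have hunit : ∀ i j : Fin n, i ≠ j → IsUnit (v j - v i) := by
    intro i j hij
    rw [← IsLocalRing.notMem_maximalIdeal, ← ValuationSubring.coe_mem_nonunits_iff]
    intro hmem
    apply hij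
    set si : D' := (eq.symm i).out with hsi
    set sj : D' := (eq.symm j).out with hsj
    have hmem' : (sj : Γ) • θ - (si : Γ) • θ ∈ V.nonunits := hmem
    have h1 : ((si : Γ)⁻¹ * (sj : Γ)) • θ - θ ∈ V.nonunits := by
      have := hDnu _ (inv_mem si.2) _ hmem'
      rwa [smul_sub, inv_smul_smul, ← mul_smul] at this
    have h2 : (si : Γ)⁻¹ * (sj : Γ) ∈ I' := hkey _ (mul_mem (inv_mem si.2) sj.2) h1
    have h3 : ((si : D') : D' ⧸ J) = ((sj : D') : D' ⧸ J) := by
      rw [QuotientGroup.eq, hJ, Subgroup.mem_subgroupOf]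
      exact h2
    rw [hsi, hsj, QuotientGroup.out_eq', QuotientGroup.out_eq'] at h3
    exact eq.symm.injective h3
  -- the Vandermonde matrix is invertible over `V`
  have hdet : IsUnit (Matrix.vandermonde v).det := by
    rw [Matrix.det_vandermonde]
    refine IsUnit.prod_univ_iff.mpr fun i => ?_
    rw [IsUnit.prod_iff]
    intro j hj
    exact hunit i j (ne_of_lt (Finset.mem_Ioi.mp hj))
  set F := (Matrix.vandermonde v)⁻¹ with hF
  have hVF : Matrix.vandermonde v * F = 1 := Matrix.mul_nonsing_inv _ hdet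
  set j₀ : Fin n := eq (((1 : D') : D' ⧸ J)) with hj₀
  have hsum : ∀ (σ : Γ) (hσ : σ ∈ D'),
      (∑ k : Fin n, ((F k j₀ : V) : N) * σ • (θ ^ (k : ℕ))) =
        (((1 : Matrix (Fin n) (Fin n) V) (eq ((⟨σ, hσ⟩ : D') : D' ⧸ J)) j₀ : V) : N) := by
    intro σ hσ
    rw [← hVF, Matrix.mul_apply]
    push_cast
    refine Finset.sum_congr rfl fun k _ => ?_
    rw [Matrix.vandermonde_apply, smul_pow', hσθ σ hσ, mul_comm]
    push_cast
    rfl
  refine ⟨n, fun k => θ ^ (k : ℕ), fun k => ((F k j₀ : V) : N), fun k => V.pow_mem hθV _,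
    fun k => (F k j₀).2, fun k ι hι => ?_, fun σ hσ hσI => ?_, fun σ hσ hσI => ?_⟩
  · rw [smul_pow', hθI ι hι]
  · rw [hsum σ hσ]
    have h1 : eq ((⟨σ, hσ⟩ : D') : D' ⧸ J) = j₀ := by
      rw [hj₀]
      congr 1
      rw [QuotientGroup.eq, hJ, Subgroup.mem_subgroupOf]
      simpa using inv_mem hσI
    rw [h1, Matrix.one_apply_eq]
    rfl
  · rw [hsum σ hσ]
    have h1 : eq ((⟨σ, hσ⟩ : D') : D' ⧸ J) ≠ j₀ := by
      rw [hj₀]
      intro h
      apply hσI
      have h2 := eq.injective h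
      rw [QuotientGroup.eq, hJ, Subgroup.mem_subgroupOf] at h2
      have h3 : σ⁻¹ ∈ I' := by simpa using h2
      simpa using inv_mem h3
    rw [Matrix.one_apply_ne h1]
    rfl

end system

section coset

variable {T : Type*} [CommRing T] {D : Type*} [Group D] [MulSemiringAction D T]
  {W : Type*} [AddCommGroup W] [Module T W]

/-- **Descent along a finite quotient `D / K`** with a Galois system `(e, e')`:
`∑ i, e' i * σ • e i = [σ ∈ K]` (`= 1` for `σ ∈ K`, `= 0` otherwise), `K` fixing the `e i`.  Every `w` in a `D`-stable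
`e`-stable additive subgroup `Λ` which is fixed by `K` is `∑ i, e' i • c i` with `c i ∈ Λ`
`D`-invariant (`c i = ∑_{q ∈ D/K} q • (e i • w)`). -/
theorem ffx_coset_descent (act : D →* AddMonoid.End W)
    (hsemi : ∀ (σ : D) (t : T) (w : W), act σ (t • w) = (σ • t) • act σ w)
    (K : Subgroup D) [Finite (D ⧸ K)] {ι : Type*} [Fintype ι] (e e' : ι → T)
    (heK : ∀ k ∈ K, ∀ i, k • e i = e i)
    (hee1 : ∀ σ ∈ K, ∑ i, e' i * σ • e i = 1) (hee0 : ∀ σ : D, σ ∉ K → ∑ i, e' i * σ • e i = 0)
    (Λ : AddSubgroup W) (hΛe : ∀ i, ∀ w ∈ Λ, e i • w ∈ Λ) (hΛD : ∀ σ : D, ∀ w ∈ Λ, act σ w ∈ Λ)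
    (w : W) (hw : w ∈ Λ) (hwK : ∀ k ∈ K, act k w = w) :
    ∃ c : ι → W, (∀ i, c i ∈ Λ) ∧ (∀ i (σ : D), act σ (c i) = c i) ∧ w = ∑ i, e' i • c i := by
  classical
  haveI : Fintype (D ⧸ K) := Fintype.ofFinite _
  -- `g ↦ g • (e i • w)` is right `K`-invariant
  have hK : ∀ (i : ι) (g : D) (k : K), act (g * k) (e i • w) = act g (e i • w) := by
    intro i g k
    have h0 : act (g * k) (e i • w) = act g (act (k : D) (e i • w)) := by
      rw [map_mul]; rfl
    rw [h0, hsemi (k : D), heK k k.2, hwK k k.2]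
  have hout : ∀ (i : ι) (g : D), act ((g : D ⧸ K).out) (e i • w) = act g (e i • w) := by
    intro i g
    obtain ⟨k, hk⟩ := QuotientGroup.mk_out_eq_mul K g
    rw [hk, hK]
  refine ⟨fun i => ∑ q : D ⧸ K, act q.out (e i • w), fun i => ?_, fun i σ => ?_, ?_⟩
  · exact Λ.sum_mem fun q _ => hΛD _ _ (hΛe i w hw)
  · rw [map_sum]
    have h1 : ∀ q : D ⧸ K, act σ (act q.out (e i • w)) = act ((σ • q).out) (e i • w) := by
      intro q
      have h0 : act σ (act q.out (e i • w)) = act (σ * q.out) (e i • w) := by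
        rw [map_mul]; rfl
      rw [h0, ← hout i (σ * q.out)]
      congr 3
      have h3 : ((σ * q.out : D) : D ⧸ K) = σ • ((q.out : D) : D ⧸ K) := rfl
      rw [h3, QuotientGroup.out_eq']
    simp_rw [h1]
    exact Fintype.sum_equiv (MulAction.toPerm σ) _ _ (fun q => rfl)
  · have h1 : ∀ i, e' i • ∑ q : D ⧸ K, act q.out (e i • w) =
        ∑ q : D ⧸ K, (e' i * q.out • e i) • act q.out w := by
      intro i
      rw [Finset.smul_sum]
      refine Finset.sum_congr rfl fun q _ => ?_
      rw [hsemi, mul_smul]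
    simp_rw [h1]
    rw [Finset.sum_comm]
    simp_rw [← Finset.sum_smul]
    rw [Finset.sum_eq_single ((1 : D) : D ⧸ K)]
    · have h2 : (((1 : D) : D ⧸ K).out) ∈ K := by
        obtain ⟨k, hk⟩ := QuotientGroup.mk_out_eq_mul K (1 : D)
        rw [hk, one_mul]
        exact k.2
      rw [hee1 _ h2, one_smul, hwK _ h2]
    · intro q _ hq
      have h2 : q.out ∉ K := by
        intro hmem
        apply hq
        have h3 : q = ((q.out : D) : D ⧸ K) := (QuotientGroup.out_eq' q).symm
        rw [h3, QuotientGroup.eq, mul_one]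
        exact inv_mem hmem
      rw [hee0 _ h2, zero_smul]
    · intro h
      exact absurd (Finset.mem_univ _) h

end coset

end Fermat.Agent.FF
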