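/-
Project FF (S19 + S32), leaf [DESC]: the finite-level interface of the descent.

`A` a valuation subring of `Q̄` over `ℓ`, `D`, `I` its decomposition and inertia groups, `N' ⊆ Q̄` a
finite Galois extension of `ℚ`, `r : G_ℚ → Gal(N'/ℚ)` the restriction.

* `ffx_exists_level`: a finite Galois `N'` trivialising a finite `G_ℚ`-module with open stabilisers
  and containing a given finite set.
* `ffx_K A N'`: the subgroup `{σ ∈ D | r σ ∈ r(I)}` of `D` (finite index);
  `ffx_mem_K_iff`: its elements are the products `ι * ρ`, `ι ∈ I`, `ρ ∈ Gal(Q̄/N')`.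
* `ffx_level_system`: the Galois system of `D / K` in `A ∩ N'` (from `ffx_galois_system` and
  S55's `pl_map_inertia`), given that the residue field of `A ∩ N'` is finite.
* `ffx_level_field_system`: the Galois system of `G_ℚ / Gal(Q̄/N')` in `N'`.
Owner: helper13.  Prefix `ffx_`.
-/
import Mathlib
import Fermat.Agent.FF.DescentHA
import Fermat.Agent.FF.DescentUnram
import Fermat.Agent.FF.DescentField
import Fermat.Agent.S55.Places.Galois

set_option autoImplicit false
set_option linter.style.haveILetI false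
set_option linter.unusedSectionVars false

noncomputable section

namespace Fermat.Agent.FF

open scoped Pointwise
open Fermat.Agent.S55 NumberField

/-- Instance-path repair: the default `Algebra ℚ (AlgebraicClosure ℚ)` is the division-ring one. -/
local instance ffx_qbarIsAlgebraic : Algebra.IsAlgebraic ℚ ff_Qb := AlgebraicClosure.isAlgebraic ℚ

local instance ffx_qbarIsAlgClosure : IsAlgClosure ℚ ff_Qb := ⟨inferInstance, inferInstance⟩

local instance ffx_qbarNormal : Normal ℚ ff_Qb := IsAlgClosure.normal ℚ ff_Qb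

section exists_level

/-- A finite Galois level trivialising `M` and containing a given finite set. -/
theorem ffx_exists_level (M : Type) [AddCommGroup M] [Finite M] [DistribMulAction ff_GQ M]
    (hopen : ∀ x : M, ∃ K : IntermediateField ℚ ff_Qb, FiniteDimensional ℚ K ∧
      ∀ σ ∈ K.fixingSubgroup, σ • x = x) (S : Set ff_Qb) (hS : S.Finite) :
    ∃ N' : IntermediateField ℚ ff_Qb, FiniteDimensional ℚ N' ∧ Normal ℚ N' ∧
      (∀ σ ∈ N'.fixingSubgroup, ∀ x : M, σ • x = x) ∧ S ⊆ N' := by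
  classical
  choose Kx hKfin hKfix using hopen
  haveI : ∀ x, FiniteDimensional ℚ (Kx x) := hKfin
  haveI : Finite ↑S := hS
  haveI hadj : FiniteDimensional ℚ (IntermediateField.adjoin ℚ S) :=
    IntermediateField.finiteDimensional_adjoin fun x _ =>
      (Algebra.IsAlgebraic.isAlgebraic (R := ℚ) x).isIntegral
  set K₀ : IntermediateField ℚ ff_Qb := (⨆ x : M, Kx x) ⊔ IntermediateField.adjoin ℚ S with hK₀
  haveI : FiniteDimensional ℚ K₀ := IntermediateField.finiteDimensional_sup _ _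
  refine ⟨IntermediateField.normalClosure ℚ K₀ ff_Qb,
    normalClosure.is_finiteDimensional ℚ K₀ ff_Qb, normalClosure.normal ℚ K₀ ff_Qb, ?_, ?_⟩
  · intro σ hσ x
    apply hKfix x σ
    refine IntermediateField.fixingSubgroup_le ?_ hσ
    exact le_trans (le_trans (le_iSup (fun x => Kx x) x) le_sup_left)
      (IntermediateField.le_normalClosure K₀)
  · intro s hs
    exact IntermediateField.le_normalClosure K₀
      ((le_sup_right : _ ≤ K₀) (IntermediateField.subset_adjoin ℚ S hs))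

end exists_level

section comap

variable {K L : Type*} [Field K] [Field L]

/-- nonunits of a comap valuation subring -/
theorem ffx_mem_comap_nonunits (A : ValuationSubring L) (f : K →+* L) (x : K) :
    x ∈ (A.comap f).nonunits ↔ f x ∈ A.nonunits := by
  rw [ValuationSubring.mem_nonunits_iff_or, ValuationSubring.mem_nonunits_iff_or,
    ValuationSubring.mem_comap, map_inv₀, map_eq_zero]

end comap

section K

variable (A : ValuationSubring ff_Qb) (N' : IntermediateField ℚ ff_Qb) [Normal ℚ N']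

/-- restriction to a normal subfield commutes with the coercion -/
theorem ffx_restrict_coe (σ : ff_GQ) (x : N') :
    ((AlgEquiv.restrictNormalHom N' σ x : N') : ff_Qb) = σ (x : ff_Qb) :=
  AlgEquiv.restrictNormal_commutes σ N' x

/-- the subgroup `{σ ∈ D | σ|N' ∈ image of I}` of the decomposition group -/
def ffx_K : Subgroup ↥(A.decompositionSubgroup ℚ) :=
  ((A.inertiaSubgroupIn ℚ).map (AlgEquiv.restrictNormalHom N')).comap
    ((AlgEquiv.restrictNormalHom N').comp (A.decompositionSubgroup ℚ).subtype)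

theorem ffx_mem_K_iff (σ : ↥(A.decompositionSubgroup ℚ)) :
    σ ∈ ffx_K A N' ↔ ∃ ι ∈ A.inertiaSubgroupIn ℚ, ∃ ρ ∈ N'.fixingSubgroup,
      (σ : ff_GQ) = ι * ρ := by
  rw [ffx_K, Subgroup.mem_comap, Subgroup.mem_map]
  constructor
  · rintro ⟨ι, hι, hιr⟩
    refine ⟨ι, hι, ι⁻¹ * (σ : ff_GQ), ?_, by group⟩
    rw [← Fermat.Agent.S14.Reduction.ker_restrictNormalHom N', MonoidHom.mem_ker, map_mul, map_inv, hιr]
    simp
  · rintro ⟨ι, hι, ρ, hρ, h⟩
    refine ⟨ι, hι, ?_⟩
    rw [← Fermat.Agent.S14.Reduction.ker_restrictNormalHom N', MonoidHom.mem_ker] at hρ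
    simp only [MonoidHom.coe_comp, Subgroup.coe_subtype, Function.comp_apply]
    rw [h, map_mul, hρ, mul_one]

instance ffx_K_finiteIndex [FiniteDimensional ℚ N'] : Finite (↥(A.decompositionSubgroup ℚ) ⧸ ffx_K A N') := by
  haveI : Finite (N' ≃ₐ[ℚ] N') := inferInstance
  haveI h1 : ((AlgEquiv.restrictNormalHom (F := ℚ) (K₁ := ff_Qb) N').comp
      (A.decompositionSubgroup ℚ).subtype).ker.FiniteIndex := Subgroup.finiteIndex_ker _
  haveI : (ffx_K A N').FiniteIndex :=
    Subgroup.finiteIndex_of_le (H := ((AlgEquiv.restrictNormalHom (F := ℚ) (K₁ := ff_Qb) N').comp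
      (A.decompositionSubgroup ℚ).subtype).ker) (MonoidHom.ker_le_comap _ _)
  exact Subgroup.finite_quotient_of_finiteIndex

instance ffx_fixing_finiteIndex [FiniteDimensional ℚ N'] : Finite (ff_GQ ⧸ N'.fixingSubgroup) := by
  haveI : Finite (N' ≃ₐ[ℚ] N') := inferInstance
  haveI h1 : (AlgEquiv.restrictNormalHom (F := ℚ) (K₁ := ff_Qb) N').ker.FiniteIndex :=
    Subgroup.finiteIndex_ker _
  rw [Fermat.Agent.S14.Reduction.ker_restrictNormalHom N'] at h1
  exact Subgroup.finite_quotient_of_finiteIndex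

/-- the Galois system of `G_ℚ / Gal(Q̄/N')` -/
theorem ffx_level_field_system [FiniteDimensional ℚ N'] :
    ∃ (n : ℕ) (e e' : Fin n → ff_Qb), (∀ i, e i ∈ N') ∧ (∀ i, e' i ∈ N') ∧
      (∀ σ ∈ N'.fixingSubgroup, ∑ i, e' i * σ (e i) = 1) ∧
      (∀ σ : ff_GQ, σ ∉ N'.fixingSubgroup → ∑ i, e' i * σ (e i) = 0) := by
  haveI : IsGalois ℚ N' := ⟨⟩
  obtain ⟨n, e, e', h1, h0⟩ := ffx_field_system ℚ N'
  refine ⟨n, fun i => (e i : ff_Qb), fun i => (e' i : ff_Qb), fun i => (e i).2,
    fun i => (e' i).2, ?_, ?_⟩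
  · intro σ hσ
    have hfix : ∀ i, σ (e i : ff_Qb) = (e i : ff_Qb) := fun i =>
      (IntermediateField.mem_fixingSubgroup_iff N' σ).mp hσ _ (e i).2
    simp_rw [hfix]
    have := congrArg (fun x : N' => (x : ff_Qb)) h1
    simpa using this
  · intro σ hσ
    have hr : AlgEquiv.restrictNormalHom N' σ ≠ 1 := by
      intro h
      apply hσ
      rw [← Fermat.Agent.S14.Reduction.ker_restrictNormalHom N']
      exact h
    have := congrArg (fun x : N' => (x : ff_Qb)) (h0 _ hr)
    simp only [AddSubmonoidClass.coe_finsetSum, MulMemClass.coe_mul, ffx_restrict_coe,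
      ZeroMemClass.coe_zero] at this
    exact this

/-- the inertia group lies in the decomposition group -/
theorem ffx_inertia_le : A.inertiaSubgroupIn ℚ ≤ A.decompositionSubgroup ℚ := by
  intro σ hσ
  exact ((tl_mem_inertiaSubgroupIn_iff A σ).mp hσ).1

/-- the Galois system of `D / K`, `K = ffx_K A N'`, in `A ∩ N'` -/
theorem ffx_level_system {ℓ : ℕ} [Fact ℓ.Prime] (hA : A.LiesOverPrime ℓ)
    [FiniteDimensional ℚ N']
    (hfin : Finite (IsLocalRing.ResidueField ↥(A.comap (algebraMap ↥N' ff_Qb)))) :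
    ∃ (n : ℕ) (e e' : Fin n → ff_Qb), (∀ i, e i ∈ A) ∧ (∀ i, e' i ∈ A) ∧ (∀ i, e i ∈ N') ∧
      (∀ i, e' i ∈ N') ∧ (∀ k ∈ ffx_K A N', ∀ i, (k : ff_GQ) (e i) = e i) ∧
      (∀ σ ∈ ffx_K A N', ∑ i, e' i * (σ : ff_GQ) (e i) = 1) ∧
      (∀ σ : ↥(A.decompositionSubgroup ℚ), σ ∉ ffx_K A N' →
        ∑ i, e' i * (σ : ff_GQ) (e i) = 0) := by
  have hℓ : ℓ.Prime := Fact.out
  haveI : IsGalois ℚ N' := ⟨⟩
  haveI : NumberField N' := ⟨⟩
  set r := AlgEquiv.restrictNormalHom (F := ℚ) (K₁ := ff_Qb) N' with hr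
  set V := A.comap (algebraMap ↥N' ff_Qb) with hV
  set D' := (A.decompositionSubgroup ℚ).map r with hD'
  set I' := (A.inertiaSubgroupIn ℚ).map r with hI'
  have hID : I' ≤ D' := Subgroup.map_mono (ffx_inertia_le A)
  have hDV : ∀ σ ∈ D', ∀ x ∈ V, σ • x ∈ V := by
    rintro _ ⟨σ, hσ, rfl⟩ x hx
    rw [hV, ValuationSubring.mem_comap] at hx ⊢
    have h1 : algebraMap ↥N' ff_Qb (r σ • x) = σ (x : ff_Qb) := ffx_restrict_coe N' σ x
    rw [h1]
    exact ffx_D_mem A hσ hx
  have hI : ∀ ι ∈ I', ∀ x ∈ V, ι • x - x ∈ V.nonunits := by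
    rintro _ ⟨ι, hι, rfl⟩ x hx
    rw [hV, ffx_mem_comap_nonunits, map_sub]
    rw [hV, ValuationSubring.mem_comap] at hx
    have h1 : algebraMap ↥N' ff_Qb (r ι • x) = ι (x : ff_Qb) := ffx_restrict_coe N' ι x
    rw [h1]
    exact ((tl_mem_inertiaSubgroupIn_iff A ι).mp hι).2 _ hx
  have hImem : ∀ σ ∈ D', (∀ x ∈ V, σ • x - x ∈ V.nonunits) → σ ∈ I' := by
    rintro _ ⟨σ, hσ, rfl⟩ htriv
    rw [hI', hr, pl_map_inertia N' A hℓ hA, AddSubgroup.mem_inertia]
    intro x
    have hxV : (x : N') ∈ V := by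
      rw [hV, ValuationSubring.mem_comap]
      refine ffx_isIntegral_mem A ?_
      have hx : IsIntegral ℤ (x : N') := NumberField.RingOfIntegers.isIntegral_coe x
      exact hx.map (IsScalarTower.toAlgHom ℤ N' ff_Qb)
    have h1 := htriv (x : N') hxV
    rw [hV, ffx_mem_comap_nonunits, ValuationSubring.mem_nonunits_iff] at h1
    exact h1
  haveI := hfin
  obtain ⟨n, e, e', heV, he'V, heI, h1, h0⟩ := ffx_galois_system V D' I' hID hDV hI hImem
  have hrK : ∀ σ : ↥(A.decompositionSubgroup ℚ), σ ∈ ffx_K A N' ↔ r (σ : ff_GQ) ∈ I' := fun σ =>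
    Iff.rfl
  have hrD : ∀ σ : ↥(A.decompositionSubgroup ℚ), r (σ : ff_GQ) ∈ D' := fun σ =>
    Subgroup.mem_map_of_mem _ σ.2
  refine ⟨n, fun i => (e i : ff_Qb), fun i => (e' i : ff_Qb), fun i => heV i, fun i => he'V i,
    fun i => (e i).2, fun i => (e' i).2, fun k hk i => ?_, fun σ hσ => ?_, fun σ hσ => ?_⟩
  · have h2 := heI i _ ((hrK k).mp hk)
    have h3 : ((r (k : ff_GQ) • e i : N') : ff_Qb) = (k : ff_GQ) (e i : ff_Qb) :=
      ffx_restrict_coe N' _ _
    rw [← h3, h2]
  · have h2 := congrArg (fun x : N' => (x : ff_Qb)) (h1 _ (hrD σ) ((hrK σ).mp hσ))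
    simp only [AddSubmonoidClass.coe_finsetSum, MulMemClass.coe_mul, OneMemClass.coe_one] at h2
    rw [← h2]
    refine Finset.sum_congr rfl fun i _ => ?_
    congr 1
    exact (ffx_restrict_coe N' _ _).symm
  · have h2 := congrArg (fun x : N' => (x : ff_Qb)) (h0 _ (hrD σ) (fun h => hσ ((hrK σ).mpr h)))
    simp only [AddSubmonoidClass.coe_finsetSum, MulMemClass.coe_mul, ZeroMemClass.coe_zero] at h2
    rw [← h2]
    refine Finset.sum_congr rfl fun i _ => ?_
    congr 1
    exact (ffx_restrict_coe N' _ _).symm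

end K

end Fermat.Agent.FF
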