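/-
Project FF (S19 + S32), leaf [DESC]: the KEY claim `H₁ ⊆ A · H` (`ffx_Key`), modulo the two
number-field inputs of leaf [DESC-NF] (finite residue fields, density of `ℚ` in the decomposition
field), taken here as hypotheses `ffx_ResFin`, `ffx_Dense`.

* `ffx_conjHom`      : the conjugation action as a monoid hom `G_ℚ →* AddMonoid.End (M → Q̄)`;
* `ffx_key_etale`    : STEP ET — an `I`-equivariant `N'`-valued `φ ∈ H_A` is `∑ e' i • c i` with
                       `e' i ∈ A`, `c i ∈ H_A` `N'`-valued and `D`-invariant;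
* `ffx_key_dense`    : STEP DN — a `D`-invariant `N'`-valued `c ∈ H_A` lies in `A · H`;
* `ffx_key_of`       : `ffx_Key` from `ffx_ResFin`, `ffx_Dense` and `I`-equivariance of `H₁`.
Owner: helper13.  Prefix `ffx_`.
-/
import Mathlib
import Fermat.Agent.FF.DescentLevel

set_option autoImplicit false
set_option linter.style.haveILetI false
set_option linter.unusedSectionVars false

noncomputable section

namespace Fermat.Agent.FF

open scoped Pointwise

/-- **[DESC-NF] (b)** as a hypothesis: residue fields at finite level are finite. -/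
def ffx_ResFin (A : ValuationSubring ff_Qb) : Prop :=
  ∀ (N' : IntermediateField ℚ ff_Qb) [FiniteDimensional ℚ N'] [Normal ℚ N'],
    Finite (IsLocalRing.ResidueField ↥(A.comap (algebraMap ↥N' ff_Qb)))

/-- **[DESC-NF] (a)** as a hypothesis: `ℚ` is `ℓ`-adically dense in the decomposition field. -/
def ffx_Dense (ℓ : ℕ) (A : ValuationSubring ff_Qb) : Prop :=
  ∀ (N' : IntermediateField ℚ ff_Qb) [FiniteDimensional ℚ N'] [Normal ℚ N'] (z : ff_Qb),
    z ∈ N' → (∀ σ ∈ A.decompositionSubgroup ℚ, σ z = z) → ∀ k : ℕ,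
      ∃ (q : ℚ) (u : ff_Qb), u ∈ A ∧ z - algebraMap ℚ ff_Qb q = (ℓ : ff_Qb) ^ k * u

section act

variable {M : Type} [AddCommGroup M] [DistribMulAction ff_GQ M]

/-- the conjugation action as a monoid hom -/
def ffx_conjHom : ff_GQ →* AddMonoid.End (M → ff_Qb) where
  toFun σ :=
    { toFun := ffx_conj σ
      map_zero' := ffx_conj_zero σ
      map_add' := ffx_conj_add σ }
  map_one' := by
    ext ψ x
    exact congrFun (ffx_conj_one ψ) x
  map_mul' σ τ := by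
    ext ψ x
    exact congrFun (ffx_conj_mul σ τ ψ) x

theorem ffx_conjHom_apply (σ : ff_GQ) (ψ : M → ff_Qb) : ffx_conjHom σ ψ = ffx_conj σ ψ := rfl

/-- elements of `Gal(Q̄/N')` fix `N'`-valued functions on a module they act trivially on -/
theorem ffx_conj_fixing (N' : IntermediateField ℚ ff_Qb)
    (htriv : ∀ σ ∈ N'.fixingSubgroup, ∀ x : M, σ • x = x) {ρ : ff_GQ}
    (hρ : ρ ∈ N'.fixingSubgroup) {ψ : M → ff_Qb} (hψ : ∀ x, ψ x ∈ N') : ffx_conj ρ ψ = ψ := by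
  funext x
  rw [ffx_conj_apply, htriv ρ⁻¹ (inv_mem hρ) x]
  exact (IntermediateField.mem_fixingSubgroup_iff N' ρ).mp hρ _ (hψ x)

/-- `G_ℚ` preserves a normal subfield -/
theorem ffx_map_mem_normal (N' : IntermediateField ℚ ff_Qb) [Normal ℚ N'] (σ : ff_GQ)
    {y : ff_Qb} (hy : y ∈ N') : σ y ∈ N' := by
  have := ffx_restrict_coe N' σ ⟨y, hy⟩
  rw [← this]
  exact (AlgEquiv.restrictNormalHom N' σ ⟨y, hy⟩).2

theorem ffx_conj_mem_normal (N' : IntermediateField ℚ ff_Qb) [Normal ℚ N'] (σ : ff_GQ)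
    {ψ : M → ff_Qb} (hψ : ∀ x, ψ x ∈ N') (x : M) : ffx_conj σ ψ x ∈ N' :=
  ffx_map_mem_normal N' σ (hψ _)

end act

section avg

variable {T : Type*} [Field T] [CharZero T] {D : Type*} [Group D] [MulSemiringAction D T]

/-- the average of the conjugates of `y` over `D / K` -/
def ffx_avg (K : Subgroup D) [Fintype (D ⧸ K)] (y : T) : T :=
  ((Fintype.card (D ⧸ K) : ℕ) : T)⁻¹ * ∑ q : D ⧸ K, (q.out : D) • y

theorem ffx_avg_invariant (K : Subgroup D) [Fintype (D ⧸ K)] (y : T)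
    (hy : ∀ k ∈ K, k • y = y) (σ : D) : σ • ffx_avg K y = ffx_avg K y := by
  have hout : ∀ g : D, ((g : D ⧸ K).out) • y = g • y := by
    intro g
    obtain ⟨k, hk⟩ := QuotientGroup.mk_out_eq_mul K g
    rw [hk, mul_smul, hy k k.2]
  have hn : σ • ((Fintype.card (D ⧸ K) : ℕ) : T) = ((Fintype.card (D ⧸ K) : ℕ) : T) :=
    map_natCast (MulSemiringAction.toRingHom D T σ) _
  unfold ffx_avg
  rw [smul_mul', smul_inv'', hn, Finset.smul_sum]
  congr 1
  have h1 : ∀ q : D ⧸ K, σ • (q.out : D) • y = ((σ • q).out : D) • y := by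
    intro q
    rw [← mul_smul, ← hout (σ * q.out)]
    congr 2
    have h3 : ((σ * q.out : D) : D ⧸ K) = σ • ((q.out : D) : D ⧸ K) := rfl
    rw [h3, QuotientGroup.out_eq']
  simp_rw [h1]
  exact Fintype.sum_equiv (MulAction.toPerm σ) _ _ (fun q => rfl)

end avg

section key

variable {ℓ : ℕ} [Fact ℓ.Prime] {A : ValuationSubring ff_Qb}
  {M : Type} [AddCommGroup M] [DistribMulAction ff_GQ M] {H₁ : Subring (M → ff_Qb)}

/-- **STEP ET (étale descent along `D / K`).** -/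
theorem ffx_key_etale (hA : A.LiesOverPrime ℓ) (N' : IntermediateField ℚ ff_Qb)
    [FiniteDimensional ℚ N'] [Normal ℚ N']
    (hfin : Finite (IsLocalRing.ResidueField ↥(A.comap (algebraMap ↥N' ff_Qb))))
    (htriv : ∀ σ ∈ N'.fixingSubgroup, ∀ x : M, σ • x = x)
    {φ : M → ff_Qb} (hφ : φ ∈ ffx_HA A M H₁) (hφN : ∀ x, φ x ∈ N')
    (hφI : ∀ ι ∈ A.inertiaSubgroupIn ℚ, ffx_conj ι φ = φ) :
    ∃ (n : ℕ) (e' : Fin n → ff_Qb) (c : Fin n → M → ff_Qb), (∀ i, e' i ∈ A) ∧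
      (∀ i, c i ∈ ffx_HA A M H₁) ∧ (∀ i x, c i x ∈ N') ∧
      (∀ i, ∀ σ ∈ A.decompositionSubgroup ℚ, ffx_conj σ (c i) = c i) ∧
      φ = ∑ i, e' i • c i := by
  obtain ⟨n, e, e', heA, he'A, heN, he'N, heK, h1, h0⟩ := ffx_level_system A N' hA hfin
  -- the lattice
  let Λ : AddSubgroup (M → ff_Qb) :=
    { carrier := {ψ | ψ ∈ ffx_HA A M H₁ ∧ ∀ x, ψ x ∈ N'}
      add_mem' := fun ha hb => ⟨add_mem ha.1 hb.1, fun x => add_mem (ha.2 x) (hb.2 x)⟩
      zero_mem' := ⟨zero_mem _, fun x => zero_mem _⟩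
      neg_mem' := fun ha => ⟨neg_mem ha.1, fun x => neg_mem (ha.2 x)⟩ }
  let act : ↥(A.decompositionSubgroup ℚ) →* AddMonoid.End (M → ff_Qb) :=
    ffx_conjHom.comp (A.decompositionSubgroup ℚ).subtype
  obtain ⟨c, hcΛ, hcinv, hdecomp⟩ := ffx_coset_descent (T := ff_Qb) act
    (fun σ t w => ffx_conj_smul (σ : ff_GQ) t w) (ffx_K A N') e e'
    (fun k hk i => heK k hk i) (fun σ hσ => h1 σ hσ) (fun σ hσ => h0 σ hσ) Λ
    (fun i w hw => ⟨ffx_smul_mem_HA (heA i) hw.1, fun x => mul_mem (heN i) (hw.2 x)⟩)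
    (fun σ w hw => ⟨ffx_HA_conj σ.2 hw.1, fun x => ffx_conj_mem_normal N' _ hw.2 x⟩)
    φ ⟨hφ, hφN⟩ (by
      intro k hk
      obtain ⟨ι, hι, ρ, hρ, hkeq⟩ := (ffx_mem_K_iff A N' k).mp hk
      show ffx_conj (k : ff_GQ) φ = φ
      rw [hkeq, ffx_conj_mul, ffx_conj_fixing N' htriv hρ hφN, hφI ι hι])
  exact ⟨n, e', c, he'A, fun i => (hcΛ i).1, fun i => (hcΛ i).2,
    fun i σ hσ => hcinv i ⟨σ, hσ⟩, hdecomp⟩

/-- **STEP DN (density descent along the decomposition field).** -/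
theorem ffx_key_dense (hA : A.LiesOverPrime ℓ) (N' : IntermediateField ℚ ff_Qb)
    [FiniteDimensional ℚ N'] [Normal ℚ N']
    (hdense : ∀ z : ff_Qb, z ∈ N' → (∀ σ ∈ A.decompositionSubgroup ℚ, σ z = z) → ∀ k : ℕ,
      ∃ (q : ℚ) (u : ff_Qb), u ∈ A ∧ z - algebraMap ℚ ff_Qb q = (ℓ : ff_Qb) ^ k * u)
    (hopenHA : ∀ f : M → ff_Qb, ∃ k : ℕ, ((ℓ : ff_Qb) ^ k) • f ∈ ffx_HA A M H₁)
    (htriv : ∀ σ ∈ N'.fixingSubgroup, ∀ x : M, σ • x = x)
    {c : M → ff_Qb} (hc : c ∈ ffx_HA A M H₁) (hcN : ∀ x, c x ∈ N')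
    (hcD : ∀ σ ∈ A.decompositionSubgroup ℚ, ffx_conj σ c = c) :
    c ∈ Submodule.span A
      ((ffx_H ℓ A hA M H₁ : Subalgebra (ff_R ℓ) (M → ff_Qb)) : Set (M → ff_Qb)) := by
  classical
  obtain ⟨n, e, e', heN, he'N, h1, h0⟩ := ffx_level_field_system N'
  -- Galois descent of the vector `c` along `G_ℚ / Gal(Q̄/N')`
  let Λ : AddSubgroup (M → ff_Qb) :=
    { carrier := {ψ | ∀ x, ψ x ∈ N'}
      add_mem' := fun ha hb x => add_mem (ha x) (hb x)
      zero_mem' := fun x => zero_mem _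
      neg_mem' := fun ha x => neg_mem (ha x) }
  obtain ⟨t, htΛ, htinv, hdecomp⟩ := ffx_coset_descent (T := ff_Qb) (D := ff_GQ)
    (ffx_conjHom (M := M)) (fun σ t w => ffx_conj_smul σ t w) N'.fixingSubgroup e e'
    (fun k hk i => (IntermediateField.mem_fixingSubgroup_iff N' k).mp hk _ (heN i))
    (fun σ hσ => h1 σ hσ) (fun σ hσ => h0 σ hσ) Λ
    (fun i w hw x => mul_mem (heN i) (hw x))
    (fun σ w hw x => ffx_conj_mem_normal N' σ hw x) c hcN
    (fun k hk => ffx_conj_fixing N' htriv hk hcN)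
  have htinv' : ∀ i (σ : ff_GQ), ffx_conj σ (t i) = t i := htinv
  -- averaging the coefficients over `D / (D ∩ Gal(Q̄/N'))`
  haveI : (N'.fixingSubgroup).FiniteIndex := Subgroup.finiteIndex_of_finite_quotient
  set K₂ : Subgroup ↥(A.decompositionSubgroup ℚ) :=
    (N'.fixingSubgroup).subgroupOf (A.decompositionSubgroup ℚ) with hK₂
  haveI : Finite (↥(A.decompositionSubgroup ℚ) ⧸ K₂) := Subgroup.finite_quotient_of_finiteIndex
  haveI : Fintype (↥(A.decompositionSubgroup ℚ) ⧸ K₂) := Fintype.ofFinite _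
  set m : ℕ := Fintype.card (↥(A.decompositionSubgroup ℚ) ⧸ K₂) with hm
  have hm0 : (m : ff_Qb) ≠ 0 := Nat.cast_ne_zero.mpr Fintype.card_ne_zero
  set z : Fin n → ff_Qb := fun i => ffx_avg K₂ (e' i) with hz
  have hzinv : ∀ i (σ : ff_GQ), σ ∈ A.decompositionSubgroup ℚ → σ (z i) = z i := by
    intro i σ hσ
    exact ffx_avg_invariant K₂ (e' i) (fun k hk =>
      (IntermediateField.mem_fixingSubgroup_iff N' (k : ff_GQ)).mp
        (Subgroup.mem_subgroupOf.mp hk) _ (he'N i)) ⟨σ, hσ⟩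
  have hzN : ∀ i, z i ∈ N' := by
    intro i
    rw [hz]
    unfold ffx_avg
    refine mul_mem (inv_mem (natCast_mem N' _)) (sum_mem fun q _ => ?_)
    exact ffx_map_mem_normal N' _ (he'N i)
  have hcσ : ∀ σ ∈ A.decompositionSubgroup ℚ, ∀ x, c x = ∑ i, σ (e' i) * t i x := by
    intro σ hσ x
    have h2 := congrFun (hcD σ hσ) x
    rw [← h2]
    conv_lhs => rw [hdecomp]
    rw [ffx_conj_sum, Finset.sum_apply]
    refine Finset.sum_congr rfl fun i _ => ?_
    rw [ffx_conj_smul, htinv' i σ]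
    rfl
  have hcz : c = ∑ i, z i • t i := by
    funext x
    rw [Finset.sum_apply]
    have h3 : (m : ff_Qb) * c x =
        ∑ i, (∑ q : ↥(A.decompositionSubgroup ℚ) ⧸ K₂, ((q.out : ↥(A.decompositionSubgroup ℚ)) :
          ff_GQ) (e' i)) * t i x := by
      have h4 : (m : ff_Qb) * c x =
          ∑ q : ↥(A.decompositionSubgroup ℚ) ⧸ K₂, c x := by
        rw [Finset.sum_const, Finset.card_univ, nsmul_eq_mul]
      rw [h4]
      have h5 : ∀ q : ↥(A.decompositionSubgroup ℚ) ⧸ K₂, c x =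
          ∑ i, ((q.out : ↥(A.decompositionSubgroup ℚ)) : ff_GQ) (e' i) * t i x := fun q =>
        hcσ _ (q.out : ↥(A.decompositionSubgroup ℚ)).2 x
      rw [Finset.sum_congr rfl fun q _ => h5 q, Finset.sum_comm]
      refine Finset.sum_congr rfl fun i _ => ?_
      rw [Finset.sum_mul]
    have h6 : ∀ i, (z i • t i) x = (m : ff_Qb)⁻¹ *
        ((∑ q : ↥(A.decompositionSubgroup ℚ) ⧸ K₂, ((q.out : ↥(A.decompositionSubgroup ℚ)) :
          ff_GQ) (e' i)) * t i x) := by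
      intro i
      rw [Pi.smul_apply, smul_eq_mul, hz]
      unfold ffx_avg
      rw [mul_assoc]
      rfl
    rw [Finset.sum_congr rfl fun i _ => h6 i, ← Finset.mul_sum, ← h3, ← mul_assoc,
      inv_mul_cancel₀ hm0, one_mul]
  -- exponents
  choose kk hkk using fun i => hopenHA (t i)
  set k : ℕ := Finset.univ.sup kk with hk
  have hℓA : (ℓ : ff_Qb) ∈ A := by exact_mod_cast ffx_intCast_mem A (ℓ : ℤ)
  have htk : ∀ i, ((ℓ : ff_Qb) ^ k) • t i ∈ ffx_HA A M H₁ := by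
    intro i
    have hle : kk i ≤ k := Finset.le_sup (Finset.mem_univ i)
    have h7 : ((ℓ : ff_Qb) ^ k) • t i = ((ℓ : ff_Qb) ^ (k - kk i)) • (((ℓ : ff_Qb) ^ kk i) • t i) := by
      rw [smul_smul, ← pow_add, Nat.sub_add_cancel hle]
    rw [h7]
    exact ffx_smul_mem_HA (A.pow_mem hℓA _) (hkk i)
  have htkH : ∀ i, ((ℓ : ff_Qb) ^ k) • t i ∈ ffx_H ℓ A hA M H₁ := by
    intro i
    refine ⟨htk i, (ffx_equivariant_iff _).mpr fun σ => ?_⟩
    rw [ffx_conj_smul, map_pow, map_natCast, htinv' i σ]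
  -- density
  choose q u huA hqu using fun i => hdense (z i) (hzN i) (fun σ hσ => hzinv i σ hσ) k
  set c₀ : M → ff_Qb := ∑ i, (algebraMap ℚ ff_Qb (q i)) • t i with hc₀
  have hsplit : c = c₀ + ∑ i, u i • (((ℓ : ff_Qb) ^ k) • t i) := by
    rw [hcz, hc₀, ← Finset.sum_add_distrib]
    refine Finset.sum_congr rfl fun i _ => ?_
    have h8 : z i = algebraMap ℚ ff_Qb (q i) + (ℓ : ff_Qb) ^ k * u i := by
      rw [← hqu i]; ring
    rw [h8, add_smul, smul_smul, mul_comm]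
  have hc₀HA : c₀ ∈ ffx_HA A M H₁ := by
    have h9 : c₀ = c - ∑ i, u i • (((ℓ : ff_Qb) ^ k) • t i) := by
      rw [hsplit]; abel
    rw [h9]
    exact sub_mem hc (sum_mem fun i _ => ffx_smul_mem_HA (huA i) (htk i))
  have hc₀H : c₀ ∈ ffx_H ℓ A hA M H₁ := by
    refine ⟨hc₀HA, (ffx_equivariant_iff _).mpr fun σ => ?_⟩
    rw [hc₀, ffx_conj_sum]
    refine Finset.sum_congr rfl fun i _ => ?_
    rw [ffx_conj_smul, AlgEquiv.commutes, htinv' i σ]
  rw [hsplit]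
  refine add_mem (Submodule.subset_span hc₀H) (sum_mem fun i _ => ?_)
  have h10 : u i • (((ℓ : ff_Qb) ^ k) • t i) = (⟨u i, huA i⟩ : A) • (((ℓ : ff_Qb) ^ k) • t i) := rfl
  rw [h10]
  exact Submodule.smul_mem _ _ (Submodule.subset_span (htkH i))

/-- a function equivariant under `Gal(Q̄/L₁)` is fixed by the conjugation of every element of
`Gal(Q̄/L₁)` -/
theorem ffx_conj_of_equivariant {φ : M → ff_Qb} {ι : ff_GQ}
    (h : ∀ x : M, φ (ι • x) = ι (φ x)) : ffx_conj ι φ = φ := by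
  funext x
  rw [ffx_conj_apply, ← h, smul_inv_smul]

/-- **The KEY claim `H₁ ⊆ A · H`**, from the two number-field inputs and `I`-equivariance. -/
theorem ffx_key_of (hA : A.LiesOverPrime ℓ) [Finite M]
    (hopen : ∀ x : M, ∃ K : IntermediateField ℚ ff_Qb, FiniteDimensional ℚ K ∧
      ∀ σ ∈ K.fixingSubgroup, σ • x = x)
    (hH₁ : ff_IsLocalOrder ℓ A M H₁) (hres : ffx_ResFin A) (hdense : ffx_Dense ℓ A)
    (hunr : ∀ φ ∈ H₁, ∀ ι ∈ A.inertiaSubgroupIn ℚ, ffx_conj ι φ = φ) :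
    ffx_Key ℓ A hA M H₁ := by
  intro φ hφ
  obtain ⟨N', hN'fin, hN'norm, htriv, hvals⟩ :=
    ffx_exists_level M hopen (Set.range φ) (Set.finite_range φ)
  haveI := hN'fin
  haveI := hN'norm
  have hφN : ∀ x, φ x ∈ N' := fun x => hvals ⟨x, rfl⟩
  obtain ⟨n, e', c, he'A, hcHA, hcN, hcD, hsum⟩ :=
    ffx_key_etale hA N' (hres N') htriv (ffx_H₁_le_HA hφ) hφN (hunr φ hφ)
  rw [hsum]
  refine sum_mem fun i _ => ?_
  have h1 := ffx_key_dense hA N' (hdense N') (ffx_HA_open hA hH₁.int hH₁.sep) htriv (hcHA i)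
    (hcN i) (hcD i)
  have h2 : e' i • c i = (⟨e' i, he'A i⟩ : A) • c i := rfl
  rw [h2]
  exact Submodule.smul_mem _ _ h1

end key

end Fermat.Agent.FF
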