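/-
Project FF (S19 + S32), leaf [DESC-NF] of the descent `ff_SeamDESC` (helper13's architecture #1830):
the number-field bridging.  Prefix `ffx_nf_`.  Owner: helper18.

`A` a valuation subring of `Q̄` over `ℓ`, `N' ⊆ Q̄` a number field.

* `ffx_nf_dense` (a): if `N'/ℚ` is Galois and `z ∈ N'` is fixed by the decomposition group of `A`,
  then for every `k` there is `q ∈ ℚ` with `z - q ∈ ℓ^k A`  (density of `ℚ` in the decomposition
  field, `e = f = 1`).  Proof without the decomposition field: with `P = 𝔪_A ∩ 𝓞 N'`, `D'` its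
  stabiliser, `s z = a ∈ 𝓞 N'`, pick `c ≡ 1 mod P^n`, `c ≡ 0 mod (σ⁻¹P)^n` (`σ ∉ D'`); then
  `|D'| a - s Tr(c z) = Σ_{σ ∈ D'} (1 - σ c) a - Σ_{σ ∉ D'} σ(c a) ∈ P^n`, so `q := Tr(c z)/|D'|`
  works as soon as `ℓ^k s |D'| ∉ P^n` (`ffx_nf_dense_core`, for any Galois number field and prime).
* `ffx_nf_finite_residue` (b): the residue field of `A ∩ N'` is finite (`𝓞 N' → κ(A ∩ N')` is onto,
  `ffx_nf_residue_surjective`); `ffx_nf_mem_maximalIdeal`: the maximal ideal of `A ∩ N'`.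
-/
import Mathlib
import Fermat.Agent.FF.Seams
import Fermat.Agent.S55.Places.Galois

set_option autoImplicit false
set_option linter.unusedSectionVars false
set_option linter.style.haveILetI false

namespace Fermat.Agent.FF

open Fermat.Agent.S54 Fermat.Agent.S14.Reduction Fermat.Agent.S55 NumberField IsDedekindDomain
open scoped Pointwise

section crt

variable {R : Type*} [CommRing R] {G : Type*} [Group G] [MulSemiringAction G R]

theorem ffx_nf_smul_pow (σ : G) (I : Ideal R) (K : ℕ) : σ • I ^ K = (σ • I) ^ K := by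
  rw [Ideal.pointwise_smul_def, Ideal.pointwise_smul_def, Ideal.map_pow]

theorem ffx_nf_sup_eq_top (P Q : Ideal R) [hP : P.IsMaximal] (h : ¬ Q ≤ P) : P ⊔ Q = ⊤ := by
  by_contra hne
  have h1 : P = P ⊔ Q := hP.eq_of_le hne le_sup_left
  exact h (h1 ▸ le_sup_right)

theorem ffx_nf_not_le (P : Ideal R) [hP : P.IsMaximal] (σ : G) (hσ : σ • P ≠ P) :
    ¬ σ⁻¹ • P ≤ P := by
  intro h2
  have h3 : P ≤ σ • P := by
    rwa [Ideal.pointwise_smul_subset_iff, inv_inv] at h2
  have h4 : (σ • P) ≠ ⊤ := (Ideal.IsPrime.smul (H := hP.isPrime) σ).ne_top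
  exact hσ (hP.eq_of_le h4 h3).symm

theorem ffx_nf_exists_crt [Fintype G] (P : Ideal R) [hP : P.IsMaximal] (K : ℕ) :
    ∃ c : R, (∀ σ : G, σ • P = P → σ • c - 1 ∈ P ^ K) ∧ (∀ σ : G, σ • P ≠ P → σ • c ∈ P ^ K) := by
  classical
  have hcop : P ^ K ⊔ ∏ σ ∈ Finset.univ.filter (fun σ : G => σ • P ≠ P), (σ⁻¹ • P) ^ K = ⊤ := by
    apply Ideal.sup_prod_eq_top
    intro σ hσ
    have hσ' : σ • P ≠ P := (Finset.mem_filter.1 hσ).2
    exact Ideal.pow_sup_pow_eq_top (ffx_nf_sup_eq_top P _ (ffx_nf_not_le P σ hσ'))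
  have h1 : (1 : R) ∈ P ^ K ⊔ ∏ σ ∈ Finset.univ.filter (fun σ : G => σ • P ≠ P), (σ⁻¹ • P) ^ K := by
    rw [hcop]; trivial
  obtain ⟨p, hp, c, hc, hpc⟩ := Submodule.mem_sup.1 h1
  refine ⟨c, fun σ hσ => ?_, fun σ hσ => ?_⟩
  · have h2 : σ • c - 1 = -(σ • p) := by
      have : σ • (p + c) = 1 := by rw [hpc, smul_one]
      rw [smul_add] at this
      rw [← this]; ring
    rw [h2]
    apply neg_mem
    have h3 : σ • p ∈ σ • P ^ K := Ideal.smul_mem_pointwise_smul σ p _ hp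
    rwa [ffx_nf_smul_pow, hσ] at h3
  · have hσT : σ ∈ Finset.univ.filter (fun σ : G => σ • P ≠ P) :=
      Finset.mem_filter.2 ⟨Finset.mem_univ _, hσ⟩
    have h2 : c ∈ (σ⁻¹ • P) ^ K :=
      (Ideal.prod_le_inf.trans (Finset.inf_le hσT)) hc
    have h3 : σ • c ∈ σ • (σ⁻¹ • P) ^ K := Ideal.smul_mem_pointwise_smul σ c _ h2
    rwa [ffx_nf_smul_pow, smul_inv_smul] at h3

end crt

section core

variable (K : Type*) [Field K] [NumberField K] [IsGalois ℚ K]

theorem ffx_nf_dense_core (v : HeightOneSpectrum (𝓞 K)) (z : K)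
    (hfix : ∀ g : K ≃ₐ[ℚ] K, g • v.asIdeal = v.asIdeal → g z = z) (t0 : ℤ) (ht0 : t0 ≠ 0) :
    ∃ q : ℚ, v.valuation K ((z - algebraMap ℚ K q) / (t0 : K)) ≤ 1 := by
  classical
  have : v.asIdeal.IsMaximal := v.isMaximal
  -- denominators
  obtain ⟨s, hs0, hsint⟩ : ∃ s : ℤ, s ≠ 0 ∧ IsIntegral ℤ (s • z) := by
    have hz : IsAlgebraic ℤ z :=
      (IsFractionRing.isAlgebraic_iff ℤ ℚ K).2 (Algebra.IsAlgebraic.isAlgebraic z)
    exact hz.exists_integral_multiple
  set a : 𝓞 K := ⟨s • z, hsint⟩ with ha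
  have haK : (a : K) = (s : K) * z := by
    rw [ha]; simp [zsmul_eq_mul]
  have hsmulK : ∀ (g : K ≃ₐ[ℚ] K) (y : 𝓞 K), ((g • y : 𝓞 K) : K) = g (y : K) := by
    intro g y
    rfl
  have hafix : ∀ g : K ≃ₐ[ℚ] K, g • v.asIdeal = v.asIdeal → g • a = a := by
    intro g hg
    apply RingOfIntegers.ext
    rw [hsmulK, haK, map_mul, hfix g hg, map_intCast]
  -- the stabiliser
  set D : Finset (K ≃ₐ[ℚ] K) := Finset.univ.filter (fun g => g • v.asIdeal = v.asIdeal) with hD
  have hDpos : 0 < D.card := Finset.card_pos.2 ⟨1, Finset.mem_filter.2 ⟨Finset.mem_univ _, one_smul _ _⟩⟩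
  set t : ℤ := s * D.card * t0 with ht
  have ht0' : t ≠ 0 := by
    rw [ht]
    have : (D.card : ℤ) ≠ 0 := by exact_mod_cast hDpos.ne'
    exact mul_ne_zero (mul_ne_zero hs0 this) ht0
  have htO : (t : 𝓞 K) ≠ 0 := by exact_mod_cast ht0'
  obtain ⟨n, hn⟩ : ∃ n : ℕ, (t : 𝓞 K) ∉ v.asIdeal ^ n := by
    by_contra hcon
    push Not at hcon
    have h1 : (t : 𝓞 K) ∈ ⨅ i : ℕ, v.asIdeal ^ i := by
      rw [Ideal.mem_iInf]; exact hcon
    rw [Ideal.iInf_pow_eq_bot_of_isDomain _ v.isPrime.ne_top, Ideal.mem_bot] at h1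
    exact htO h1
  obtain ⟨c, hc1, hc2⟩ := ffx_nf_exists_crt (G := K ≃ₐ[ℚ] K) v.asIdeal n
  set S : 𝓞 K := ∑ g : K ≃ₐ[ℚ] K, g • (c * a) with hS
  set x : 𝓞 K := D.card • a - S with hx
  have hxmem : x ∈ v.asIdeal ^ n := by
    have h1 : x = ∑ g : K ≃ₐ[ℚ] K, ((if g • v.asIdeal = v.asIdeal then a else 0) - g • (c * a)) := by
      rw [Finset.sum_sub_distrib, ← Finset.sum_filter, Finset.sum_const, hx, hS]
    rw [h1]
    refine Ideal.sum_mem _ fun g _ => ?_
    by_cases hg : g • v.asIdeal = v.asIdeal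
    · rw [if_pos hg, smul_mul', hafix g hg]
      have : a - g • c * a = -((g • c - 1) * a) := by ring
      rw [this]
      exact neg_mem (Ideal.mul_mem_right _ _ (hc1 g hg))
    · rw [if_neg hg, zero_sub, smul_mul']
      exact neg_mem (Ideal.mul_mem_right _ _ (hc2 g hg))
  -- the rational approximation
  refine ⟨Algebra.trace ℚ K ((c : K) * z) / (D.card : ℚ), ?_⟩
  have hSK : (S : K) = (s : K) * algebraMap ℚ K (Algebra.trace ℚ K ((c : K) * z)) := by
    rw [trace_eq_sum_automorphisms, hS, show ∀ y : 𝓞 K, (y : K) = algebraMap (𝓞 K) K y from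
      fun _ => rfl, map_sum, Finset.mul_sum]
    refine Finset.sum_congr rfl fun g _ => ?_
    have h1 : algebraMap (𝓞 K) K (g • (c * a)) = g ((c : K) * (a : K)) := by
      rw [← map_mul]; exact hsmulK g (c * a)
    rw [h1, haK, map_mul, map_mul, map_mul, map_intCast]
    ring
  have hdK : (D.card : K) ≠ 0 := by exact_mod_cast hDpos.ne'
  have hsK : (s : K) ≠ 0 := by exact_mod_cast hs0
  have ht0K : (t0 : K) ≠ 0 := by exact_mod_cast ht0
  have hxK : (x : K) = (s : K) * (D.card : K) *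
      (z - algebraMap ℚ K (Algebra.trace ℚ K ((c : K) * z) / (D.card : ℚ))) := by
    have h1 : (x : K) = (D.card : K) * (a : K) - (S : K) := by
      rw [hx]
      show algebraMap (𝓞 K) K _ = _
      rw [map_sub, nsmul_eq_mul, map_mul, map_natCast]
    rw [h1, hSK, map_div₀, map_natCast, haK]
    field_simp
  have hquot : (z - algebraMap ℚ K (Algebra.trace ℚ K ((c : K) * z) / (D.card : ℚ))) / (t0 : K)
      = (x : K) / ((t : 𝓞 K) : K) := by
    have h1 : ((t : 𝓞 K) : K) = (s : K) * (D.card : K) * (t0 : K) := by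
      show algebraMap (𝓞 K) K _ = _
      rw [map_intCast, ht]
      push_cast
      rfl
    rw [hxK, h1]
    field_simp
  rw [hquot, map_div₀, HeightOneSpectrum.valuation_of_algebraMap,
    HeightOneSpectrum.valuation_of_algebraMap]
  have h1 : v.intValuation x ≤ WithZero.exp (-(n : ℤ)) :=
    (v.intValuation_le_pow_iff_mem x n).2 hxmem
  have h2 : WithZero.exp (-(n : ℤ)) < v.intValuation (t : 𝓞 K) := by
    rw [← not_le, v.intValuation_le_pow_iff_mem]
    exact hn
  have h3 : v.intValuation (t : 𝓞 K) ≠ 0 := by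
    intro h; rw [h] at h2; exact not_lt.2 zero_le h2
  exact (div_le_one₀ (zero_lt_iff.2 h3)).2 (h1.trans h2.le)

end core

section nf

/-- a finite subextension of `Q̄` is a number field -/
theorem ffx_nf_numberField (N' : IntermediateField ℚ ff_Qb) [FiniteDimensional ℚ N'] :
    NumberField N' := ⟨⟩

attribute [local instance] ffx_nf_numberField

variable (ℓ : ℕ) [hℓ : Fact ℓ.Prime] (A : ValuationSubring ff_Qb) (hA : A.LiesOverPrime ℓ)
  (N' : IntermediateField ℚ ff_Qb) [FiniteDimensional ℚ N']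

include hA in
/-- elements of `N'` fixed by the decomposition group of `A` are fixed by the stabiliser of the
prime of `𝓞 N'` below `A`. -/
theorem ffx_nf_fixed [IsGalois ℚ N'] (z : N')
    (hfix : ∀ σ ∈ A.decompositionSubgroup ℚ, σ (z : ff_Qb) = z) (g : N' ≃ₐ[ℚ] N')
    (hg : g • pl_ideal N' A = pl_ideal N' A) : g z = z := by
  have h1 : g ∈ MulAction.stabilizer (N' ≃ₐ[ℚ] N') (pl_ideal N' A) := hg
  rw [← pl_map_decomposition N' A hℓ.out hA] at h1
  obtain ⟨σ, hσ, rfl⟩ := h1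
  apply Subtype.ext
  rw [coe_restrictNormalHom]
  exact hfix σ hσ

include hA in
/-- **[DESC-NF] (a): density of `ℚ` in the decomposition field.**  An element of the finite Galois
extension `N'` fixed by the decomposition group of `A` is `ℓ`-adically (at `A`) arbitrarily close
to a rational number. -/
theorem ffx_nf_dense [IsGalois ℚ N'] (z : ff_Qb) (hz : z ∈ N')
    (hfix : ∀ σ ∈ A.decompositionSubgroup ℚ, σ z = z) (k : ℕ) :
    ∃ (q : ℚ) (u : ff_Qb), u ∈ A ∧ z - algebraMap ℚ ff_Qb q = (ℓ : ff_Qb) ^ k * u := by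
  have hℓ0 : ((ℓ : ℤ) ^ k) ≠ 0 := pow_ne_zero _ (by exact_mod_cast hℓ.out.ne_zero)
  obtain ⟨q, hq⟩ := ffx_nf_dense_core N' (pl_prime N' A hℓ.out hA) ⟨z, hz⟩
    (fun g hg => ffx_nf_fixed ℓ A hA N' ⟨z, hz⟩ hfix g hg) ((ℓ : ℤ) ^ k) hℓ0
  rw [pl_valuation_le_one_iff, ValuationSubring.valuation_le_one_iff] at hq
  refine ⟨q, _, hq, ?_⟩
  have hℓK : (ℓ : ff_Qb) ^ k ≠ 0 := pow_ne_zero _ (by exact_mod_cast hℓ.out.ne_zero)
  have : (((((⟨z, hz⟩ : N') - algebraMap ℚ N' q) / (((ℓ : ℤ) ^ k : ℤ) : N') : N')) : ff_Qb)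
      = (z - algebraMap ℚ ff_Qb q) / (ℓ : ff_Qb) ^ k := by
    push_cast
    rfl
  rw [this]
  field_simp

/-- the valuation ring `A ∩ N'` of `N'` -/
noncomputable abbrev ffx_nf_B : ValuationSubring N' := A.comap (algebraMap ↥N' ff_Qb)

theorem ffx_nf_mem_B (x : N') : x ∈ ffx_nf_B A N' ↔ (x : ff_Qb) ∈ A := Iff.rfl

/-- nonunits of `A ∩ N'` -/
theorem ffx_nf_mem_maximalIdeal (y : ffx_nf_B A N') :
    y ∈ IsLocalRing.maximalIdeal (ffx_nf_B A N') ↔ A.valuation ((y : N') : ff_Qb) < 1 := by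
  rw [IsLocalRing.mem_maximalIdeal, mem_nonunits_iff]
  constructor
  · intro hy
    by_contra hcon
    have h1 : A.valuation ((y : N') : ff_Qb) = 1 :=
      le_antisymm ((ValuationSubring.valuation_le_one_iff A _).2 y.2) (not_lt.1 hcon)
    have hy0 : (y : N') ≠ 0 := by
      intro h0
      rw [h0] at h1
      simp at h1
    have h2 : ((y : N')⁻¹) ∈ ffx_nf_B A N' := by
      rw [ffx_nf_mem_B, ← ValuationSubring.valuation_le_one_iff]
      have : (((y : N')⁻¹ : N') : ff_Qb) = ((y : N') : ff_Qb)⁻¹ := by simp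
      rw [this, map_inv₀, h1, inv_one]
    apply hy
    refine IsUnit.of_mul_eq_one ⟨_, h2⟩ ?_
    apply Subtype.ext
    simp [hy0]
  · intro hy hu
    obtain ⟨y', hy'⟩ := hu.exists_right_inv
    have h1 : ((y : N') : ff_Qb) * ((y' : N') : ff_Qb) = 1 := by
      have := congrArg (fun b : ffx_nf_B A N' => ((b : N') : ff_Qb)) hy'
      simpa using this
    have h2 : A.valuation ((y' : N') : ff_Qb) ≤ 1 := (ValuationSubring.valuation_le_one_iff A _).2 y'.2
    have h3 := congrArg A.valuation h1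
    rw [map_mul, map_one] at h3
    have : A.valuation ((y : N') : ff_Qb) * A.valuation ((y' : N') : ff_Qb) < 1 :=
      mul_lt_one_of_nonneg_of_lt_one_left zero_le hy h2
    rw [h3] at this
    exact lt_irrefl _ this

/-- the map `𝓞 N' → A ∩ N'` -/
noncomputable def ffx_nf_toB : 𝓞 N' →+* ffx_nf_B A N' where
  toFun x := ⟨(x : N'), pl_intQbar_le A (toIntQbar N' x)⟩
  map_one' := Subtype.ext (by simp)
  map_mul' x y := Subtype.ext (by simp)
  map_zero' := Subtype.ext (by simp)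
  map_add' x y := Subtype.ext (by simp)

theorem ffx_nf_toB_coe (x : 𝓞 N') : ((ffx_nf_toB A N' x : ffx_nf_B A N') : N') = (x : N') := rfl

include hA in
/-- `𝓞 N' → κ(A ∩ N')` is onto. -/
theorem ffx_nf_residue_surjective :
    Function.Surjective ((IsLocalRing.residue (ffx_nf_B A N')).comp (ffx_nf_toB A N')) := by
  intro r
  obtain ⟨b, rfl⟩ := IsLocalRing.residue_surjective r
  have hb : (pl_prime N' A hℓ.out hA).valuation N' (b : N') ≤ 1 := by
    rw [pl_valuation_le_one_iff, ValuationSubring.valuation_le_one_iff]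
    exact b.2
  obtain ⟨n, d, hnd⟩ :=
    HeightOneSpectrum.exists_primeCompl_mul_eq_of_integer (pl_prime N' A hℓ.out hA) (b : N') hb
  have hmax : (pl_ideal N' A).IsMaximal := (pl_prime N' A hℓ.out hA).isMaximal
  obtain ⟨d', i, hi, hd'⟩ := hmax.exists_inv d.2
  have hdd' : (d : 𝓞 N') * d' - 1 ∈ pl_ideal N' A := by
    have : (d : 𝓞 N') * d' - 1 = -i := by rw [← hd']; ring
    rw [this]; exact neg_mem hi
  refine ⟨n * d', ?_⟩
  rw [RingHom.comp_apply, ← sub_eq_zero, ← map_sub, IsLocalRing.residue_eq_zero_iff]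
  have h1 : ffx_nf_toB A N' (n * d') - b = b * ffx_nf_toB A N' (d * d' - 1) := by
    apply Subtype.ext
    push_cast
    rw [ffx_nf_toB_coe, ffx_nf_toB_coe]
    have hnd' : ((n : 𝓞 N') : N') = (b : N') * ((d : 𝓞 N') : N') := hnd.symm
    push_cast
    linear_combination ((d' : 𝓞 N') : N') * hnd'
  rw [h1]
  refine Ideal.mul_mem_left _ _ ?_
  rw [ffx_nf_mem_maximalIdeal, ffx_nf_toB_coe]
  exact (pl_mem_ideal N' A).1 hdd'

include hA in
/-- **[DESC-NF] (b)**: the residue field of the valuation ring `A ∩ N'` of a number field `N'`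
is finite. -/
theorem ffx_nf_finite_residue :
    Finite (IsLocalRing.ResidueField ↥(A.comap (algebraMap ↥N' ff_Qb))) := by
  have hne : pl_ideal N' A ≠ ⊥ := pl_ideal_ne_bot N' A hℓ.out hA
  haveI : Finite (𝓞 N' ⧸ pl_ideal N' A) := Ideal.finiteQuotientOfFreeOfNeBot _ hne
  have hle : pl_ideal N' A ≤
      RingHom.ker ((IsLocalRing.residue (ffx_nf_B A N')).comp (ffx_nf_toB A N')) := by
    intro x hx
    rw [RingHom.mem_ker, RingHom.comp_apply, IsLocalRing.residue_eq_zero_iff,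
      ffx_nf_mem_maximalIdeal, ffx_nf_toB_coe]
    exact (pl_mem_ideal N' A).1 hx
  refine Finite.of_surjective (Ideal.Quotient.lift (pl_ideal N' A)
    ((IsLocalRing.residue (ffx_nf_B A N')).comp (ffx_nf_toB A N')) hle) ?_
  exact Ideal.Quotient.lift_surjective_of_surjective _ hle
    (ffx_nf_residue_surjective ℓ A hA N')

end nf

end Fermat.Agent.FF
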