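/-
Project FF / MW, shared number-theoretic core (Mathlib only).  Prefix `ffx_ic_`.

**The inertia criterion.**  In a tower of domains `R → S → T` with `T/R` Galois of finite group
`G` (`IsGaloisGroup G R T`) and `T/S` Galois of group `H ≤ G`, for a prime `P` of `T`:

  `e(P ∩ S | R) = 1  ↔  I(P | R) ≤ H`   (`ffx_ic_ramificationIdx_eq_one_iff`),

i.e. `P ∩ S` is unramified over `R` iff the inertia group of `P` acts trivially on `S`.
Proof: `|I(P | R)| = e(P | R)` and `|I(P | R) ∩ H| = |I(P | S)| = e(P | S)` (Mathlib's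
`Ideal.card_inertia_eq_ramificationIdxIn`) and `e(P | R) = e(P ∩ S | R) · e(P | S)`.

Number-field instances: `ffx_ic_int` (`R = ℤ`, `S = 𝓞 F`, `T = 𝓞 Nf`, `Nf/ℚ` Galois,
`F` an intermediate field, `H = ` the fixing subgroup of `F`) and `ffx_ic_nf` (base `𝓞 K₀`).
-/
import Mathlib

set_option autoImplicit false

open Pointwise NumberField

namespace Fermat.Agent.FF

section Core

variable {R S T G : Type*} [CommRing R] [CommRing S] [CommRing T] [IsDomain R] [IsDomain S]
  [IsDomain T] [Algebra R S] [Algebra S T] [Algebra R T] [IsScalarTower R S T]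
  [Group G] [Finite G] [MulSemiringAction G T] [IsGaloisGroup G R T]
  (H : Subgroup G) [IsGaloisGroup H S T]
  [Module.Finite R T] [Module.Flat R T] [Module.Finite S T] [Module.Flat S T]
  (P : Ideal T) [P.IsPrime] [PerfectField (P.under R).ResidueField]
  [PerfectField (P.under S).ResidueField]

omit [IsDomain S] [Algebra R S] [Algebra S T] [IsScalarTower R S T] [Module.Finite S T]
  [Module.Flat S T] [PerfectField (P.under S).ResidueField] in
/-- `|I(P)| = e(P | R)`. -/
theorem ffx_ic_card_inertia : Nat.card (P.inertia G) = P.ramificationIdx R := by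
  rw [Ideal.card_inertia_eq_ramificationIdxIn (G := G) (P.under R) P,
    Ideal.ramificationIdxIn_eq_ramificationIdx (P.under R) P G]

/-- **The inertia criterion.**  In a tower `R → S → T` with `T/R` Galois of group `G` and `T/S`
Galois of group `H ≤ G`: the prime `P ∩ S` is unramified over `R` iff the inertia group of `P` in
`G` is contained in `H` (i.e. acts trivially on `S`). -/
theorem ffx_ic_ramificationIdx_eq_one_iff :
    (P.under S).ramificationIdx R = 1 ↔ P.inertia G ≤ H := by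
  have h1 : Nat.card (P.inertia G) = P.ramificationIdx R := ffx_ic_card_inertia P
  have h2 : Nat.card (P.inertia H) = P.ramificationIdx S := ffx_ic_card_inertia P
  have h3 : P.ramificationIdx R = (P.under S).ramificationIdx R * P.ramificationIdx S :=
    Ideal.ramificationIdx_tower (P.under S) P
  have h4 : Nat.card (P.inertia H) = Nat.card ((P.inertia G ⊓ H : Subgroup G)) := by
    rw [← AddSubgroup.inertia_map_subtype]
    exact (Nat.card_congr (Subgroup.equivMapOfInjective _ _ H.subtype_injective).toEquiv)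
  constructor
  · intro h
    rw [h, one_mul, ← h1, ← h2, h4] at h3
    have : (P.inertia G ⊓ H : Subgroup G) = P.inertia G :=
      Subgroup.eq_of_le_of_card_ge inf_le_left h3.le
    rw [← this]
    exact inf_le_right
  · intro h
    have : (P.inertia G ⊓ H : Subgroup G) = P.inertia G := inf_eq_left.2 h
    rw [← h1, ← h2, h4, this] at h3
    have h5 : 0 < Nat.card (P.inertia G) := Nat.card_pos
    exact (Nat.eq_of_mul_eq_mul_right h5 (by rw [one_mul]; exact h3 :
      1 * Nat.card (P.inertia G) = (P.under S).ramificationIdx R * Nat.card (P.inertia G))).symm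

end Core

section NumberField

/-- the inertia criterion over `ℚ`: `Nf/ℚ` a Galois number field, `F` an intermediate field, `P` a
prime of `𝓞 Nf`: `P ∩ 𝓞 F` is unramified over `ℤ` iff the inertia group of `P` fixes `F`. -/
theorem ffx_ic_int (Nf : Type*) [Field Nf] [NumberField Nf] [IsGalois ℚ Nf]
    (F : IntermediateField ℚ Nf) (P : Ideal (𝓞 Nf)) [P.IsPrime] :
    (P.under (𝓞 F)).ramificationIdx ℤ = 1 ↔
      P.inertia (Nf ≃ₐ[ℚ] Nf) ≤ fixingSubgroup (Nf ≃ₐ[ℚ] Nf) (F : Set Nf) := by
  have : IsGaloisGroup (fixingSubgroup (Nf ≃ₐ[ℚ] Nf) (F : Set Nf)) (𝓞 F) (𝓞 Nf) :=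
    IsGaloisGroup.of_isFractionRing _ (𝓞 F) (𝓞 Nf) F Nf
  exact ffx_ic_ramificationIdx_eq_one_iff (R := ℤ) (S := 𝓞 F) (T := 𝓞 Nf)
    (fixingSubgroup (Nf ≃ₐ[ℚ] Nf) (F : Set Nf)) P

/-- the inertia criterion over a number field `K₀`. -/
theorem ffx_ic_nf (K₀ Nf : Type*) [Field K₀] [NumberField K₀] [Field Nf] [NumberField Nf]
    [Algebra K₀ Nf] [IsGalois K₀ Nf]
    (F : IntermediateField K₀ Nf) (P : Ideal (𝓞 Nf)) [P.IsPrime] :
    (P.under (𝓞 F)).ramificationIdx (𝓞 K₀) = 1 ↔
      P.inertia (Nf ≃ₐ[K₀] Nf) ≤ fixingSubgroup (Nf ≃ₐ[K₀] Nf) (F : Set Nf) := by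
  have : IsGaloisGroup (fixingSubgroup (Nf ≃ₐ[K₀] Nf) (F : Set Nf)) (𝓞 F) (𝓞 Nf) :=
    IsGaloisGroup.of_isFractionRing _ (𝓞 F) (𝓞 Nf) F Nf
  exact ffx_ic_ramificationIdx_eq_one_iff (R := 𝓞 K₀) (S := 𝓞 F) (T := 𝓞 Nf)
    (fixingSubgroup (Nf ≃ₐ[K₀] Nf) (F : Set Nf)) P

end NumberField

end Fermat.Agent.FF
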