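/-
Project FF, cell [DESC], step (i) **[UNR]** (architect: helper27, #1790).  Prefix `ffx_unr_`.

`ffx_unr`: let `A` be a place of `Q̄` over `ℓ` and `L₁ ⊆ Q̄` a subfield (possibly infinite over `ℚ`)
in which `ℓ` is still a uniformiser of `A ∩ L₁` (every non-unit of `A ∩ L₁` is divisible by `ℓ` in
`A`).  Then `L₁` is fixed pointwise by the inertia group `I_A ⊆ G_ℚ`.

Proof: for `a ∈ L₁` let `F = ℚ(a)`, `Nf` its normal closure, `P = 𝔪_A ∩ 𝓞 Nf`.  The hypothesis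
gives `ℓ ∉ (P ∩ 𝓞 F)²`, i.e. `e(P ∩ 𝓞 F | ℓ) = 1` (`ffx_unr_ramificationIdx`), so by the inertia
criterion `ffx_ic_int` (FF/InertiaCore.lean) the inertia group of `P` in `Gal(Nf/ℚ)` fixes `F`; by
S55's `pl_map_inertia` it is the image of `I_A`.
-/
import Fermat.Agent.FF.Seams
import Fermat.Agent.FF.InertiaCore
import Fermat.Agent.S55.Places.Galois

set_option autoImplicit false

open Pointwise NumberField IntermediateField

namespace Fermat.Agent.FF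

open Fermat.Agent.S55

local notation "Qbar" => AlgebraicClosure ℚ

section Abs

variable {F : Type*} [Field F] [NumberField F] (ι : F →+* Qbar) (ℓ : ℕ)
  (A : ValuationSubring Qbar) (Q : Ideal (𝓞 F))

/-- if `ℓ` generates the maximal ideal of `A ∩ F`, every element of `Q²`, `Q = 𝔪_A ∩ 𝓞 F`, is
divisible by `ℓ²` in `A`. -/
theorem ffx_unr_sq_div (hQ : ∀ x : 𝓞 F, x ∈ Q → ι (x : F) ∈ A.nonunits)
    (h : ∀ a : F, ι a ∈ A.nonunits → ι a / (ℓ : Qbar) ∈ A) (z : 𝓞 F)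
    (hz : z ∈ Q ^ 2) : ι (z : F) / (ℓ : Qbar) ^ 2 ∈ A := by
  rw [pow_two] at hz
  refine Submodule.mul_induction_on hz ?_ ?_
  · intro x hx y hy
    have hx' : ι (x : F) / (ℓ : Qbar) ∈ A := h _ (hQ x hx)
    have hy' : ι (y : F) / (ℓ : Qbar) ∈ A := h _ (hQ y hy)
    have : ι ((x * y : 𝓞 F) : F) / (ℓ : Qbar) ^ 2 =
        (ι (x : F) / (ℓ : Qbar)) * (ι (y : F) / (ℓ : Qbar)) := by
      push_cast
      rw [map_mul]
      ring
    rw [this]
    exact A.mul_mem _ _ hx' hy'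
  · intro x y hx hy
    have : ι ((x + y : 𝓞 F) : F) / (ℓ : Qbar) ^ 2 =
        ι (x : F) / (ℓ : Qbar) ^ 2 + ι (y : F) / (ℓ : Qbar) ^ 2 := by
      push_cast
      rw [map_add]
      ring
    rw [this]
    exact A.add_mem _ _ hx hy

/-- if `ℓ` generates the maximal ideal of `A ∩ F`, the prime `Q = 𝔪_A ∩ 𝓞 F` is unramified over
`ℤ`. -/
theorem ffx_unr_ramificationIdx (hℓ : ℓ.Prime) (hA : A.LiesOverPrime ℓ) [Q.IsPrime]
    (hQ : ∀ x : 𝓞 F, x ∈ Q → ι (x : F) ∈ A.nonunits) (hℓQ : ((ℓ : ℕ) : 𝓞 F) ∈ Q)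
    (h : ∀ a : F, ι a ∈ A.nonunits → ι a / (ℓ : Qbar) ∈ A) :
    Q.ramificationIdx ℤ = 1 := by
  have hℓ0 : ((ℓ : ℕ) : Qbar) ≠ 0 := Nat.cast_ne_zero.2 hℓ.ne_zero
  have hmem : ((ℓ : ℕ) : ℤ) ∈ Q.under ℤ := by
    rw [Ideal.under_def, Ideal.mem_comap]
    simpa using hℓQ
  have hp : Q.under ℤ ≠ ⊥ := by
    intro h0
    rw [h0, Ideal.mem_bot] at hmem
    exact hℓ.ne_zero (by exact_mod_cast hmem)
  rw [← Ideal.ramificationIdx'_eq_ramificationIdx (Q.under ℤ) Q hp]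
  refine Ideal.ramificationIdx'_spec ?_ ?_
  · rw [pow_one]
    exact Ideal.map_comap_le
  · intro hle
    have h1 : ((ℓ : ℕ) : 𝓞 F) ∈ Q ^ 2 := by
      apply hle
      have := Ideal.mem_map_of_mem (algebraMap ℤ (𝓞 F)) hmem
      simpa using this
    have h2 := ffx_unr_sq_div ι ℓ A Q hQ h _ h1
    have h3 : ι (((ℓ : ℕ) : 𝓞 F) : F) / (ℓ : Qbar) ^ 2 = ((ℓ : ℕ) : Qbar)⁻¹ := by
      have : ι (((ℓ : ℕ) : 𝓞 F) : F) = ((ℓ : ℕ) : Qbar) := by simp
      rw [this]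
      field_simp
    rw [h3] at h2
    have h4 : A.valuation ((ℓ : ℕ) : Qbar) < 1 :=
      (ValuationSubring.mem_nonunits_iff (A := A)).1 hA
    have h5 : A.valuation (((ℓ : ℕ) : Qbar)⁻¹) ≤ 1 := (A.valuation_le_one_iff _).2 h2
    rw [map_inv₀] at h5
    have h6 : A.valuation ((ℓ : ℕ) : Qbar) ≠ 0 := (Valuation.ne_zero_iff _).2 hℓ0
    have h7 : (1 : _) ≤ A.valuation ((ℓ : ℕ) : Qbar) := (inv_le_one₀ (zero_lt_iff.2 h6)).1 h5
    exact absurd h4 (not_lt.2 h7)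

end Abs

/-- `Q̄/ℚ` is normal. -/
theorem ffx_unr_qbar_normal : Normal ℚ Qbar := by
  have : Algebra.IsAlgebraic ℚ Qbar := AlgebraicClosure.isAlgebraic ℚ
  have : IsAlgClosure ℚ Qbar := ⟨inferInstance, inferInstance⟩
  exact IsAlgClosure.normal ℚ Qbar

/-- **[DESC](i) [UNR].**  A subfield `L₁ ⊆ Q̄` in which `ℓ` is still a uniformiser of `A ∩ L₁` is
fixed pointwise by the inertia group of `A`. -/
theorem ffx_unr (ℓ : ℕ) [Fact ℓ.Prime] (A : ValuationSubring ff_Qb) (hA : A.LiesOverPrime ℓ)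
    (L₁ : IntermediateField ℚ ff_Qb)
    (h : ∀ a ∈ L₁, a ∈ A.nonunits → a / (ℓ : ff_Qb) ∈ A) :
    ∀ σ ∈ A.inertiaSubgroupIn ℚ, ∀ a ∈ L₁, σ a = a := by
  intro σ hσ a ha
  have hℓ : ℓ.Prime := Fact.out
  -- the finite level
  let F' : IntermediateField ℚ Qbar := ℚ⟮a⟯
  have hF'L : F' ≤ L₁ := adjoin_simple_le_iff.2 ha
  have haint : IsIntegral ℚ a := ((AlgebraicClosure.isAlgebraic ℚ).isAlgebraic a).isIntegral
  have : FiniteDimensional ℚ F' := adjoin.finiteDimensional haint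
  let Nf : IntermediateField ℚ Qbar := normalClosure ℚ F' Qbar
  have : Normal ℚ Qbar := ffx_unr_qbar_normal
  have : FiniteDimensional ℚ Nf := normalClosure.is_finiteDimensional ℚ F' Qbar
  have : Normal ℚ Nf := normalClosure.normal ℚ F' Qbar
  have : IsGalois ℚ Nf := ⟨⟩
  have : NumberField Nf := ⟨⟩
  have hle : F' ≤ Nf := le_normalClosure F'
  let F : IntermediateField ℚ Nf := IntermediateField.restrict hle
  have hin : AlgEquiv.restrictNormalHom Nf σ ∈ (pl_ideal Nf A).inertia (Nf ≃ₐ[ℚ] Nf) := by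
    have := pl_map_inertia Nf A hℓ hA
    rw [SetLike.ext_iff] at this
    exact (this _).1 ⟨σ, hσ, rfl⟩
  have he : ((pl_ideal Nf A).under (𝓞 F)).ramificationIdx ℤ = 1 := by
    refine ffx_unr_ramificationIdx ((Nf.val : Nf →+* Qbar).comp (F.val : F →+* Nf)) ℓ A _ hℓ hA
      ?_ ?_ ?_
    · intro x hx
      rw [Ideal.under_def, Ideal.mem_comap] at hx
      exact (ValuationSubring.mem_nonunits_iff (A := A)).2 ((pl_mem_ideal Nf A).1 hx)
    · rw [Ideal.under_def, Ideal.mem_comap, map_natCast]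
      exact pl_natCast_mem_ideal Nf A hA
    · intro x hx
      refine h _ (hF'L ?_) hx
      exact (IntermediateField.mem_restrict hle (x : Nf)).1 x.2
  have hfix := (ffx_ic_int Nf F (pl_ideal Nf A)).1 he hin
  have haN : a ∈ Nf := hle (mem_adjoin_simple_self ℚ a)
  have haF : (⟨a, haN⟩ : Nf) ∈ F :=
    (IntermediateField.mem_restrict hle _).2 (mem_adjoin_simple_self ℚ a)
  have h1 := (_root_.mem_fixingSubgroup_iff _).1 hfix ⟨a, haN⟩ haF
  have h2 : ((AlgEquiv.restrictNormalHom Nf σ ⟨a, haN⟩ : Nf) : Qbar) = σ a :=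
    AlgEquiv.restrictNormal_commutes σ Nf ⟨a, haN⟩
  have h3 : ((AlgEquiv.restrictNormalHom Nf σ) ⟨a, haN⟩ : Nf) = ⟨a, haN⟩ := h1
  rw [← h2, h3]

end Fermat.Agent.FF
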