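/-
Project FF (S19 + S32), leaf [DESC]: **`ffx_seamDESC : ff_SeamDESC`** — a local order at ONE place
over `ℓ` gives an order.

Assembly of: `ffx_order_of_key` (helper4, `FF/DescentAlg.lean`: the order `ffx_H` from the KEY claim
`H₁ ⊆ A · H`), `ffx_key_of` (`FF/DescentKey.lean`: the KEY claim by étale descent along the
inertia field and density descent along the decomposition field), `ffx_unr` (helper18,
`FF/DescentUnr.lean`: `L₁ ⊆ Q̄^I`), `ffx_nf_dense` / `ffx_nf_finite_residue` (helper18,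
`FF/DescentNF.lean`).
Owner: helper13.  Prefix `ffx_`.
-/
import Mathlib
import Fermat.Agent.FF.DescentKey
import Fermat.Agent.FF.DescentAlg
import Fermat.Agent.FF.DescentUnr
import Fermat.Agent.FF.DescentNF

set_option autoImplicit false
set_option linter.style.haveILetI false

namespace Fermat.Agent.FF

theorem ffx_resFin {ℓ : ℕ} [Fact ℓ.Prime] {A : ValuationSubring ff_Qb} (hA : A.LiesOverPrime ℓ) :
    ffx_ResFin A := fun N' _ _ => ffx_nf_finite_residue ℓ A hA N'

theorem ffx_dense {ℓ : ℕ} [Fact ℓ.Prime] {A : ValuationSubring ff_Qb} (hA : A.LiesOverPrime ℓ) :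
    ffx_Dense ℓ A := fun N' _ _ z hz hfix k => by
  haveI : IsGalois ℚ N' := ⟨⟩
  exact ffx_nf_dense ℓ A hA N' z hz hfix k

/-- **[DESC]**: a local order at one place over `ℓ` gives an order. -/
theorem ffx_seamDESC : ff_SeamDESC := by
  intro ℓ _ A hA M _ _ _ hopen H₁ hH₁
  refine ⟨ffx_H ℓ A hA M H₁, ffx_order_of_key ℓ A hA M hopen H₁ hH₁
    (ffx_key_of hA hopen hH₁ (ffx_resFin hA) (ffx_dense hA) ?_)⟩
  obtain ⟨L₁, hL₁, heq⟩ := hH₁.unr
  intro φ hφ ι hι
  have hιL : ι ∈ L₁.fixingSubgroup :=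
    (IntermediateField.mem_fixingSubgroup_iff L₁ ι).mpr (ffx_unr ℓ A hA L₁ hL₁ ι hι)
  exact ffx_conj_of_equivariant (heq φ hφ ι hιL)

end Fermat.Agent.FF
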