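/-
Project FF (S19 + S32), leaf [DESC], abstract half: **descent of lattices**.

* `ffx_span_invariants` (DESC ii, abstract): Galois descent along a "Galois system".  `Γ` a finite
  group acting on a commutative ring `T`, `O ⊆ T` a subring, `e, e' : ι → O` with
  `∑ i, e' i * γ • e i = δ_{γ,1}` (this is what "`O` is finite étale Galois over `O^Γ` with group
  `Γ`" means).  Then every `Γ`-stable `O`-submodule `Λ` of a `T`-module with semilinear
  `Γ`-action is spanned over `O` by its `Γ`-invariant elements: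
  `w = ∑ i, e' i • (∑ γ, γ • (e i • w))`.
* `ffx_dense_descent` (DESC iii, abstract): density descent.  `K ⊆ K'` fields, `O' ⊆ K'` a subring
  with `l ∈ O'` in its Jacobson radical, `K` is `l`-adically dense in `K'` (w.r.t. `O'`).  `W` a
  `K'`-module, `W₀ ⊆ W` a `K`-subspace spanning `W` over `K'`, `Λ ⊆ W` a finitely generated
  `O'`-submodule containing `l^k • w` for every `w ∈ W₀` and suitable `k`.  Then `Λ` is spanned
  over `O'` by `Λ ∩ W₀`.
Owner: helper13.  Prefix `ffx_`.  Mathlib only.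
-/
import Mathlib

set_option autoImplicit false
set_option linter.style.haveILetI false
set_option linter.unusedSectionVars false

namespace Fermat.Agent.FF

section galois

variable {T : Type*} [CommRing T] {Γ : Type*} [Group Γ] [Fintype Γ] [DecidableEq Γ]
  [MulSemiringAction Γ T]
  {W : Type*} [AddCommGroup W] [Module T W] [DistribMulAction Γ W]

/-- The trace `∑ γ, γ • w` is `Γ`-invariant. -/
theorem ffx_trace_invariant (w : W) (g : Γ) : g • (∑ γ : Γ, γ • w) = ∑ γ : Γ, γ • w := by
  rw [Finset.smul_sum]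
  simp_rw [← mul_smul]
  exact Fintype.sum_equiv (Equiv.mulLeft g) _ _ (fun γ => rfl)

/-- **(DESC ii), abstract.**  Galois descent along a Galois system `(e, e')`. -/
theorem ffx_span_invariants (O : Subring T) {ι : Type*} [Fintype ι] (e e' : ι → T)
    (he : ∀ i, e i ∈ O) (hee : ∀ γ : Γ, ∑ i, e' i * γ • e i = if γ = 1 then 1 else 0)
    (hsemi : ∀ (γ : Γ) (t : T) (w : W), γ • (t • w) = (γ • t) • γ • w)
    (Λ : AddSubgroup W) (hΛO : ∀ t ∈ O, ∀ w ∈ Λ, t • w ∈ Λ) (hΛΓ : ∀ (γ : Γ), ∀ w ∈ Λ, γ • w ∈ Λ)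
    (w : W) (hw : w ∈ Λ) :
    (∀ i, (∑ γ : Γ, γ • (e i • w)) ∈ Λ ∧ ∀ g : Γ, g • (∑ γ : Γ, γ • (e i • w)) = ∑ γ : Γ, γ • (e i • w)) ∧
      w = ∑ i, e' i • ∑ γ : Γ, γ • (e i • w) := by
  classical
  refine ⟨fun i => ⟨?_, ffx_trace_invariant _⟩, ?_⟩
  · exact Λ.sum_mem fun γ _ => hΛΓ γ _ (hΛO _ (he i) _ hw)
  · have h1 : ∀ i, e' i • ∑ γ : Γ, γ • (e i • w) = ∑ γ : Γ, (e' i * γ • e i) • γ • w := by
      intro i
      rw [Finset.smul_sum]
      refine Finset.sum_congr rfl fun γ _ => ?_
      rw [hsemi, mul_smul]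
    simp_rw [h1]
    rw [Finset.sum_comm]
    simp_rw [← Finset.sum_smul, hee]
    rw [Finset.sum_eq_single (1 : Γ)]
    · rw [if_pos rfl, one_smul, one_smul]
    · intro γ _ hγ
      rw [if_neg hγ, zero_smul]
    · intro h
      exact absurd (Finset.mem_univ _) h

end galois

section dense

variable {K' : Type*} [Field K'] {W : Type*} [AddCommGroup W] [Module K' W]

/-- **(DESC iii), abstract.**  Density descent: a finitely generated `O'`-lattice `Λ` in `W` is
spanned over `O'` by its elements in the `K`-structure `W₀`, if `K` is `l`-adically dense in `K'`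
and `l` lies in the Jacobson radical of `O'`. -/
theorem ffx_dense_descent (K : Subfield K') (O' : Subring K') (l : O')
    (hjac : l ∈ Ideal.jacobson (⊥ : Ideal O'))
    (hdense : ∀ (z : K') (k : ℕ), ∃ q ∈ K, ∃ u : O', z - q = (l : K') ^ k * u)
    (W₀ : Submodule K W) (hspan : Submodule.span K' (W₀ : Set W) = ⊤)
    (Λ : Submodule O' W) (hfg : Λ.FG) (hopen : ∀ w ∈ W₀, ∃ k : ℕ, ((l : K') ^ k) • w ∈ Λ) :
    Submodule.span O' ((Λ : Set W) ∩ (W₀ : Set W)) = Λ := by
  classical
  apply le_antisymm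
  · exact Submodule.span_le.mpr fun w hw => hw.1
  refine Submodule.le_of_le_smul_of_le_jacobson_bot (I := Ideal.span {l}) hfg
    ((Ideal.span_singleton_le_iff_mem _).mpr hjac) ?_
  -- every element of `W` is congruent to an element of `W₀` modulo `l • Λ`
  have key : ∀ b : W, ∃ b' ∈ W₀, ∃ lam ∈ Λ, b - b' = (l : K') • lam := by
    intro b
    have hb : b ∈ Submodule.span K' (W₀ : Set W) := by rw [hspan]; exact Submodule.mem_top
    obtain ⟨c, rfl⟩ := (Finsupp.mem_span_iff_linearCombination K' (W₀ : Set W) b).mp hb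
    -- exponents for the finitely many vectors involved
    choose kk hkk using fun v : ↥(W₀ : Set W) => hopen v.1 v.2
    set k0 : ℕ := c.support.sup kk with hk0
    choose q hqK u hu using fun v : ↥(W₀ : Set W) => hdense (c v) (k0 + 1)
    refine ⟨∑ v ∈ c.support, (⟨q v, hqK v⟩ : K) • (v : W),
      W₀.sum_mem fun v _ => W₀.smul_mem _ v.2,
      ∑ v ∈ c.support, u v • (((l : K') ^ k0) • (v : W)),
      Λ.sum_mem fun v hv => Λ.smul_mem _ ?_, ?_⟩
    · -- `l ^ k0 • v ∈ Λ`
      have hle : kk v ≤ k0 := Finset.le_sup hv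
      have h1 : ((l : K') ^ k0) • (v : W) = (l ^ (k0 - kk v) : O') • (((l : K') ^ kk v) • (v : W)) := by
        rw [Subring.smul_def, smul_smul]
        push_cast
        rw [← pow_add, Nat.sub_add_cancel hle]
      rw [h1]
      exact Λ.smul_mem _ (hkk v)
    · rw [Finsupp.linearCombination_apply, Finsupp.sum, ← Finset.sum_sub_distrib, Finset.smul_sum]
      refine Finset.sum_congr rfl fun v _ => ?_
      have h2 : (⟨q v, hqK v⟩ : K) • (v : W) = (q v) • (v : W) := rfl
      rw [h2, ← sub_smul, hu v, Subring.smul_def, smul_smul, smul_smul, pow_succ]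
      congr 1
      ring
  intro w hw
  obtain ⟨S, hS⟩ := hfg
  rw [← hS] at hw
  refine Submodule.span_induction (p := fun w _ => w ∈ Submodule.span O' ((Λ : Set W) ∩ (W₀ : Set W)) ⊔
    Ideal.span {l} • Λ) ?_ ?_ ?_ ?_ hw
  · intro b hbS
    have hbΛ : b ∈ Λ := by
      rw [← hS]
      exact Submodule.subset_span hbS
    obtain ⟨b', hb'W, lam, hlam, hsub⟩ := key b
    have hb'Λ : b' ∈ Λ := by
      have h3 : b' = b - (l : K') • lam := by rw [← hsub]; abel
      rw [h3]
      exact Λ.sub_mem hbΛ (Λ.smul_mem l hlam)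
    have h4 : b = b' + (l : K') • lam := by rw [← hsub]; abel
    rw [h4]
    refine Submodule.add_mem_sup (Submodule.subset_span ⟨hb'Λ, hb'W⟩) ?_
    exact Submodule.smul_mem_smul (Ideal.mem_span_singleton_self l) hlam
  · exact Submodule.zero_mem _
  · intro x y _ _ hx hy
    exact Submodule.add_mem _ hx hy
  · intro t x _ hx
    exact Submodule.smul_mem _ t hx

end dense

end Fermat.Agent.FF
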