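/-
Project FF (S19 + S32), leaf [HO]: the seam `ff_SeamHO` of `FF/Seams.lean` is a theorem
(`ffh_main`, `FF/HopfOrder.lean`).
-/
import Mathlib
import Fermat.Agent.FF.Seams
import Fermat.Agent.FF.HopfOrder

set_option autoImplicit false

namespace Fermat.Agent.FF

/-- **[HO]**: an order is a finite flat cocommutative Hopf algebra with `Q̄`-points `M`. -/
theorem ffh_seamHO : ff_SeamHO := fun ℓ _ M _ _ _ H h =>
  ffh_main ℓ M H h.equiv h.fin h.sep h.comul

end Fermat.Agent.FF
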