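/-
Project FF (S19): THE CLOSING FILE.  Owner: helper27 (FF architect).

`ff_S19_of_res_inst : ffa_SeamRES → ff_SeamINST p ℓ k → (the statement of S19)` — all other seams
are closed theorems: `ffh_seamHO` (helper4), `ffx_seamDESC` (helper13/helper18), `ffq_seamGAL`
(helper26), `[ADD]` modulo `[A-RES]` (`ffa_seamADD_of_res`).
-/
import Mathlib
import Fermat.Agent.FF.AssemblyGeom
import Fermat.Agent.FF.HopfOrderSeam
import Fermat.Agent.FF.Descent
import Fermat.Agent.FF.Gal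
import Fermat.Agent.FF.Add.Final

set_option autoImplicit false

namespace Fermat.Agent.FF

open ModularCurve

/-- **S19 from the two remaining seams** `[A-RES]` and `[INST]`. -/
theorem ff_S19_of_res_inst (p : ℕ) [NeZero p] (ℓ : ℕ) [Fact ℓ.Prime] (hℓp : ¬ ℓ ∣ p) (k : ℕ)
    (hRES : ffa_SeamRES) (hINST : ff_SeamINST p ℓ k) :
    ∃ (H : Type) (_ : CommRing H) (_ : HopfAlgebra (GaloisRep.ratLocalizedAt ℓ) H),
      Module.Finite (GaloisRep.ratLocalizedAt ℓ) H ∧ Module.Flat (GaloisRep.ratLocalizedAt ℓ) H ∧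
      Coalgebra.IsCocomm (GaloisRep.ratLocalizedAt ℓ) H ∧
      ∃ e : WithConv (H →ₐ[GaloisRep.ratLocalizedAt ℓ] AlgebraicClosure ℚ) ≃
          ↥(Submodule.torsionBy ℤ (JZero p) ((ℓ : ℤ) ^ k)),
        (∀ f g, e (f * g) = e f + e g) ∧
        ∀ (σ : AlgebraicClosure ℚ ≃ₐ[ℚ] AlgebraicClosure ℚ)
          (f g : WithConv (H →ₐ[GaloisRep.ratLocalizedAt ℓ] AlgebraicClosure ℚ)),
          (∀ h : H, g h = σ (f h)) → ((e g : JZero p)) = σ • (e f : JZero p) :=
  ff_S19_of_geom p ℓ hℓp k ffh_seamHO ffx_seamDESC (ffa_seamADD_of_res hRES) ffq_seamGAL hINST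

end Fermat.Agent.FF
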