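/-
Project FF (S19): THE CLOSING FILE, part 2.  Owner: helper27 (FF architect).

`ff_S19_of_inst : ff_SeamINST p ℓ k → (the statement of S19)` — every other seam is a closed
theorem: `ffh_seamHO`, `ffx_seamDESC`, `ffa_seamADD`, `ffq_seamGAL`.
`ff_local_of_inst : ff_SeamINST N ℓ k → ff_SeamLocal N ℓ k` (for S32).
-/
import Mathlib
import Fermat.Agent.FF.Final
import Fermat.Agent.FF.Add.Closed

set_option autoImplicit false

namespace Fermat.Agent.FF

open ModularCurve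

/-- the geometric seam from `[INST]` alone. -/
theorem ff_local_of_inst (N : ℕ) [NeZero N] (ℓ : ℕ) [Fact ℓ.Prime] (k : ℕ)
    (hINST : ff_SeamINST N ℓ k) : ff_SeamLocal N ℓ k :=
  ff_local_of_seams N ℓ k ffa_seamADD ffq_seamGAL hINST

/-- **S19 from the last remaining seam** `[INST]`. -/
theorem ff_S19_of_inst (p : ℕ) [NeZero p] (ℓ : ℕ) [Fact ℓ.Prime] (hℓp : ¬ ℓ ∣ p) (k : ℕ)
    (hINST : ff_SeamINST p ℓ k) :
    ∃ (H : Type) (_ : CommRing H) (_ : HopfAlgebra (GaloisRep.ratLocalizedAt ℓ) H),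
      Module.Finite (GaloisRep.ratLocalizedAt ℓ) H ∧ Module.Flat (GaloisRep.ratLocalizedAt ℓ) H ∧
      Coalgebra.IsCocomm (GaloisRep.ratLocalizedAt ℓ) H ∧
      ∃ e : WithConv (H →ₐ[GaloisRep.ratLocalizedAt ℓ] AlgebraicClosure ℚ) ≃
          ↥(Submodule.torsionBy ℤ (JZero p) ((ℓ : ℤ) ^ k)),
        (∀ f g, e (f * g) = e f + e g) ∧
        ∀ (σ : AlgebraicClosure ℚ ≃ₐ[ℚ] AlgebraicClosure ℚ)
          (f g : WithConv (H →ₐ[GaloisRep.ratLocalizedAt ℓ] AlgebraicClosure ℚ)),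
          (∀ h : H, g h = σ (f h)) → ((e g : JZero p)) = σ • (e f : JZero p) :=
  ff_S19_of_res_inst p ℓ hℓp k ffa_seamRES hINST

end Fermat.Agent.FF
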