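/-
Project FF (S19), cell [GAL]: `ff_SeamGAL`, abstract Galois theory of equivariant function algebras.

Let `L₁ ⊆ Q̄`, `G = Gal(Q̄/L₁)`, `A` a valuation subring of `Q̄`, `O → Q̄` a DVR with image `A ∩ L₁`,
`M` a finite `G_ℚ`-module, `H` an `O`-algebra of `A`-valued `G`-equivariant functions `M → Q̄`.  Then
(1) `H` is a finite `O`-module, (2) `O`-independent families in `H` are `Q̄`-independent,
(3) every maximal ideal of `H` is `{φ | φ z ∈ 𝔪_A}` for some `z`.

Route (uniform, also for the degenerate `A = ⊤`):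
* `ffq_mem_of_fixed`  : `Q̄^G = L₁` (infinite Galois theory);
* `ffq_coeff_mem`     : coefficients of an equivariant function w.r.t. a `Q̄`-independent equivariant
                        family lie in `L₁`;
* `ffq_indep_descent` : (Artin) `L₁`-independent equivariant families are `Q̄`-independent;
* `ffq_common_denom`  : common denominators in a valuation ring;
* (1): `a₀ · H ⊆ Σ O φ_j` for a `Q̄`-basis `φ_j ∈ H` of `Q̄ H` and some `a₀ ∈ ℤ ∖ 0`;
* (3): `H' :=` all `A`-valued equivariant functions is integral over `O` (the polynomial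
  `∏_{s ∈ ψ(M)} (X - s)`), its maximal ideals are the `𝔪'_z` (prime avoidance + inverses), lying over.
Prefix `ffq_`.
-/
import Mathlib
import Fermat.Agent.FF.SeamsGeom

set_option autoImplicit false
set_option linter.style.haveILetI false
set_option linter.unusedSectionVars false

noncomputable section

open Polynomial

namespace Fermat.Agent.FF

theorem ffq_isGalois : IsGalois ℚ ff_Qb := by
  haveI : Algebra.IsAlgebraic ℚ ff_Qb := AlgebraicClosure.isAlgebraic ℚ
  haveI : IsAlgClosure ℚ ff_Qb := ⟨inferInstance, inferInstance⟩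
  exact IsAlgClosure.isGalois ℚ ff_Qb

/-- `Q̄^{Gal(Q̄/L₁)} = L₁`. -/
theorem ffq_mem_of_fixed (L₁ : IntermediateField ℚ ff_Qb) {y : ff_Qb}
    (h : ∀ σ ∈ L₁.fixingSubgroup, σ y = y) : y ∈ L₁ := by
  haveI := ffq_isGalois
  have h1 := InfiniteGalois.fixedField_fixingSubgroup L₁
  rw [← h1]
  exact (IntermediateField.mem_fixedField_iff _ _).2 h

/-- integral elements lie in every valuation subring -/
theorem ffq_mem_of_isIntegral (A : ValuationSubring ff_Qb) {x : ff_Qb} (hx : IsIntegral ℤ x) :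
    x ∈ A := by
  have h1 : IsIntegral A x := hx.tower_top
  obtain ⟨y, hy⟩ := IsIntegrallyClosed.isIntegral_iff.1 h1
  rw [← hy]
  exact y.2

/-- for `d ≠ 0` in `Q̄` there is a nonzero integer `a₀` with `a₀ / d` integral, hence in `A`. -/
theorem ffq_exists_int_div (A : ValuationSubring ff_Qb) (d : ff_Qb) :
    ∃ a₀ : ℤ, a₀ ≠ 0 ∧ (a₀ : ff_Qb) * d⁻¹ ∈ A := by
  have halgQ : IsAlgebraic ℚ d⁻¹ := (AlgebraicClosure.isAlgebraic ℚ).isAlgebraic _
  have halg : IsAlgebraic ℤ d⁻¹ := (IsFractionRing.isAlgebraic_iff ℤ ℚ ff_Qb).2 halgQ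
  obtain ⟨y, hy0, hy⟩ := halg.exists_integral_multiple
  refine ⟨y, hy0, ?_⟩
  have := ffq_mem_of_isIntegral A hy
  rwa [zsmul_eq_mul] at this

/-- common denominators in a valuation ring, inside a subfield -/
theorem ffq_common_denom (A : ValuationSubring ff_Qb) (L₁ : IntermediateField ℚ ff_Qb)
    {κ : Type*} (s : Finset κ) (c : κ → ff_Qb) (hc : ∀ i ∈ s, c i ∈ L₁) :
    ∃ d : ff_Qb, d ∈ A ∧ d ∈ L₁ ∧ d ≠ 0 ∧ ∀ i ∈ s, d * c i ∈ A := by
  classical
  induction s using Finset.induction_on with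
  | empty => exact ⟨1, A.one_mem, L₁.one_mem, one_ne_zero, by simp⟩
  | insert a s ha ih =>
    obtain ⟨d, hdA, hdL, hd0, hd⟩ := ih (fun i hi => hc i (Finset.mem_insert_of_mem hi))
    by_cases h : d * c a ∈ A
    · refine ⟨d, hdA, hdL, hd0, ?_⟩
      intro i hi
      rcases Finset.mem_insert.1 hi with rfl | hi
      · exact h
      · exact hd i hi
    · have hinv : (d * c a)⁻¹ ∈ A := (A.mem_or_inv_mem (d * c a)).resolve_left h
      have hca : c a ∈ L₁ := hc a (Finset.mem_insert_self a s)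
      have hne : d * c a ≠ 0 := fun h0 => h (h0 ▸ A.zero_mem)
      refine ⟨d * (d * c a)⁻¹, A.mul_mem _ _ hdA hinv,
        L₁.mul_mem hdL (L₁.inv_mem (L₁.mul_mem hdL hca)),
        mul_ne_zero hd0 (inv_ne_zero hne), ?_⟩
      intro i hi
      rcases Finset.mem_insert.1 hi with rfl | hi
      · have : d * (d * c i)⁻¹ * c i = 1 := by
          have : d * (d * c i)⁻¹ * c i = (d * c i) * (d * c i)⁻¹ := by ring
          rw [this, mul_inv_cancel₀ hne]
        rw [this]; exact A.one_mem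
      · have : d * (d * c a)⁻¹ * c i = (d * c i) * (d * c a)⁻¹ := by ring
        rw [this]; exact A.mul_mem _ _ (hd i hi) hinv

/-! ### Galois descent for equivariant functions -/

section Descent

variable {M : Type} [AddCommGroup M] [DistribMulAction ff_GQ M]
  (L₁ : IntermediateField ℚ ff_Qb)

/-- `φ : M → Q̄` is `Gal(Q̄/L₁)`-equivariant -/
def ffq_Eq (φ : M → ff_Qb) : Prop :=
  ∀ σ ∈ L₁.fixingSubgroup, ∀ x : M, φ (σ • x) = σ (φ x)

variable {L₁}

theorem ffq_Eq.apply_inv {φ : M → ff_Qb} (hφ : ffq_Eq L₁ φ) {σ : ff_GQ}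
    (hσ : σ ∈ L₁.fixingSubgroup) (x : M) : σ (φ (σ⁻¹ • x)) = φ x := by
  rw [← hφ σ hσ, smul_inv_smul]

/-- applying `σ` to the coefficients of a relation between equivariant functions -/
theorem ffq_sum_conj {ι : Type} [Fintype ι] (e : ι → M → ff_Qb) (heq : ∀ i, ffq_Eq L₁ (e i))
    (c : ι → ff_Qb) {σ : ff_GQ} (hσ : σ ∈ L₁.fixingSubgroup) (x : M) :
    ∑ i, σ (c i) * e i x = σ (∑ i, c i * e i (σ⁻¹ • x)) := by
  rw [map_sum]
  refine Finset.sum_congr rfl fun i _ => ?_
  rw [map_mul, (heq i).apply_inv hσ]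

/-- **(D1)** the coefficients of an equivariant function with respect to a `Q̄`-independent
equivariant family lie in `L₁`. -/
theorem ffq_coeff_mem {ι : Type} [Fintype ι] (e : ι → M → ff_Qb) (heq : ∀ i, ffq_Eq L₁ (e i))
    (hind : ∀ c : ι → ff_Qb, (∀ x, ∑ i, c i * e i x = 0) → c = 0)
    (φ : M → ff_Qb) (hφ : ffq_Eq L₁ φ) (c : ι → ff_Qb) (hc : ∀ x, φ x = ∑ i, c i * e i x)
    (i : ι) : c i ∈ L₁ := by
  apply ffq_mem_of_fixed
  intro σ hσ
  have h0 := hind (fun j => σ (c j) - c j) (by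
    intro x
    have h1 : ∑ j, (σ (c j) - c j) * e j x = ∑ j, σ (c j) * e j x - ∑ j, c j * e j x := by
      rw [← Finset.sum_sub_distrib]
      exact Finset.sum_congr rfl fun j _ => by ring
    rw [h1, ffq_sum_conj e heq c hσ, ← hc, ← hc, hφ.apply_inv hσ, sub_self])
  exact sub_eq_zero.1 (congrFun h0 i)

/-- **(D2)** (Artin) `L₁`-linearly independent equivariant functions are `Q̄`-linearly
independent. -/
theorem ffq_indep_descent {ι : Type} [Fintype ι] (e : ι → M → ff_Qb)
    (heq : ∀ i, ffq_Eq L₁ (e i))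
    (hL : ∀ c : ι → ff_Qb, (∀ i, c i ∈ L₁) → (∀ x, ∑ i, c i * e i x = 0) → c = 0) :
    ∀ c : ι → ff_Qb, (∀ x, ∑ i, c i * e i x = 0) → c = 0 := by
  classical
  have key : ∀ n : ℕ, ∀ c : ι → ff_Qb, (Finset.univ.filter fun i => c i ≠ 0).card = n →
      (∀ x, ∑ i, c i * e i x = 0) → c = 0 := by
    intro n
    induction n using Nat.strong_induction_on with
    | _ n ih =>
      intro c hcard hrel
      by_contra hc
      obtain ⟨i₀, hi₀⟩ : ∃ i₀, c i₀ ≠ 0 := by
        by_contra hcon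
        push Not at hcon
        exact hc (funext hcon)
      set c' : ι → ff_Qb := fun i => (c i₀)⁻¹ * c i with hc'
      have hc'i₀ : c' i₀ = 1 := inv_mul_cancel₀ hi₀
      have hrel' : ∀ x, ∑ i, c' i * e i x = 0 := by
        intro x
        have : ∑ i, c' i * e i x = (c i₀)⁻¹ * ∑ i, c i * e i x := by
          rw [Finset.mul_sum]
          refine Finset.sum_congr rfl fun i _ => ?_
          simp only [hc']
          ring
        rw [this, hrel x, mul_zero]
      have hsupp' : (Finset.univ.filter fun i => c' i ≠ 0) =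
          Finset.univ.filter fun i => c i ≠ 0 := by
        ext i
        simp only [Finset.mem_filter, Finset.mem_univ, true_and, hc']
        constructor
        · intro h h0
          exact h (by rw [h0, mul_zero])
        · intro h
          exact mul_ne_zero (inv_ne_zero hi₀) h
      have hinv : ∀ σ ∈ L₁.fixingSubgroup, ∀ i, σ (c' i) = c' i := by
        intro σ hσ
        set d : ι → ff_Qb := fun i => σ (c' i) - c' i with hd
        have hdrel : ∀ x, ∑ i, d i * e i x = 0 := by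
          intro x
          have h2 : ∑ i, d i * e i x = ∑ i, σ (c' i) * e i x - ∑ i, c' i * e i x := by
            rw [← Finset.sum_sub_distrib]
            refine Finset.sum_congr rfl fun i _ => ?_
            simp only [hd]
            ring
          rw [h2, ffq_sum_conj e heq c' hσ, hrel' (σ⁻¹ • x), hrel' x, map_zero, sub_zero]
        have hdsub : (Finset.univ.filter fun i => d i ≠ 0) ⊂
            Finset.univ.filter fun i => c' i ≠ 0 := by
          rw [Finset.ssubset_iff_of_subset]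
          · refine ⟨i₀, ?_, ?_⟩
            · simp only [Finset.mem_filter, Finset.mem_univ, true_and]
              rw [hc'i₀]
              exact one_ne_zero
            · simp only [Finset.mem_filter, Finset.mem_univ, true_and, not_not, hd]
              rw [hc'i₀, map_one, sub_self]
          · intro i
            simp only [Finset.mem_filter, Finset.mem_univ, true_and, hd]
            intro h h0
            apply h
            rw [h0, map_zero, sub_zero]
        have hlt : (Finset.univ.filter fun i => d i ≠ 0).card < n := by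
          rw [← hcard, ← hsupp']
          exact Finset.card_lt_card hdsub
        have hd0 := ih _ hlt d rfl hdrel
        intro i
        have := congrFun hd0 i
        simp only [hd, Pi.zero_apply] at this
        exact sub_eq_zero.1 this
      have hmem : ∀ i, c' i ∈ L₁ := fun i => ffq_mem_of_fixed L₁ (fun σ hσ => hinv σ hσ i)
      have h0 := hL c' hmem hrel'
      have : c' i₀ = 0 := congrFun h0 i₀
      rw [hc'i₀] at this
      exact one_ne_zero this
  intro c hrel
  exact key _ c rfl hrel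

end Descent

/-! ### the three clauses of `ff_SeamGAL` -/

section Seam

variable (A : ValuationSubring ff_Qb) (L₁ : IntermediateField ℚ ff_Qb)
  (O : Type) [CommRing O] [IsDomain O] [IsDiscreteValuationRing O] [Algebra O ff_Qb]
  (hO : Set.range (algebraMap O ff_Qb) = (A : Set ff_Qb) ∩ (L₁ : Set ff_Qb))
  (M : Type) [AddCommGroup M] [Finite M] [DistribMulAction ff_GQ M]
  (H : Subalgebra O (M → ff_Qb))
  (hHA : ∀ φ ∈ H, ∀ x : M, φ x ∈ A)
  (hHeq : ∀ φ ∈ H, ffq_Eq L₁ φ)

include hO in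
theorem ffq_exists_of_mem {y : ff_Qb} (hA : y ∈ A) (hL : y ∈ L₁) :
    ∃ o : O, algebraMap O ff_Qb o = y := by
  have : y ∈ Set.range (algebraMap O ff_Qb) := by
    rw [hO]; exact ⟨hA, hL⟩
  exact this

theorem ffq_smul_apply (o : O) (φ : M → ff_Qb) (x : M) :
    (o • φ) x = algebraMap O ff_Qb o * φ x := by
  rw [Pi.smul_apply, Algebra.smul_def]

include hO hHeq in
/-- clause (2): `O`-independent families in `H` are `Q̄`-independent -/
theorem ffq_indep (ι : Type) [Fintype ι] (φ : ι → M → ff_Qb) (hφ : ∀ j, φ j ∈ H)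
    (hli : LinearIndependent O φ) : LinearIndependent ff_Qb φ := by
  classical
  rw [Fintype.linearIndependent_iff]
  intro g hg
  have hrel : ∀ x, ∑ i, g i * φ i x = 0 := by
    intro x
    have := congrFun hg x
    simpa [Finset.sum_apply, smul_eq_mul] using this
  have h0 := ffq_indep_descent φ (fun i => hHeq _ (hφ i)) (by
    intro c hc hcrel
    obtain ⟨d, hdA, hdL, hd0, hd⟩ := ffq_common_denom A L₁ Finset.univ c (fun i _ => hc i)
    have hex : ∀ i, ∃ o : O, algebraMap O ff_Qb o = d * c i := fun i =>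
      ffq_exists_of_mem A L₁ O hO (hd i (Finset.mem_univ i)) (L₁.mul_mem hdL (hc i))
    choose o ho using hex
    have hsum : ∑ i, o i • φ i = 0 := by
      funext x
      rw [Finset.sum_apply, Pi.zero_apply]
      have : ∀ i, (o i • φ i) x = d * (c i * φ i x) := by
        intro i
        rw [ffq_smul_apply, ho, mul_assoc]
      simp only [this]
      rw [← Finset.mul_sum, hcrel x, mul_zero]
    have ho0 := Fintype.linearIndependent_iff.1 hli o hsum
    funext i
    have h1 : d * c i = 0 := by rw [← ho i, ho0 i, map_zero]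
    exact (mul_eq_zero.1 h1).resolve_left hd0) g hrel
  exact fun i => congrFun h0 i

/-! #### the algebra `H'` of all `A`-valued equivariant functions -/

include hO in
/-- all `A`-valued `Gal(Q̄/L₁)`-equivariant functions on `M` -/
def ffq_Hmax : Subalgebra O (M → ff_Qb) where
  carrier := {ψ | (∀ x, ψ x ∈ A) ∧ ffq_Eq L₁ ψ}
  mul_mem' := by
    rintro a b ⟨ha1, ha2⟩ ⟨hb1, hb2⟩
    refine ⟨fun x => A.mul_mem _ _ (ha1 x) (hb1 x), fun σ hσ x => ?_⟩
    rw [Pi.mul_apply, Pi.mul_apply, ha2 σ hσ, hb2 σ hσ, map_mul]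
  add_mem' := by
    rintro a b ⟨ha1, ha2⟩ ⟨hb1, hb2⟩
    refine ⟨fun x => A.add_mem _ _ (ha1 x) (hb1 x), fun σ hσ x => ?_⟩
    rw [Pi.add_apply, Pi.add_apply, ha2 σ hσ, hb2 σ hσ, map_add]
  algebraMap_mem' := by
    intro o
    have hmem : algebraMap O ff_Qb o ∈ (A : Set ff_Qb) ∩ (L₁ : Set ff_Qb) := by
      rw [← hO]; exact ⟨o, rfl⟩
    refine ⟨fun x => hmem.1, fun σ hσ x => ?_⟩
    show algebraMap O ff_Qb o = σ (algebraMap O ff_Qb o)
    exact ((IntermediateField.mem_fixingSubgroup_iff L₁ σ).1 hσ _ hmem.2).symm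

theorem ffq_mem_Hmax {ψ : M → ff_Qb} :
    ψ ∈ ffq_Hmax A L₁ O hO M ↔ (∀ x, ψ x ∈ A) ∧ ffq_Eq L₁ ψ := Iff.rfl

include hHA hHeq in
theorem ffq_le_Hmax : H ≤ ffq_Hmax A L₁ O hO M := fun φ hφ => ⟨hHA φ hφ, hHeq φ hφ⟩

/-- every element of `H'` is integral over `O`: it is killed by `∏_{s ∈ ψ(M)} (X - s)`. -/
theorem ffq_isIntegral_of_mem_Hmax {ψ : M → ff_Qb} (hψ : ψ ∈ ffq_Hmax A L₁ O hO M) :
    IsIntegral O ψ := by
  classical
  haveI : Fintype M := Fintype.ofFinite M
  obtain ⟨hψA, hψeq⟩ := hψ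
  set S : Finset ff_Qb := Finset.univ.image ψ with hS
  set P : ff_Qb[X] := ∏ s ∈ S, (X - C s) with hP
  have hmonic : P.Monic := Polynomial.monic_prod_of_monic _ _ (fun s _ => monic_X_sub_C s)
  -- coefficients in `A`
  have hPA : P ∈ Polynomial.lifts A.subtype := by
    rw [hP]
    refine Subsemiring.prod_mem _ (fun s hs => ?_)
    obtain ⟨x, -, rfl⟩ := Finset.mem_image.1 hs
    rw [Polynomial.mem_lifts]
    exact ⟨X - C ⟨ψ x, hψA x⟩, by simp⟩
  have hcoeffA : ∀ n, P.coeff n ∈ A := by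
    intro n
    obtain ⟨a, ha⟩ := (Polynomial.lifts_iff_coeff_lifts P).1 hPA n
    rw [← ha]; exact a.2
  -- coefficients in `L₁`
  have hcoeffL : ∀ n, P.coeff n ∈ L₁ := by
    intro n
    apply ffq_mem_of_fixed
    intro σ hσ
    have himg : S.image σ = S := by
      apply Finset.eq_of_subset_of_card_le
      · intro y hy
        obtain ⟨s, hs, rfl⟩ := Finset.mem_image.1 hy
        obtain ⟨x, -, rfl⟩ := Finset.mem_image.1 hs
        rw [← hψeq σ hσ]
        exact Finset.mem_image_of_mem _ (Finset.mem_univ _)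
      · rw [Finset.card_image_of_injective _ σ.injective]
    have hmap : P.map (σ : ff_Qb →+* ff_Qb) = P := by
      rw [hP, Polynomial.map_prod]
      have h1 : ∀ s ∈ S, (X - C s : ff_Qb[X]).map (σ : ff_Qb →+* ff_Qb) = X - C (σ s) := by
        intro s _
        simp
      rw [Finset.prod_congr rfl h1]
      conv_rhs => rw [← himg]
      rw [Finset.prod_image (fun a _ b _ h => σ.injective h)]
    have := congrArg (fun p => p.coeff n) hmap
    simpa [Polynomial.coeff_map] using this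
  have hPO : P ∈ Polynomial.lifts (algebraMap O ff_Qb) := by
    rw [Polynomial.lifts_iff_coeff_lifts]
    intro n
    rw [hO]
    exact ⟨hcoeffA n, hcoeffL n⟩
  obtain ⟨q, hq, -, hqmonic⟩ := Polynomial.lifts_and_degree_eq_and_monic hPO hmonic
  refine ⟨q, hqmonic, ?_⟩
  funext x
  have h1 := Polynomial.hom_eval₂ q (algebraMap O (M → ff_Qb)) (Pi.evalRingHom (fun _ => ff_Qb) x) ψ
  have h2 : (Pi.evalRingHom (fun _ : M => ff_Qb) x).comp (algebraMap O (M → ff_Qb)) =
      algebraMap O ff_Qb := rfl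
  rw [h2] at h1
  show (Pi.evalRingHom (fun _ : M => ff_Qb) x) (eval₂ (algebraMap O (M → ff_Qb)) ψ q) = 0
  rw [h1, Polynomial.eval₂_eq_eval_map, hq, hP, Polynomial.eval_prod]
  apply Finset.prod_eq_zero (Finset.mem_image_of_mem ψ (Finset.mem_univ x))
  simp

/-- evaluation at `z`, with values in `A` -/
def ffq_ev (z : M) : ↥(ffq_Hmax A L₁ O hO M) →+* A where
  toFun ψ := ⟨(ψ : M → ff_Qb) z, ψ.2.1 z⟩
  map_one' := rfl
  map_mul' _ _ := rfl
  map_zero' := rfl
  map_add' _ _ := rfl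

/-- evaluation at `z` followed by the residue map of `A` -/
def ffq_rho (z : M) : ↥(ffq_Hmax A L₁ O hO M) →+* IsLocalRing.ResidueField A :=
  (IsLocalRing.residue A).comp (ffq_ev A L₁ O hO M z)

theorem ffq_mem_ker_rho (z : M) (ψ : ↥(ffq_Hmax A L₁ O hO M)) :
    ψ ∈ RingHom.ker (ffq_rho A L₁ O hO M z) ↔ (ψ : M → ff_Qb) z ∈ A.nonunits := by
  rw [RingHom.mem_ker]
  show IsLocalRing.residue A (ffq_ev A L₁ O hO M z ψ) = 0 ↔ _
  rw [IsLocalRing.residue_eq_zero_iff, ← ValuationSubring.coe_mem_nonunits_iff]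
  rfl

/-- the maximal ideals of `H'` are the `𝔪'_z`. -/
theorem ffq_maximal_Hmax (Q : Ideal ↥(ffq_Hmax A L₁ O hO M)) (hQ : Q.IsMaximal) :
    ∃ z : M, Q = RingHom.ker (ffq_rho A L₁ O hO M z) := by
  classical
  haveI : Fintype M := Fintype.ofFinite M
  by_contra hne
  push Not at hne
  have hnle : ∀ z : M, ¬ Q ≤ RingHom.ker (ffq_rho A L₁ O hO M z) := by
    intro z hle
    exact hne z (hQ.eq_of_le (RingHom.ker_ne_top _) hle)
  have hnot : ¬ ((Q : Set ↥(ffq_Hmax A L₁ O hO M)) ⊆
      ⋃ z ∈ ((Finset.univ : Finset M) : Set M), (RingHom.ker (ffq_rho A L₁ O hO M z) : Set _)) := by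
    intro hsub
    obtain ⟨z, -, hz⟩ := (Ideal.subset_union_prime (s := (Finset.univ : Finset M))
      (f := fun z => RingHom.ker (ffq_rho A L₁ O hO M z)) (0 : M) (0 : M)
      (fun z _ _ _ => RingHom.ker_isPrime _)).1 hsub
    exact hnle z hz
  rw [Set.not_subset] at hnot
  obtain ⟨ψ, hψQ, hψ⟩ := hnot
  have hunit : ∀ z : M, (ψ : M → ff_Qb) z ∉ A.nonunits := by
    intro z hz
    apply hψ
    simp only [Set.mem_iUnion]
    exact ⟨z, Finset.mem_coe.2 (Finset.mem_univ z), (ffq_mem_ker_rho A L₁ O hO M z ψ).2 hz⟩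
  -- the pointwise inverse of `ψ` lies in `H'`
  have hne0 : ∀ z : M, (ψ : M → ff_Qb) z ≠ 0 := by
    intro z h0
    apply hunit z
    rw [h0]
    exact A.nonunits.zero_mem
  have hinvA : ∀ z : M, ((ψ : M → ff_Qb) z)⁻¹ ∈ A := by
    intro z
    by_contra h
    apply hunit z
    exact (ValuationSubring.mem_nonunits_iff_or (A := A)).2 (Or.inr h)
  let ψinv : ↥(ffq_Hmax A L₁ O hO M) := ⟨fun z => ((ψ : M → ff_Qb) z)⁻¹, hinvA, by
    intro σ hσ x
    show ((ψ : M → ff_Qb) (σ • x))⁻¹ = σ (((ψ : M → ff_Qb) x)⁻¹)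
    rw [ψ.2.2 σ hσ x, map_inv₀]⟩
  have hmul : ψ * ψinv = 1 := by
    apply Subtype.ext
    funext z
    show (ψ : M → ff_Qb) z * ((ψ : M → ff_Qb) z)⁻¹ = 1
    exact mul_inv_cancel₀ (hne0 z)
  have h1 : (1 : ↥(ffq_Hmax A L₁ O hO M)) ∈ Q := by
    rw [← hmul]; exact Q.mul_mem_right _ hψQ
  exact hQ.ne_top ((Ideal.eq_top_iff_one Q).2 h1)

include hO hHA hHeq in
/-- clause (3): every maximal ideal of `H` is `{φ | φ z ∈ 𝔪_A}` for some `z`. -/
theorem ffq_maximal (𝔪 : Ideal ↥H) (h𝔪 : 𝔪.IsMaximal) :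
    ∃ z : M, ∀ φ : ↥H, φ ∈ 𝔪 ↔ (φ : M → ff_Qb) z ∈ A.nonunits := by
  classical
  have hle := ffq_le_Hmax A L₁ O hO M H hHA hHeq
  let j : ↥H →ₐ[O] ↥(ffq_Hmax A L₁ O hO M) := Subalgebra.inclusion hle
  letI : Algebra ↥H ↥(ffq_Hmax A L₁ O hO M) := j.toRingHom.toAlgebra
  haveI : IsScalarTower O ↥H ↥(ffq_Hmax A L₁ O hO M) :=
    IsScalarTower.of_algebraMap_eq (fun o => (j.commutes o).symm)
  haveI : Algebra.IsIntegral ↥H ↥(ffq_Hmax A L₁ O hO M) := ⟨fun ψ => by
    have h1 : IsIntegral O (ψ : M → ff_Qb) := ffq_isIntegral_of_mem_Hmax A L₁ O hO M ψ.2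
    have h2 : IsIntegral O ψ :=
      (isIntegral_algHom_iff (ffq_Hmax A L₁ O hO M).val Subtype.val_injective).1 h1
    exact h2.tower_top⟩
  have hker : RingHom.ker (algebraMap ↥H ↥(ffq_Hmax A L₁ O hO M)) ≤ 𝔪 := by
    have : RingHom.ker (algebraMap ↥H ↥(ffq_Hmax A L₁ O hO M)) = ⊥ :=
      (RingHom.injective_iff_ker_eq_bot _).1 (Subalgebra.inclusion_injective hle)
    rw [this]; exact bot_le
  obtain ⟨Q, hQmax, hQ⟩ := Ideal.exists_ideal_over_maximal_of_isIntegral 𝔪 hker
  obtain ⟨z, hz⟩ := ffq_maximal_Hmax A L₁ O hO M Q hQmax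
  refine ⟨z, fun φ => ?_⟩
  rw [← hQ, Ideal.mem_comap, hz, ffq_mem_ker_rho]
  rfl

include hO hHA hHeq in
/-- clause (1): `H` is a finite `O`-module. -/
theorem ffq_finite : Module.Finite O ↥H := by
  classical
  haveI : Fintype M := Fintype.ofFinite M
  -- a `Q̄`-basis of `Q̄ H` inside `H`
  obtain ⟨b, hbH, hbspan, hbli⟩ := exists_linearIndependent ff_Qb (H : Set (M → ff_Qb))
  haveI : Finite b := hbli.finite
  haveI : Fintype b := Fintype.ofFinite b
  set e : b → M → ff_Qb := fun i => (i : M → ff_Qb) with he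
  have hli : LinearIndependent ff_Qb e := hbli
  have heH : ∀ i, e i ∈ H := fun i => hbH i.2
  have hind : ∀ c : b → ff_Qb, (∀ x, ∑ i, c i * e i x = 0) → c = 0 := by
    intro c hc
    funext i
    refine Fintype.linearIndependent_iff.1 hli c ?_ i
    funext x
    rw [Finset.sum_apply, Pi.zero_apply, ← hc x]
    exact Finset.sum_congr rfl fun i _ => by rw [Pi.smul_apply, smul_eq_mul]
  -- the coordinate map
  set T : (b → ff_Qb) →ₗ[ff_Qb] (M → ff_Qb) := Fintype.linearCombination ff_Qb e with hT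
  have hTker : LinearMap.ker T = ⊥ := by
    rw [LinearMap.ker_eq_bot']
    intro c hc
    rw [hT, Fintype.linearCombination_apply] at hc
    funext i
    exact Fintype.linearIndependent_iff.1 hli c hc i
  obtain ⟨Sinv, hS⟩ := LinearMap.exists_leftInverse_of_injective T hTker
  set lam : b → M → ff_Qb := fun i x => Sinv (fun j => if x = j then 1 else 0) i with hlam
  have hSinv : ∀ (φ : M → ff_Qb) (i : b), Sinv φ i = ∑ x, φ x * lam i x := by
    intro φ i
    rw [LinearMap.pi_apply_eq_sum_univ Sinv φ, Finset.sum_apply]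
    exact Finset.sum_congr rfl fun x _ => by rw [Pi.smul_apply, smul_eq_mul]
  -- common denominator of the `lam`
  obtain ⟨d, hdA, -, hd0, hd⟩ := ffq_common_denom A ⊤ (Finset.univ : Finset (b × M))
    (fun p => lam p.1 p.2) (fun _ _ => IntermediateField.mem_top)
  obtain ⟨a₀, ha₀, ha₀d⟩ := ffq_exists_int_div A d
  have ha₀Q : (a₀ : ff_Qb) ≠ 0 := by exact_mod_cast ha₀
  -- `a₀ · H ⊆ Σ O e_i`
  have key : ∀ φ ∈ H, ((a₀ : O)) • φ ∈ Submodule.span O (Set.range e) := by
    intro φ hφ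
    have hφspan : φ ∈ Submodule.span ff_Qb (Set.range e) := by
      have : Set.range e = b := Subtype.range_val
      rw [this, hbspan]
      exact Submodule.subset_span hφ
    obtain ⟨c, hc⟩ := (Submodule.mem_span_range_iff_exists_fun ff_Qb).1 hφspan
    have hcφ : ∀ x, φ x = ∑ i, c i * e i x := by
      intro x
      rw [← hc, Finset.sum_apply]
      exact Finset.sum_congr rfl fun i _ => by rw [Pi.smul_apply, smul_eq_mul]
    have hcS : Sinv φ = c := by
      have h1 : T c = φ := by rw [hT, Fintype.linearCombination_apply]; exact hc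
      rw [← h1]
      exact LinearMap.congr_fun hS c
    have hcL : ∀ i, c i ∈ L₁ :=
      ffq_coeff_mem e (fun i => hHeq _ (heH i)) hind φ (hHeq φ hφ) c hcφ
    have hcA : ∀ i, (a₀ : ff_Qb) * c i ∈ A := by
      intro i
      rw [← hcS, hSinv, Finset.mul_sum]
      refine Subring.sum_mem A.toSubring (fun x _ => ?_)
      have h2 : (a₀ : ff_Qb) * (φ x * lam i x) =
          ((a₀ : ff_Qb) * d⁻¹) * (φ x * (d * lam i x)) := by
        field_simp
      rw [h2]
      exact A.mul_mem _ _ ha₀d (A.mul_mem _ _ (hHA φ hφ x) (hd (i, x) (Finset.mem_univ _)))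
    have hex : ∀ i, ∃ o : O, algebraMap O ff_Qb o = (a₀ : ff_Qb) * c i := fun i =>
      ffq_exists_of_mem A L₁ O hO (hcA i) (L₁.mul_mem (intCast_mem L₁ a₀) (hcL i))
    choose o ho using hex
    have hsum : ((a₀ : O)) • φ = ∑ i, o i • e i := by
      funext x
      rw [ffq_smul_apply, map_intCast, Finset.sum_apply, hcφ x, Finset.mul_sum]
      refine Finset.sum_congr rfl fun i _ => ?_
      rw [ffq_smul_apply, ho i, mul_assoc]
    rw [hsum]
    exact Submodule.sum_mem _ (fun i _ => Submodule.smul_mem _ _ (Submodule.subset_span ⟨i, rfl⟩))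
  -- conclude
  set N : Submodule O (M → ff_Qb) := Submodule.span O (Set.range e) with hN
  haveI : IsNoetherian O ↥N :=
    isNoetherian_of_fg_of_noetherian N (Submodule.fg_span (Set.finite_range e))
  let f : ↥H →ₗ[O] (M → ff_Qb) :=
    (LinearMap.lsmul O (M → ff_Qb) (a₀ : O)).comp H.val.toLinearMap
  have hf : ∀ φ : ↥H, f φ ∈ N := fun φ => key φ φ.2
  let μ : ↥H →ₗ[O] ↥N := LinearMap.codRestrict N f hf
  have hμ : Function.Injective μ := by
    intro φ φ' h
    have h1 : ((a₀ : O)) • (φ : M → ff_Qb) = ((a₀ : O)) • (φ' : M → ff_Qb) :=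
      congrArg Subtype.val h
    apply Subtype.ext
    funext x
    have h2 := congrFun h1 x
    rw [ffq_smul_apply, ffq_smul_apply, map_intCast] at h2
    exact mul_left_cancel₀ ha₀Q h2
  exact Module.Finite.of_injective μ hμ

include hO hHA hHeq in
/-- **[GAL]** the three clauses together. -/
theorem ffq_seamGAL_aux :
    Module.Finite O ↥H ∧
    (∀ (ι : Type) [Fintype ι] (φ : ι → M → ff_Qb), (∀ j, φ j ∈ H) →
      LinearIndependent O φ → LinearIndependent ff_Qb φ) ∧
    (∀ 𝔪 : Ideal ↥H, 𝔪.IsMaximal → ∃ z : M, ∀ φ : ↥H,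
      φ ∈ 𝔪 ↔ (φ : M → ff_Qb) z ∈ A.nonunits) :=
  ⟨ffq_finite A L₁ O hO M H hHA hHeq,
    fun ι _ φ hφ hli => ffq_indep A L₁ O hO M H hHeq ι φ hφ hli,
    fun 𝔪 h𝔪 => ffq_maximal A L₁ O hO M H hHA hHeq 𝔪 h𝔪⟩

end Seam

/-- **[GAL]** abstract Galois theory of equivariant function algebras: the seam `ff_SeamGAL`. -/
theorem ffq_seamGAL : ff_SeamGAL := by
  intro A L₁ O _ _ _ _ hO M _ _ _ hstab H hHA hHeq
  exact ffq_seamGAL_aux A L₁ O hO M H hHA hHeq

end Fermat.Agent.FF
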