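/-
Project FF (S19/S32), leaf [GEN](i).  Prefix `ffg_`.

Generic effective divisors from Riemann's theorem alone (no canonical divisor), in the `rt_` context
(`F / K` a function field with separating generator `x` over an algebraically closed field `K`, any
characteristic; `l(D) = finrank K (riemannRochSpace D)`; `g, c` with
`hR : ∀ D, c ≤ deg D → l(D) = deg D + 1 - g`, the output of `rt_riemann`):

* `ffg_finite_jump`  : if `i(C) = l(C) - deg C - 1 + g > 0` then `l(C + v) = l(C)` for all but
                       finitely many places `v`;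
* `ffg_infinite_place` : `F / K` has infinitely many places;
* `ffg_generic`      : for a finite family `𝒞` of divisors of degree `-1` and a finite set `T` of
                       places there are `g` distinct places `P₁, …, P_g ∉ T` with
                       `l(C + P₁ + … + P_g) = 0` for all `C ∈ 𝒞`.
-/
import Mathlib
import Fermat.Agent.JT3.Riemann.Main

set_option autoImplicit false
set_option linter.unusedSectionVars false

noncomputable section

namespace Fermat.Agent.FF

open AlgebraicCurve IntermediateField Fermat.Agent.JT3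

universe u v
variable {K : Type u} {F : Type v} [Field K] [Field F] [Algebra K F]

/-- the reduced divisor `∑_{v ∈ S} v` of a finite set of places. -/
def ffg_sum (S : Finset (Place K F)) : Divisor K F := ∑ v ∈ S, Finsupp.single v (1 : ℤ)

theorem ffg_sum_apply [DecidableEq (Place K F)] (S : Finset (Place K F)) (w : Place K F) :
    ffg_sum S w = if w ∈ S then 1 else 0 := by
  classical
  rw [ffg_sum, Finsupp.finsetSum_apply]
  simp only [Finsupp.single_apply]
  rw [Finset.sum_ite_eq']

theorem ffg_sum_nonneg (S : Finset (Place K F)) : 0 ≤ ffg_sum S := by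
  classical
  rw [Finsupp.le_def]
  intro w
  rw [ffg_sum_apply, Finsupp.zero_apply]
  split_ifs <;> norm_num

theorem ffg_sum_empty : ffg_sum (∅ : Finset (Place K F)) = 0 := by
  rw [ffg_sum, Finset.sum_empty]

theorem ffg_sum_insert [DecidableEq (Place K F)] {S : Finset (Place K F)} {w : Place K F}
    (hw : w ∉ S) : ffg_sum (insert w S) = ffg_sum S + Finsupp.single w 1 := by
  rw [ffg_sum, Finset.sum_insert hw, add_comm]
  rfl

/-- a place lies over at most one finite value of `x` (any characteristic). -/
theorem ffg_fiber_disjoint (v : Place K F) {y : F} {c c' : K}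
    (h : 0 < v.ord (y - algebraMap K F c)) (h' : 0 < v.ord (y - algebraMap K F c')) :
    c = c' := by
  by_contra hne
  have hne1 : y - algebraMap K F c ≠ 0 := by
    intro h0; rw [h0] at h; simp at h
  have hne2 : -(y - algebraMap K F c') ≠ 0 := by
    intro h0; rw [neg_eq_zero] at h0; rw [h0] at h'; simp at h'
  have hsum : y - algebraMap K F c + -(y - algebraMap K F c') = algebraMap K F (c' - c) := by
    rw [map_sub]; ring
  have hcc : algebraMap K F (c' - c) ≠ 0 := by
    rw [Ne, map_eq_zero, sub_eq_zero]
    exact fun h => hne h.symm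
  have := Fermat.Agent.S24.hw_ord_add_ge v hne1 hne2 (by rw [hsum]; exact hcc)
  rw [hsum, Fermat.Agent.S24.hw_ord_algebraMap, Fermat.Agent.S24.hw_ord_neg] at this
  rcases min_le_iff.mp this with h1 | h1 <;> omega

section main

variable [IsAlgClosed K] {x : F} (hx : rt_IsSepGen K x)

include hx

theorem ffg_degree_sum (S : Finset (Place K F)) : Divisor.degree (ffg_sum S) = S.card := by
  rw [ffg_sum, map_sum]
  simp [rt_degree_single hx]

/-- `l(D + v) ≤ l(D) + 1`. -/
theorem ffg_l_add_single_le (D : Divisor K F) (v : Place K F) :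
    Module.finrank K (riemannRochSpace (D + Finsupp.single v 1)) ≤
      Module.finrank K (riemannRochSpace D) + 1 :=
  (rt_L_step_finite hx D v (rt_L_finite hx D)).2

/-- `l(D) ≤ l(D + v)`. -/
theorem ffg_l_le_add_single (D : Divisor K F) (v : Place K F) :
    Module.finrank K (riemannRochSpace D) ≤
      Module.finrank K (riemannRochSpace (D + Finsupp.single v 1)) := by
  apply rt_l_mono hx
  rw [Finsupp.le_def]
  intro w
  rw [Finsupp.add_apply]
  have : (0 : ℤ) ≤ (Finsupp.single v (1 : ℤ)) w := by
    classical
    rw [Finsupp.single_apply]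
    split_ifs <;> norm_num
  omega

/-- if `l` jumps at `w` then there is a function in `L(C + w)` with exact order `-C(w) - 1`. -/
theorem ffg_exists_of_jump (C : Divisor K F) (w : Place K F)
    (h : Module.finrank K (riemannRochSpace (C + Finsupp.single w 1)) ≠
      Module.finrank K (riemannRochSpace C)) :
    ∃ f : F, f ≠ 0 ∧ f ∈ riemannRochSpace (C + Finsupp.single w 1) ∧ w.ord f = -C w - 1 := by
  classical
  by_cases hex : ∃ g ∈ riemannRochSpace (C + Finsupp.single w 1), g ∉ riemannRochSpace C
  · obtain ⟨g, hg1, hg2⟩ := hex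
    have hg0 : g ≠ 0 := fun h => hg2 (h ▸ zero_mem _)
    refine ⟨g, hg0, hg1, ?_⟩
    rw [rt_mem_L_iff hg0] at hg1 hg2
    push Not at hg2
    obtain ⟨v, hv⟩ := hg2
    have h1 := hg1 v
    by_cases hvw : v = w
    · subst hvw
      rw [Finsupp.add_apply, Finsupp.single_eq_same] at h1
      omega
    · rw [Finsupp.add_apply, Finsupp.single_eq_of_ne hvw, add_zero] at h1
      omega
  · exfalso
    push Not at hex
    apply h
    have hle : riemannRochSpace (C + Finsupp.single w 1) ≤ riemannRochSpace C := hex
    have hge : riemannRochSpace C ≤ riemannRochSpace (C + Finsupp.single w 1) := by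
      apply rt_L_mono
      rw [Finsupp.le_def]
      intro v
      rw [Finsupp.add_apply, Finsupp.single_apply]
      split_ifs <;> omega
    rw [le_antisymm hle hge]

/-- a jump of `l` at `w` for `C` persists for every `D ≥ C` with the same multiplicity at `w`. -/
theorem ffg_jump_mono (C D : Divisor K F) (w : Place K F) (hCD : C ≤ D) (hw : D w = C w)
    (h : Module.finrank K (riemannRochSpace (C + Finsupp.single w 1)) ≠
      Module.finrank K (riemannRochSpace C)) :
    Module.finrank K (riemannRochSpace D) + 1 ≤
      Module.finrank K (riemannRochSpace (D + Finsupp.single w 1)) := by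
  obtain ⟨f, hf0, hf1, hf2⟩ := ffg_exists_of_jump hx C w h
  have hle : riemannRochSpace D ≤ riemannRochSpace (D + Finsupp.single w 1) := by
    apply rt_L_mono
    rw [Finsupp.le_def]
    intro v
    classical
    rw [Finsupp.add_apply, Finsupp.single_apply]
    split_ifs <;> omega
  have hfD : f ∈ riemannRochSpace (D + Finsupp.single w 1) :=
    rt_L_mono (add_le_add_left hCD _) hf1
  have hfD' : f ∉ riemannRochSpace D := by
    rw [rt_mem_L_iff hf0]
    push Not
    exact ⟨w, by rw [hf2, hw]; omega⟩
  have hlt : riemannRochSpace D < riemannRochSpace (D + Finsupp.single w 1) :=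
    lt_of_le_of_ne hle fun h => hfD' (h ▸ hfD)
  have := rt_L_finite hx (D + Finsupp.single w 1)
  have := Submodule.finrank_lt_finrank_of_lt hlt
  omega

/-- `l(C + ∑_{v ∈ S} v) ≥ l(C) + |S|` if `l` jumps at every place of `S`. -/
theorem ffg_l_sum_ge (C : Divisor K F) (S : Finset (Place K F))
    (hS : ∀ w ∈ S, Module.finrank K (riemannRochSpace (C + Finsupp.single w 1)) ≠
      Module.finrank K (riemannRochSpace C)) :
    Module.finrank K (riemannRochSpace C) + S.card ≤
      Module.finrank K (riemannRochSpace (C + ffg_sum S)) := by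
  classical
  induction S using Finset.induction_on with
  | empty => rw [ffg_sum_empty, add_zero, Finset.card_empty, add_zero]
  | insert w S hw ih =>
    have ih' := ih fun v hv => hS v (Finset.mem_insert_of_mem hv)
    have hCD : C ≤ C + ffg_sum S := le_add_of_nonneg_right (ffg_sum_nonneg S)
    have hDw : (C + ffg_sum S) w = C w := by
      rw [Finsupp.add_apply, ffg_sum_apply, if_neg hw, add_zero]
    have h1 := ffg_jump_mono hx C (C + ffg_sum S) w hCD hDw (hS w (Finset.mem_insert_self w S))
    rw [ffg_sum_insert hw, Finset.card_insert_of_notMem hw, ← add_assoc (a := C)]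
    omega

/-- **(b)** if `i(C) = l(C) - deg C - 1 + g > 0` then `l(C + v) = l(C)` for all but finitely many
places `v`. -/
theorem ffg_finite_jump (g : ℕ) (c : ℤ)
    (hR : ∀ D : Divisor K F, c ≤ Divisor.degree D →
      (Module.finrank K (riemannRochSpace D) : ℤ) = Divisor.degree D + 1 - g)
    (C : Divisor K F)
    (hi : Divisor.degree C + 1 - g < (Module.finrank K (riemannRochSpace C) : ℤ)) :
    {v : Place K F | Module.finrank K (riemannRochSpace (C + Finsupp.single v 1)) ≠
      Module.finrank K (riemannRochSpace C)}.Finite := by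
  by_contra hinf
  rw [Set.not_finite] at hinf
  -- choose `r` with `deg C + r ≥ c`
  obtain ⟨r, hr⟩ : ∃ r : ℕ, c ≤ Divisor.degree C + r := by
    refine ⟨(c - Divisor.degree C).toNat, ?_⟩
    have := Int.self_le_toNat (c - Divisor.degree C)
    omega
  obtain ⟨S, hSsub, hScard⟩ := hinf.exists_subset_card_eq r
  have h1 := ffg_l_sum_ge hx C S fun w hw => hSsub hw
  have hdeg : Divisor.degree (C + ffg_sum S) = Divisor.degree C + r := by
    rw [map_add, ffg_degree_sum hx, hScard]
  have h2 := hR (C + ffg_sum S) (by rw [hdeg]; exact hr)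
  rw [hdeg] at h2
  have h3 : (Module.finrank K (riemannRochSpace C) : ℤ) + S.card ≤
      (Module.finrank K (riemannRochSpace (C + ffg_sum S)) : ℤ) := by exact_mod_cast h1
  rw [hScard] at h3
  omega

/-- every value `c` of the separating generator is taken at some place. -/
theorem ffg_exists_zero (c : K) : ∃ v : Place K F, 0 < v.ord (x - algebraMap K F c) := by
  have hxc := hx.sub_const c
  have hdeg := rt_degree_zeroDiv hxc hxc.1
  have hfin : FiniteDimensional K⟮x - algebraMap K F c⟯ F := hxc.2.1
  have hpos : (0 : ℤ) < (Module.finrank K⟮x - algebraMap K F c⟯ F : ℤ) := by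
    exact_mod_cast Module.finrank_pos
  rw [← hdeg] at hpos
  by_contra hno
  push Not at hno
  have hz : rt_zeroDiv hxc (x - algebraMap K F c) = 0 := by
    ext v
    rw [rt_zeroDiv_apply, Finsupp.zero_apply]
    exact max_eq_right (hno v)
  rw [hz, map_zero] at hpos
  exact lt_irrefl _ hpos

/-- **(d)** a function field over an algebraically closed field has infinitely many places. -/
theorem ffg_infinite_place : Infinite (Place K F) := by
  choose P hP using ffg_exists_zero hx
  have hinj : Function.Injective P := by
    intro c c' hcc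
    have h1 := hP c
    have h2 := hP c'
    rw [← hcc] at h2
    exact ffg_fiber_disjoint (P c) h1 h2
  have : Infinite K := IsAlgClosed.instInfinite
  exact Infinite.of_injective P hinj

/-- **(c), finset form**: a finite family of divisors of degree `-1`, a finite set `T` of places
to avoid: for every `k ≤ g` there are `k` distinct places outside `T` such that
`l(C + P₁ + … + P_k) = 0` for every `C` of the family. -/
theorem ffg_generic_finset (g : ℕ) (c : ℤ)
    (hR : ∀ D : Divisor K F, c ≤ Divisor.degree D →
      (Module.finrank K (riemannRochSpace D) : ℤ) = Divisor.degree D + 1 - g)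
    (𝒞 : Finset (Divisor K F)) (h𝒞 : ∀ C ∈ 𝒞, Divisor.degree C = -1)
    (T : Finset (Place K F)) (k : ℕ) (hk : k ≤ g) :
    ∃ S : Finset (Place K F), S.card = k ∧ Disjoint S T ∧
      ∀ C ∈ 𝒞, Module.finrank K (riemannRochSpace (C + ffg_sum S)) = 0 := by
  classical
  induction k with
  | zero =>
    refine ⟨∅, rfl, Finset.disjoint_empty_left T, fun C hC => ?_⟩
    rw [ffg_sum_empty, add_zero]
    exact rt_finrank_L_of_degree_neg hx (by rw [h𝒞 C hC]; norm_num)
  | succ k ih =>
    obtain ⟨S, hScard, hST, hS⟩ := ih (Nat.le_of_succ_le hk)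
    -- the finite set of places to avoid
    have hbad : ∀ C ∈ 𝒞, {v : Place K F |
        Module.finrank K (riemannRochSpace (C + ffg_sum S + Finsupp.single v 1)) ≠
          Module.finrank K (riemannRochSpace (C + ffg_sum S))}.Finite := by
      intro C hC
      apply ffg_finite_jump hx g c hR
      rw [hS C hC, map_add, h𝒞 C hC, ffg_degree_sum hx, hScard]
      push_cast
      have : (k : ℤ) + 1 ≤ g := by exact_mod_cast hk
      omega
    have hfinU : (⋃ C ∈ 𝒞, {v : Place K F |
        Module.finrank K (riemannRochSpace (C + ffg_sum S + Finsupp.single v 1)) ≠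
          Module.finrank K (riemannRochSpace (C + ffg_sum S))}).Finite :=
      Set.Finite.biUnion 𝒞.finite_toSet hbad
    have hfin : ((↑S : Set (Place K F)) ∪ ↑T ∪ ⋃ C ∈ 𝒞, {v : Place K F |
        Module.finrank K (riemannRochSpace (C + ffg_sum S + Finsupp.single v 1)) ≠
          Module.finrank K (riemannRochSpace (C + ffg_sum S))}).Finite :=
      (S.finite_toSet.union T.finite_toSet).union hfinU
    have := ffg_infinite_place hx
    obtain ⟨v, hv⟩ := hfin.infinite_compl.nonempty
    simp only [Set.mem_compl_iff, Set.mem_union, Finset.mem_coe, Set.mem_iUnion, Set.mem_ofPred_eq,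
      not_or, not_exists, not_not] at hv
    obtain ⟨⟨hvS, hvT⟩, hvC⟩ := hv
    refine ⟨insert v S, ?_, ?_, fun C hC => ?_⟩
    · rw [Finset.card_insert_of_notMem hvS, hScard]
    · rw [Finset.disjoint_insert_left]
      exact ⟨hvT, hST⟩
    · rw [ffg_sum_insert hvS, ← add_assoc, hvC C hC, hS C hC]

/-- **(c) [GEN](i)**: a finite family `𝒞` of divisors of degree `-1`, a finite set `T` of places
to avoid: there are `g` distinct places `P₁, …, P_g` outside `T` with
`l(C + P₁ + … + P_g) = 0` for every `C ∈ 𝒞`. -/
theorem ffg_generic (g : ℕ) (c : ℤ)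
    (hR : ∀ D : Divisor K F, c ≤ Divisor.degree D →
      (Module.finrank K (riemannRochSpace D) : ℤ) = Divisor.degree D + 1 - g)
    (𝒞 : Finset (Divisor K F)) (h𝒞 : ∀ C ∈ 𝒞, Divisor.degree C = -1)
    (T : Finset (Place K F)) :
    ∃ P : Fin g → Place K F, Function.Injective P ∧ (∀ i, P i ∉ T) ∧
      ∀ C ∈ 𝒞, Module.finrank K
        (riemannRochSpace (C + ∑ i, Finsupp.single (P i) (1 : ℤ))) = 0 := by
  classical
  obtain ⟨S, hScard, hST, hS⟩ := ffg_generic_finset hx g c hR 𝒞 h𝒞 T g le_rfl
  let e : Fin g ≃ S := (Finset.equivFinOfCardEq hScard).symm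
  refine ⟨fun i => (e i : Place K F), ?_, ?_, fun C hC => ?_⟩
  · intro i j hij
    exact e.injective (Subtype.ext hij)
  · intro i hi
    exact (Finset.disjoint_left.mp hST (e i).2) hi
  · have hsum : ∑ i, Finsupp.single ((e i : Place K F)) (1 : ℤ) = ffg_sum S := by
      rw [ffg_sum, ← Finset.sum_coe_sort S (fun v => Finsupp.single v (1 : ℤ))]
      exact Equiv.sum_comp e (fun v : S => Finsupp.single (v : Place K F) (1 : ℤ))
    rw [hsum]
    exact hS C hC

end main

end Fermat.Agent.FF
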