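/-
Project FF, leaf **[HO+]** (architect helper27, #1790): "having an order" (`∃ H, ff_IsOrder ℓ M H`)
passes to
* (a) `G_ℚ`-stable subgroups          — `ffo_sub`   (along an injective equivariant map `M' →+ M`),
* (b) quotients                        — `ffo_quot`  (along a surjective equivariant map `M →+ M''`,
                                                      `M` finite with open stabilisers),
* (c) products                         — `ffo_prod`,
* (d) equivariant additive equivalences — `ffo_equiv`.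
Tools: `ffo_lagrange` (a point-separating `Q̄`-algebra of functions on a finite set is everything),
`ffo_descent` (Galois descent of linear independence), `ffo_basis` (a `ℤ_(ℓ)`-basis of an order is
`Q̄`-linearly independent), `ffo_exists_smul_mem` (`ℚ·H` = all equivariant functions),
`ffo_exists_equivariant_sep`, `ffo_factor`.  Prefix `ffo_`.
-/
import Mathlib
import Fermat.Agent.FF.Seams
import Fermat.Agent.S28.FrontEnd.Zl

set_option autoImplicit false

noncomputable section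

namespace Fermat.Agent.FF

open scoped BigOperators
open Module

/-- `M` has an order -/
def ffo_HasOrder (ℓ : ℕ) (M : Type) [AddCommGroup M] [DistribMulAction ff_GQ M] : Prop :=
  ∃ H : Subalgebra (ff_R ℓ) (M → ff_Qb), ff_IsOrder ℓ M H

/-- pull back functions along `f` -/
def ffo_pull (ℓ : ℕ) {M M' : Type} (f : M' → M) : (M → ff_Qb) →ₐ[ff_R ℓ] (M' → ff_Qb) :=
  AlgHom.pi (fun x' => Pi.evalAlgHom (ff_R ℓ) (fun _ : M => ff_Qb) (f x'))

@[simp] theorem ffo_pull_apply (ℓ : ℕ) {M M' : Type} (f : M' → M) (φ : M → ff_Qb) (x' : M') :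
    ffo_pull ℓ f φ x' = φ (f x') := rfl

/-- `φ` has a comultiplication formula with coefficients in `S` -/
def ffo_Comul {M : Type} [Add M] (S : Set (M → ff_Qb)) (φ : M → ff_Qb) : Prop :=
  ∃ (n : ℕ) (a b : Fin n → M → ff_Qb), (∀ i, a i ∈ S) ∧ (∀ i, b i ∈ S) ∧
    ∀ x y : M, φ (x + y) = ∑ i, a i x * b i y

theorem ffo_comul_of_fintype {M : Type} [Add M] {S : Set (M → ff_Qb)} {φ : M → ff_Qb}
    {ι : Type} [Fintype ι] (a b : ι → M → ff_Qb) (ha : ∀ i, a i ∈ S) (hb : ∀ i, b i ∈ S)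
    (h : ∀ x y : M, φ (x + y) = ∑ i, a i x * b i y) : ffo_Comul S φ := by
  classical
  let e := Fintype.equivFin ι
  refine ⟨Fintype.card ι, fun i => a (e.symm i), fun i => b (e.symm i), fun i => ha _,
    fun i => hb _, fun x y => ?_⟩
  rw [h x y]
  exact (Equiv.sum_comp e.symm (fun i => a i x * b i y)).symm

theorem ffo_comul_mono {M : Type} [Add M] {S T : Set (M → ff_Qb)} (hST : S ⊆ T)
    {φ : M → ff_Qb} (h : ffo_Comul S φ) : ffo_Comul T φ := by
  obtain ⟨n, a, b, ha, hb, hab⟩ := h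
  exact ⟨n, a, b, fun i => hST (ha i), fun i => hST (hb i), hab⟩

/-- the elements of `M → Q̄` with a comultiplication formula in `H` form a subalgebra -/
def ffo_comulSub (ℓ : ℕ) {M : Type} [Add M] (H : Subalgebra (ff_R ℓ) (M → ff_Qb)) :
    Subalgebra (ff_R ℓ) (M → ff_Qb) where
  carrier := {φ | ffo_Comul (H : Set (M → ff_Qb)) φ}
  mul_mem' := by
    rintro φ ψ ⟨n, a, b, ha, hb, hab⟩ ⟨m, a', b', ha', hb', hab'⟩
    refine ffo_comul_of_fintype (ι := Fin n × Fin m) (fun i => a i.1 * a' i.2)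
      (fun i => b i.1 * b' i.2) (fun i => H.mul_mem (ha _) (ha' _))
      (fun i => H.mul_mem (hb _) (hb' _)) (fun x y => ?_)
    rw [Pi.mul_apply, hab, hab', Finset.sum_mul_sum, Fintype.sum_prod_type]
    refine Finset.sum_congr rfl fun i _ => Finset.sum_congr rfl fun j _ => ?_
    simp only [Pi.mul_apply]; ring
  add_mem' := by
    rintro φ ψ ⟨n, a, b, ha, hb, hab⟩ ⟨m, a', b', ha', hb', hab'⟩
    refine ffo_comul_of_fintype (ι := Fin n ⊕ Fin m) (Sum.elim a a') (Sum.elim b b')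
      (fun i => by cases i <;> simp [ha, ha']) (fun i => by cases i <;> simp [hb, hb'])
      (fun x y => ?_)
    rw [Pi.add_apply, hab, hab', Fintype.sum_sum_type]
    simp
  algebraMap_mem' r := by
    refine ffo_comul_of_fintype (ι := Fin 1) (fun _ => algebraMap _ _ r) (fun _ => 1)
      (fun _ => H.algebraMap_mem r) (fun _ => H.one_mem) (fun x y => ?_)
    simp [Algebra.algebraMap_eq_smul_one]

theorem ffo_mem_comulSub (ℓ : ℕ) {M : Type} [Add M] (H : Subalgebra (ff_R ℓ) (M → ff_Qb))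
    (φ : M → ff_Qb) : φ ∈ ffo_comulSub ℓ H ↔ ffo_Comul (H : Set (M → ff_Qb)) φ := Iff.rfl

/-- the subalgebra of `G_ℚ`-equivariant functions -/
def ffo_equivSub (ℓ : ℕ) (M : Type) [AddCommGroup M] [DistribMulAction ff_GQ M] :
    Subalgebra (ff_R ℓ) (M → ff_Qb) where
  carrier := {φ | ∀ (σ : ff_GQ) (x : M), φ (σ • x) = σ (φ x)}
  mul_mem' := by
    intro φ ψ hφ hψ σ x
    simp [hφ σ x, hψ σ x]
  add_mem' := by
    intro φ ψ hφ hψ σ x
    simp [hφ σ x, hψ σ x]
  algebraMap_mem' r := by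
    intro σ x
    have : (algebraMap (ff_R ℓ) (M → ff_Qb) r) = fun _ => algebraMap ℚ ff_Qb (r : ℚ) := by
      funext y; rfl
    rw [this]
    exact (σ.commutes _).symm

theorem ffo_mem_equivSub (ℓ : ℕ) (M : Type) [AddCommGroup M] [DistribMulAction ff_GQ M]
    (φ : M → ff_Qb) : φ ∈ ffo_equivSub ℓ M ↔ ∀ (σ : ff_GQ) (x : M), φ (σ • x) = σ (φ x) :=
  Iff.rfl


/-! ### (a) subgroups, (d) transport -/

section sub

variable (ℓ : ℕ) {M M' : Type} [AddCommGroup M] [DistribMulAction ff_GQ M]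
  [AddCommGroup M'] [DistribMulAction ff_GQ M']

theorem ffo_finite_map {M M' : Type} (H : Subalgebra (ff_R ℓ) (M → ff_Qb))
    [Module.Finite (ff_R ℓ) H] (f : (M → ff_Qb) →ₐ[ff_R ℓ] (M' → ff_Qb)) :
    Module.Finite (ff_R ℓ) (H.map f) := by
  have h1 : Module.Finite (ff_R ℓ) (Subalgebra.toSubmodule H) := ‹_›
  have h2 : Module.Finite (ff_R ℓ) ((Subalgebra.toSubmodule H).map f.toLinearMap) :=
    Module.Finite.map _ _
  exact h2

theorem ffo_isOrder_sub (ι : M' →+ M) (hinj : Function.Injective ι)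
    (heq : ∀ (σ : ff_GQ) (x : M'), ι (σ • x) = σ • ι x)
    (H : Subalgebra (ff_R ℓ) (M → ff_Qb)) (hH : ff_IsOrder ℓ M H) :
    ff_IsOrder ℓ M' (H.map (ffo_pull ℓ ι)) := by
  refine ⟨?_, ?_, ?_, ?_⟩
  · intro ψ hψ σ x
    obtain ⟨φ, hφ, rfl⟩ := Subalgebra.mem_map.1 hψ
    simp only [ffo_pull_apply, heq]
    exact hH.equiv φ hφ σ (ι x)
  · have := hH.fin
    exact ffo_finite_map ℓ H _
  · intro x y hxy
    obtain ⟨φ, hφ, h⟩ := hH.sep (ι x) (ι y) (fun h => hxy (hinj h))
    exact ⟨ffo_pull ℓ ι φ, Subalgebra.mem_map.2 ⟨φ, hφ, rfl⟩, h⟩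
  · intro ψ hψ
    obtain ⟨φ, hφ, rfl⟩ := Subalgebra.mem_map.1 hψ
    obtain ⟨n, a, b, ha, hb, hab⟩ := hH.comul φ hφ
    refine ⟨n, fun i => ffo_pull ℓ ι (a i), fun i => ffo_pull ℓ ι (b i),
      fun i => Subalgebra.mem_map.2 ⟨a i, ha i, rfl⟩,
      fun i => Subalgebra.mem_map.2 ⟨b i, hb i, rfl⟩, fun x y => ?_⟩
    simp only [ffo_pull_apply, map_add]
    exact hab _ _

/-- **[HO+] (a)** an order passes to `G_ℚ`-stable subgroups. -/
theorem ffo_sub (ι : M' →+ M) (hinj : Function.Injective ι)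
    (heq : ∀ (σ : ff_GQ) (x : M'), ι (σ • x) = σ • ι x) (h : ffo_HasOrder ℓ M) :
    ffo_HasOrder ℓ M' := by
  obtain ⟨H, hH⟩ := h
  exact ⟨_, ffo_isOrder_sub ℓ ι hinj heq H hH⟩

/-- **[HO+] (d)** transport along equivariant additive equivalences. -/
theorem ffo_equiv (e : M' ≃+ M) (heq : ∀ (σ : ff_GQ) (x : M'), e (σ • x) = σ • e x) :
    ffo_HasOrder ℓ M ↔ ffo_HasOrder ℓ M' := by
  refine ⟨ffo_sub ℓ e.toAddMonoidHom e.injective heq,
    ffo_sub ℓ e.symm.toAddMonoidHom e.symm.injective fun σ x => ?_⟩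
  apply e.injective
  simp [heq]

end sub


/-! ### (c) products -/

section prod

variable (ℓ : ℕ) {M₁ M₂ : Type} [AddCommGroup M₁] [DistribMulAction ff_GQ M₁]
  [AddCommGroup M₂] [DistribMulAction ff_GQ M₂]

/-- the order on a product: generated by the pull-backs along the two projections -/
def ffo_prodAlg (H₁ : Subalgebra (ff_R ℓ) (M₁ → ff_Qb)) (H₂ : Subalgebra (ff_R ℓ) (M₂ → ff_Qb)) :
    Subalgebra (ff_R ℓ) (M₁ × M₂ → ff_Qb) :=
  H₁.map (ffo_pull ℓ Prod.fst) ⊔ H₂.map (ffo_pull ℓ Prod.snd)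

theorem ffo_isOrder_prod (H₁ : Subalgebra (ff_R ℓ) (M₁ → ff_Qb))
    (H₂ : Subalgebra (ff_R ℓ) (M₂ → ff_Qb)) (h₁ : ff_IsOrder ℓ M₁ H₁) (h₂ : ff_IsOrder ℓ M₂ H₂) :
    ff_IsOrder ℓ (M₁ × M₂) (ffo_prodAlg ℓ H₁ H₂) := by
  have hle1 : H₁.map (ffo_pull ℓ Prod.fst) ≤ ffo_prodAlg ℓ H₁ H₂ := le_sup_left
  have hle2 : H₂.map (ffo_pull ℓ Prod.snd) ≤ ffo_prodAlg ℓ H₁ H₂ := le_sup_right
  refine ⟨?_, ?_, ?_, ?_⟩
  · have h : ffo_prodAlg ℓ H₁ H₂ ≤ ffo_equivSub ℓ (M₁ × M₂) := by
      refine sup_le ?_ ?_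
      · intro ψ hψ σ x
        obtain ⟨φ, hφ, rfl⟩ := Subalgebra.mem_map.1 hψ
        simp only [ffo_pull_apply, Prod.smul_fst]
        exact h₁.equiv φ hφ σ _
      · intro ψ hψ σ x
        obtain ⟨φ, hφ, rfl⟩ := Subalgebra.mem_map.1 hψ
        simp only [ffo_pull_apply, Prod.smul_snd]
        exact h₂.equiv φ hφ σ _
    exact fun φ hφ => h hφ
  · have := h₁.fin
    have := h₂.fin
    have := ffo_finite_map ℓ H₁ (ffo_pull ℓ (Prod.fst : M₁ × M₂ → M₁))
    have := ffo_finite_map ℓ H₂ (ffo_pull ℓ (Prod.snd : M₁ × M₂ → M₂))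
    exact Subalgebra.finite_sup _ _
  · rintro ⟨x₁, x₂⟩ ⟨y₁, y₂⟩ hxy
    by_cases h1 : x₁ = y₁
    · have h2 : x₂ ≠ y₂ := fun h => hxy (by rw [h1, h])
      obtain ⟨φ, hφ, h⟩ := h₂.sep x₂ y₂ h2
      exact ⟨ffo_pull ℓ Prod.snd φ, hle2 (Subalgebra.mem_map.2 ⟨φ, hφ, rfl⟩), h⟩
    · obtain ⟨φ, hφ, h⟩ := h₁.sep x₁ y₁ h1
      exact ⟨ffo_pull ℓ Prod.fst φ, hle1 (Subalgebra.mem_map.2 ⟨φ, hφ, rfl⟩), h⟩
  · have h : ffo_prodAlg ℓ H₁ H₂ ≤ ffo_comulSub ℓ (ffo_prodAlg ℓ H₁ H₂) := by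
      refine sup_le ?_ ?_
      · intro ψ hψ
        obtain ⟨φ, hφ, rfl⟩ := Subalgebra.mem_map.1 hψ
        obtain ⟨n, a, b, ha, hb, hab⟩ := h₁.comul φ hφ
        refine ⟨n, fun i => ffo_pull ℓ Prod.fst (a i), fun i => ffo_pull ℓ Prod.fst (b i),
          fun i => hle1 (Subalgebra.mem_map.2 ⟨a i, ha i, rfl⟩),
          fun i => hle1 (Subalgebra.mem_map.2 ⟨b i, hb i, rfl⟩), fun x y => ?_⟩
        simp only [ffo_pull_apply, Prod.fst_add]
        exact hab _ _
      · intro ψ hψ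
        obtain ⟨φ, hφ, rfl⟩ := Subalgebra.mem_map.1 hψ
        obtain ⟨n, a, b, ha, hb, hab⟩ := h₂.comul φ hφ
        refine ⟨n, fun i => ffo_pull ℓ Prod.snd (a i), fun i => ffo_pull ℓ Prod.snd (b i),
          fun i => hle2 (Subalgebra.mem_map.2 ⟨a i, ha i, rfl⟩),
          fun i => hle2 (Subalgebra.mem_map.2 ⟨b i, hb i, rfl⟩), fun x y => ?_⟩
        simp only [ffo_pull_apply, Prod.snd_add]
        exact hab _ _
    exact fun φ hφ => h hφ

/-- **[HO+] (c)** an order passes to finite products. -/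
theorem ffo_prod (h₁ : ffo_HasOrder ℓ M₁) (h₂ : ffo_HasOrder ℓ M₂) : ffo_HasOrder ℓ (M₁ × M₂) := by
  obtain ⟨H₁, hH₁⟩ := h₁
  obtain ⟨H₂, hH₂⟩ := h₂
  exact ⟨_, ffo_isOrder_prod ℓ H₁ H₂ hH₁ hH₂⟩

end prod

/-! ### trivial modules and finite powers -/

section pow

variable (ℓ : ℕ)

/-- the trivial module has an order (the constants `ℤ_(ℓ)`). -/
theorem ffo_subsingleton (M : Type) [AddCommGroup M] [DistribMulAction ff_GQ M] [Subsingleton M] :
    ffo_HasOrder ℓ M := by
  refine ⟨⊥, ?_, ?_, ?_, ?_⟩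
  · intro φ hφ σ x
    obtain ⟨r, rfl⟩ := Algebra.mem_bot.1 hφ
    have : (algebraMap (ff_R ℓ) (M → ff_Qb) r) = fun _ => algebraMap ℚ ff_Qb (r : ℚ) := by
      funext y; rfl
    rw [this]
    exact (σ.commutes _).symm
  · exact Module.Finite.of_surjective (Algebra.ofId (ff_R ℓ) (M → ff_Qb)).rangeRestrict.toLinearMap
      (by
        rintro ⟨φ, hφ⟩
        obtain ⟨r, rfl⟩ := Algebra.mem_bot.1 hφ
        exact ⟨r, rfl⟩)
  · intro x y hxy
    exact absurd (Subsingleton.elim x y) hxy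
  · intro φ hφ
    refine ⟨1, fun _ => φ, fun _ => 1, fun _ => hφ, fun _ => Subalgebra.one_mem _, fun x y => ?_⟩
    simp [Subsingleton.elim (x + y) x]

variable {M : Type} [AddCommGroup M] [DistribMulAction ff_GQ M]

/-- an order passes to finite powers. -/
theorem ffo_pow (h : ffo_HasOrder ℓ M) (n : ℕ) : ffo_HasOrder ℓ (Fin n → M) := by
  induction n with
  | zero => exact ffo_subsingleton ℓ _
  | succ n ih =>
    have h2 := ffo_prod ℓ h ih
    let ι : (Fin (n + 1) → M) →+ M × (Fin n → M) :=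
      { toFun := fun f => (f 0, Fin.tail f)
        map_zero' := rfl
        map_add' := fun f g => rfl }
    refine ffo_sub ℓ ι ?_ (fun σ f => rfl) h2
    intro f g hfg
    have h0 : f 0 = g 0 := congrArg Prod.fst hfg
    have h1 : Fin.tail f = Fin.tail g := congrArg Prod.snd hfg
    funext i
    refine Fin.cases h0 (fun j => ?_) i
    exact congrFun h1 j

end pow

/-! ### Galois-theoretic tools -/

theorem ffo_isAlgClosure : IsAlgClosure ℚ ff_Qb := ⟨inferInstance, AlgebraicClosure.isAlgebraic ℚ⟩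

theorem ffo_isGalois : IsGalois ℚ ff_Qb :=
  have := ffo_isAlgClosure
  inferInstance

theorem ffo_rat_of_fixed (x : ff_Qb) (hx : ∀ σ : ff_GQ, σ x = x) :
    ∃ q : ℚ, algebraMap ℚ ff_Qb q = x := by
  have := ffo_isGalois
  exact (InfiniteGalois.mem_range_algebraMap_iff_fixed x).mpr hx

/-! ### Lagrange interpolation -/

/-- a `Q̄`-subalgebra of `Map(M, Q̄)`, `M` finite, which separates points is everything -/
theorem ffo_lagrange {M : Type} [Finite M] (A : Subalgebra ff_Qb (M → ff_Qb))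
    (hsep : ∀ x y : M, x ≠ y → ∃ φ ∈ A, φ x ≠ φ y) : A = ⊤ := by
  classical
  have := Fintype.ofFinite M
  have hδ : ∀ x : M, (Pi.single x 1 : M → ff_Qb) ∈ A := by
    intro x
    choose! φ hφA hφ using hsep x
    have h1 : (∏ y ∈ Finset.univ.erase x,
        ((φ y x - φ y y)⁻¹ • (φ y - algebraMap ff_Qb (M → ff_Qb) (φ y y)))) ∈ A := by
      refine Subalgebra.prod_mem _ fun y hy => ?_
      have hy' : x ≠ y := fun h => (Finset.ne_of_mem_erase hy) h.symm
      exact A.smul_mem (A.sub_mem (hφA y hy') (A.algebraMap_mem _)) _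
    convert h1 using 1
    funext z
    rw [Finset.prod_apply]
    by_cases hz : z = x
    · subst hz
      rw [Pi.single_eq_same]
      symm
      refine Finset.prod_eq_one fun y hy => ?_
      have hy' : z ≠ y := fun h => (Finset.ne_of_mem_erase hy) h.symm
      have hne : φ y z - φ y y ≠ 0 := sub_ne_zero.2 (hφ y hy')
      simp only [Pi.smul_apply, Pi.sub_apply, Pi.algebraMap_apply, Algebra.algebraMap_self,
        RingHom.id_apply, smul_eq_mul]
      exact inv_mul_cancel₀ hne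
    · rw [Pi.single_eq_of_ne hz]
      symm
      refine Finset.prod_eq_zero (i := z) (Finset.mem_erase.2 ⟨hz, Finset.mem_univ _⟩) ?_
      simp
  rw [eq_top_iff]
  intro f _
  have hf : f = ∑ x, f x • (Pi.single x 1 : M → ff_Qb) := by
    funext z
    rw [Finset.sum_apply]
    simp [Pi.single_apply]
  rw [hf]
  exact Subalgebra.sum_mem _ fun x _ => A.smul_mem (hδ x) _


theorem ffo_span_top (ℓ : ℕ) {M : Type} [Finite M] (H : Subalgebra (ff_R ℓ) (M → ff_Qb))
    (hsep : ∀ x y : M, x ≠ y → ∃ φ ∈ H, φ x ≠ φ y) :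
    Submodule.span ff_Qb (H : Set (M → ff_Qb)) = ⊤ := by
  have h1 : Algebra.adjoin ff_Qb (H : Set (M → ff_Qb)) = ⊤ := by
    refine ffo_lagrange _ fun x y hxy => ?_
    obtain ⟨φ, hφ, h⟩ := hsep x y hxy
    exact ⟨φ, Algebra.subset_adjoin hφ, h⟩
  have h2 := Algebra.adjoin_eq_span ff_Qb (H : Set (M → ff_Qb))
  have h3 : (Submonoid.closure (H : Set (M → ff_Qb)) : Set (M → ff_Qb)) = H := by
    have := Submonoid.closure_eq H.toSubsemiring.toSubmonoid
    exact congrArg (fun S : Submonoid (M → ff_Qb) => (S : Set (M → ff_Qb))) this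
  rw [h3, h1] at h2
  rw [← h2]
  rfl

/-! ### Galois descent of linear independence -/

theorem ffo_descent {M : Type} [AddCommGroup M] [DistribMulAction ff_GQ M] {ι : Type}
    (v : ι → M → ff_Qb) (hv : ∀ i (σ : ff_GQ) (x : M), v i (σ • x) = σ (v i x))
    (h : LinearIndependent ℚ v) : LinearIndependent ff_Qb v := by
  classical
  rw [linearIndependent_iff']
  intro s
  induction' hn : s.card using Nat.strong_induction_on with n IH generalizing s
  intro g hg
  by_contra hcon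
  push Not at hcon
  obtain ⟨i0, hi0, hgi0⟩ := hcon
  -- normalise
  set c : ι → ff_Qb := fun i => g i / g i0 with hc
  have hc0 : c i0 = 1 := div_self hgi0
  have hcsum : ∑ i ∈ s, c i • v i = 0 := by
    have : ∑ i ∈ s, c i • v i = (g i0)⁻¹ • ∑ i ∈ s, g i • v i := by
      rw [Finset.smul_sum]
      refine Finset.sum_congr rfl fun i _ => ?_
      rw [smul_smul, hc]
      congr 1
      field_simp
    rw [this, hg, smul_zero]
  -- conjugate relation
  have hσsum : ∀ σ : ff_GQ, ∑ i ∈ s, σ (c i) • v i = 0 := by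
    intro σ
    funext x
    have h1 := congrFun hcsum (σ⁻¹ • x)
    simp only [Finset.sum_apply, Pi.smul_apply, smul_eq_mul, Pi.zero_apply] at h1 ⊢
    have h2 := congrArg σ h1
    rw [map_sum, map_zero] at h2
    rw [← h2]
    refine Finset.sum_congr rfl fun i _ => ?_
    rw [map_mul, ← hv i σ (σ⁻¹ • x), smul_inv_smul]
  -- all coefficients are fixed
  have hfix : ∀ σ : ff_GQ, ∀ i ∈ s, σ (c i) = c i := by
    intro σ
    have hsub : ∑ i ∈ s.erase i0, (σ (c i) - c i) • v i = 0 := by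
      have h1 : ∑ i ∈ s, (σ (c i) - c i) • v i = 0 := by
        simp only [sub_smul, Finset.sum_sub_distrib, hσsum σ, hcsum, sub_zero]
      rw [← Finset.add_sum_erase s _ hi0] at h1
      simpa [hc0] using h1
    have hcard : (s.erase i0).card < n := by
      have hpos : 0 < s.card := Finset.card_pos.2 ⟨i0, hi0⟩
      rw [Finset.card_erase_of_mem hi0]
      omega
    have := IH _ hcard (s.erase i0) rfl (fun i => σ (c i) - c i) hsub
    intro i hi
    by_cases hii : i = i0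
    · rw [hii, hc0, map_one]
    · exact sub_eq_zero.1 (this i (Finset.mem_erase.2 ⟨hii, hi⟩))
  -- descend
  have hq : ∀ i ∈ s, ∃ q : ℚ, algebraMap ℚ ff_Qb q = c i := fun i hi =>
    ffo_rat_of_fixed _ fun σ => hfix σ i hi
  choose! q hq using hq
  have hqsum : ∑ i ∈ s, q i • v i = 0 := by
    rw [← hcsum]
    refine Finset.sum_congr rfl fun i hi => ?_
    rw [← hq i hi, algebraMap_smul]
  have := linearIndependent_iff'.1 h s q hqsum i0 hi0
  have h1 := hq i0 hi0
  rw [this, map_zero, hc0] at h1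
  exact zero_ne_one h1


/-! ### Equivariant functions separate the points of a smooth `G_ℚ`-set -/

theorem ffo_exists_equivariant_sep {X : Type} [MulAction ff_GQ X]
    (hopen : ∀ x : X, ∃ K : IntermediateField ℚ ff_Qb, FiniteDimensional ℚ K ∧
      ∀ σ ∈ K.fixingSubgroup, σ • x = x)
    (x y : X) (hxy : x ≠ y) :
    ∃ ψ : X → ff_Qb, (∀ (σ : ff_GQ) (z : X), ψ (σ • z) = σ (ψ z)) ∧ ψ x ≠ ψ y := by
  classical
  have := ffo_isGalois
  by_cases hy : ∃ τ : ff_GQ, τ • x = y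
  · obtain ⟨τ, rfl⟩ := hy
    -- the stabiliser of `x` is closed
    obtain ⟨K, hK, hKx⟩ := hopen x
    have hopenS : IsOpen ((MulAction.stabilizer ff_GQ x : Subgroup ff_GQ) : Set ff_GQ) :=
      Subgroup.isOpen_mono (H₁ := K.fixingSubgroup) (fun σ hσ => hKx σ hσ)
        (IntermediateField.fixingSubgroup_isOpen K)
    let S : ClosedSubgroup ff_GQ :=
      ⟨MulAction.stabilizer ff_GQ x, Subgroup.isClosed_of_isOpen _ hopenS⟩
    have hS := InfiniteGalois.fixingSubgroup_fixedField S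
    have hτ : τ ∉ (IntermediateField.fixedField S.toSubgroup).fixingSubgroup := by
      rw [hS]
      intro h
      exact hxy (MulAction.mem_stabilizer_iff.1 h).symm
    rw [IntermediateField.mem_fixingSubgroup_iff] at hτ
    push Not at hτ
    obtain ⟨θ, hθ, hτθ⟩ := hτ
    have hθS : ∀ σ : ff_GQ, σ • x = x → σ θ = θ := by
      intro σ hσ
      have := (IntermediateField.mem_fixedField_iff _ _).1 hθ σ
        (show σ ∈ MulAction.stabilizer ff_GQ x from MulAction.mem_stabilizer_iff.2 hσ)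
      exact this
    let ψ : X → ff_Qb := fun z => if h : ∃ σ : ff_GQ, σ • x = z then h.choose θ else 0
    have hψ : ∀ σ : ff_GQ, ψ (σ • x) = σ θ := by
      intro σ
      have h : ∃ σ' : ff_GQ, σ' • x = σ • x := ⟨σ, rfl⟩
      have h1 : ψ (σ • x) = h.choose θ := dif_pos h
      rw [h1]
      have h2 := h.choose_spec
      have h3 : (σ⁻¹ * h.choose) • x = x := by rw [mul_smul, h2, inv_smul_smul]
      have h4 := hθS _ h3
      rw [AlgEquiv.mul_apply] at h4
      have h5 := congrArg σ h4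
      simpa using h5
    refine ⟨ψ, fun σ z => ?_, ?_⟩
    · by_cases hz : ∃ ρ : ff_GQ, ρ • x = z
      · obtain ⟨ρ, rfl⟩ := hz
        rw [← mul_smul, hψ, hψ, AlgEquiv.mul_apply]
      · have hz' : ¬ ∃ ρ : ff_GQ, ρ • x = σ • z := by
          rintro ⟨ρ, hρ⟩
          exact hz ⟨σ⁻¹ * ρ, by rw [mul_smul, hρ, inv_smul_smul]⟩
        have h1 : ψ z = 0 := dif_neg hz
        have h2 : ψ (σ • z) = 0 := dif_neg hz'
        rw [h1, h2, map_zero]
    · have h1 : ψ x = θ := by
        have := hψ 1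
        simpa using this
      rw [h1, hψ]
      exact fun h => hτθ h.symm
  · refine ⟨fun z => if ∃ σ : ff_GQ, σ • x = z then 1 else 0, fun σ z => ?_, ?_⟩
    · by_cases hz : ∃ ρ : ff_GQ, ρ • x = z
      · have hz' : ∃ ρ : ff_GQ, ρ • x = σ • z := by
          obtain ⟨ρ, rfl⟩ := hz
          exact ⟨σ * ρ, mul_smul _ _ _⟩
        simp only [if_pos hz, if_pos hz', map_one]
      · have hz' : ¬ ∃ ρ : ff_GQ, ρ • x = σ • z := by
          rintro ⟨ρ, hρ⟩
          exact hz ⟨σ⁻¹ * ρ, by rw [mul_smul, hρ, inv_smul_smul]⟩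
        simp only [if_neg hz, if_neg hz', map_zero]
    · have hx : ∃ σ : ff_GQ, σ • x = x := ⟨1, one_smul _ _⟩
      simp only [if_pos hx, if_neg hy]
      exact one_ne_zero

/-! ### `ℤ_(ℓ)` -/

section ring

set_option linter.unusedSectionVars false

variable (ℓ : ℕ) [Fact ℓ.Prime]

theorem ffo_isFractionRing : IsFractionRing (ff_R ℓ) ℚ where
  map_units := by
    rintro ⟨y, hy⟩
    have hy0 : y ≠ 0 := nonZeroDivisors.ne_zero hy
    have : (algebraMap (ff_R ℓ) ℚ y) ≠ 0 := fun h => hy0 (Subtype.ext h)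
    exact isUnit_iff_ne_zero.2 this
  surj := by
    intro q
    refine ⟨⟨⟨(q.num : ℚ), intCast_mem _ _⟩, ⟨⟨(q.den : ℚ), natCast_mem _ _⟩, ?_⟩⟩, ?_⟩
    · rw [mem_nonZeroDivisors_iff_ne_zero]
      intro h
      have : (q.den : ℚ) = 0 := congrArg Subtype.val h
      exact q.den_ne_zero (by exact_mod_cast this)
    · show q * (q.den : ℚ) = (q.num : ℚ)
      exact Rat.mul_den_eq_num q
  exists_of_eq := by
    intro x y h
    exact ⟨1, by rw [Subtype.ext h]⟩

theorem ffo_torsionFree (X : Type) : IsTorsionFree (ff_R ℓ) (X → ff_Qb) := by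
  refine Module.IsTorsionFree.of_smul_eq_zero fun r f h => ?_
  by_cases hr : r = 0
  · exact Or.inl hr
  · right
    funext x
    have hx : r • f x = 0 := congrFun h x
    have hr' : algebraMap (ff_R ℓ) ff_Qb r ≠ 0 := by
      intro h0
      apply hr
      have : algebraMap ℚ ff_Qb (r : ℚ) = 0 := h0
      have h1 : (r : ℚ) = 0 := by simpa using this
      exact Subtype.ext h1
    rw [Algebra.smul_def] at hx
    exact (mul_eq_zero.1 hx).resolve_left hr'

/-- a finite `ℤ_(ℓ)`-module of equivariant functions has a finite `ℤ_(ℓ)`-basis, and this basis is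
linearly independent over `Q̄`. -/
theorem ffo_basis {M : Type} [AddCommGroup M] [DistribMulAction ff_GQ M]
    (H : Submodule (ff_R ℓ) (M → ff_Qb)) [Module.Finite (ff_R ℓ) H]
    (hequiv : ∀ φ ∈ H, ∀ (σ : ff_GQ) (x : M), φ (σ • x) = σ (φ x)) :
    ∃ (n : ℕ) (h : Fin n → M → ff_Qb), (∀ j, h j ∈ H) ∧
      (∀ φ ∈ H, ∃ c : Fin n → ff_R ℓ, φ = ∑ j, c j • h j) ∧ LinearIndependent ff_Qb h := by
  have := ffo_torsionFree ℓ M
  have := ffo_isFractionRing ℓ
  let b := Module.finBasis (ff_R ℓ) H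
  refine ⟨_, fun j => (b j : M → ff_Qb), fun j => (b j).2, fun φ hφ => ?_, ?_⟩
  · refine ⟨fun j => b.repr ⟨φ, hφ⟩ j, ?_⟩
    have h1 : ((∑ i, (b.repr ⟨φ, hφ⟩) i • b i : H) : M → ff_Qb) = φ :=
      congrArg (Subtype.val) (b.sum_repr ⟨φ, hφ⟩)
    rw [Submodule.coe_sum] at h1
    exact h1.symm
  · refine ffo_descent _ (fun j σ x => hequiv _ (b j).2 σ x) ?_
    rw [← LinearIndependent.iff_fractionRing (ff_R ℓ) ℚ]
    exact b.linearIndependent.map' H.subtype (Submodule.ker_subtype H)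

/-- the basis of an order is a `Q̄`-basis of all functions -/
theorem ffo_basis_order {M : Type} [AddCommGroup M] [Finite M] [DistribMulAction ff_GQ M]
    (H : Subalgebra (ff_R ℓ) (M → ff_Qb)) (hH : ff_IsOrder ℓ M H) :
    ∃ (n : ℕ) (h : Fin n → M → ff_Qb), (∀ j, h j ∈ H) ∧
      (∀ φ ∈ H, ∃ c : Fin n → ff_R ℓ, φ = ∑ j, c j • h j) ∧ LinearIndependent ff_Qb h ∧
      Submodule.span ff_Qb (Set.range h) = ⊤ := by
  have hfin : Module.Finite (ff_R ℓ) (Subalgebra.toSubmodule H) := hH.fin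
  obtain ⟨n, h, hmem, hspan, hind⟩ := ffo_basis ℓ (Subalgebra.toSubmodule H) hH.equiv
  refine ⟨n, h, hmem, hspan, hind, ?_⟩
  rw [eq_top_iff, ← ffo_span_top ℓ H hH.sep, Submodule.span_le]
  intro φ hφ
  obtain ⟨c, rfl⟩ := hspan φ hφ
  refine Submodule.sum_mem _ fun j _ => ?_
  rw [← algebraMap_smul ff_Qb (c j) (h j)]
  exact Submodule.smul_mem _ _ (Submodule.subset_span ⟨j, rfl⟩)

/-- `ℚ · H` is the algebra of all equivariant functions: every equivariant function has a nonzero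
multiple in the order `H`. -/
theorem ffo_exists_smul_mem {M : Type} [AddCommGroup M] [Finite M] [DistribMulAction ff_GQ M]
    (H : Subalgebra (ff_R ℓ) (M → ff_Qb)) (hH : ff_IsOrder ℓ M H) (f : M → ff_Qb)
    (hf : ∀ (σ : ff_GQ) (x : M), f (σ • x) = σ (f x)) :
    ∃ d : ff_R ℓ, d ≠ 0 ∧ d • f ∈ H := by
  have := ffo_isFractionRing ℓ
  obtain ⟨n, h, hmem, -, hind, htop⟩ := ffo_basis_order ℓ H hH
  have hf' : f ∈ Submodule.span ff_Qb (Set.range h) := by rw [htop]; trivial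
  obtain ⟨c, hc⟩ := (Submodule.mem_span_range_iff_exists_fun ff_Qb).1 hf'
  have hσ : ∀ σ : ff_GQ, ∑ j, σ (c j) • h j = f := by
    intro σ
    funext x
    have h1 := congrFun hc (σ⁻¹ • x)
    simp only [Finset.sum_apply, Pi.smul_apply, smul_eq_mul] at h1 ⊢
    have h2 := congrArg σ h1
    rw [map_sum, ← hf σ, smul_inv_smul] at h2
    rw [← h2]
    refine Finset.sum_congr rfl fun j _ => ?_
    rw [map_mul, ← hH.equiv (h j) (hmem j) σ (σ⁻¹ • x), smul_inv_smul]
  have hfix : ∀ (σ : ff_GQ) j, σ (c j) = c j := by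
    intro σ j
    have h1 : ∑ j, (σ (c j) - c j) • h j = 0 := by
      simp only [sub_smul, Finset.sum_sub_distrib, hσ σ, hc, sub_self]
    exact sub_eq_zero.1 (Fintype.linearIndependent_iff.1 hind _ h1 j)
  have hq : ∀ j, ∃ q : ℚ, algebraMap ℚ ff_Qb q = c j := fun j =>
    ffo_rat_of_fixed _ fun σ => hfix σ j
  choose q hq using hq
  obtain ⟨b, hb⟩ := IsLocalization.exist_integer_multiples_of_finite (nonZeroDivisors (ff_R ℓ)) q
  choose r hr using hb
  refine ⟨b, nonZeroDivisors.coe_ne_zero b, ?_⟩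
  have : (b : ff_R ℓ) • f = ∑ j, r j • h j := by
    rw [← hc, Finset.smul_sum]
    refine Finset.sum_congr rfl fun j _ => ?_
    rw [← hq j, algebraMap_smul, ← algebraMap_smul ℚ (r j) (h j), hr j, smul_assoc]
  rw [this]
  exact Subalgebra.sum_mem _ fun j _ => H.smul_mem (hmem j) _

/-- rewriting a sum of elementary tensors in terms of a `Q̄`-independent basis of the second
factor; the new first factors are determined by the function. -/
theorem ffo_factor {X Y : Type} {n m : ℕ} (h : Fin n → Y → ff_Qb)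
    (hind : LinearIndependent ff_Qb h) (P : Submodule (ff_R ℓ) (X → ff_Qb))
    (Hy : Submodule (ff_R ℓ) (Y → ff_Qb))
    (hspan : ∀ φ ∈ Hy, ∃ c : Fin n → ff_R ℓ, φ = ∑ j, c j • h j)
    (F : X → Y → ff_Qb) (a : Fin m → X → ff_Qb) (b : Fin m → Y → ff_Qb)
    (ha : ∀ i, a i ∈ P) (hb : ∀ i, b i ∈ Hy) (hF : ∀ x y, F x y = ∑ i, a i x * b i y) :
    ∃ g : Fin n → X → ff_Qb, (∀ j, g j ∈ P) ∧ (∀ x y, F x y = ∑ j, g j x * h j y) ∧
      ∀ x x', (∀ y, F x y = F x' y) → ∀ j, g j x = g j x' := by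
  choose c hc using fun i => hspan (b i) (hb i)
  have hFg : ∀ x y, F x y = ∑ j, (fun j => ∑ i, c i j • a i : Fin n → X → ff_Qb) j x * h j y := by
    intro x y
    rw [hF]
    have h1 : ∀ i, a i x * b i y = ∑ j, (c i j • a i) x * h j y := by
      intro i
      rw [hc i, Finset.sum_apply, Finset.mul_sum]
      refine Finset.sum_congr rfl fun j _ => ?_
      simp only [Pi.smul_apply, Algebra.smul_def]
      ring
    simp only [h1]
    rw [Finset.sum_comm]
    refine Finset.sum_congr rfl fun j _ => ?_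
    rw [Finset.sum_apply, Finset.sum_mul]
  generalize hg : (fun j => ∑ i, c i j • a i : Fin n → X → ff_Qb) = g at hFg
  have hgP : ∀ j, g j ∈ P := by
    intro j
    rw [← hg]
    exact Submodule.sum_mem _ fun i _ => Submodule.smul_mem _ _ (ha i)
  refine ⟨g, hgP, hFg, fun x x' hxx' j => ?_⟩
  have h1 : ∑ j, (g j x - g j x') • h j = 0 := by
    funext y
    have := hxx' y
    rw [hFg x y, hFg x' y] at this
    simp only [Finset.sum_apply, Pi.smul_apply, smul_eq_mul, Pi.zero_apply, sub_mul,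
      Finset.sum_sub_distrib]
    rw [this, sub_self]
  exact sub_eq_zero.1 (Fintype.linearIndependent_iff.1 hind _ h1 j)

/-! ### (b) quotients -/

section quot

variable {M M'' : Type} [AddCommGroup M] [DistribMulAction ff_GQ M]
  [AddCommGroup M''] [DistribMulAction ff_GQ M''] (π : M →+ M'')

theorem ffo_pull_injective (hsurj : Function.Surjective π) :
    Function.Injective (ffo_pull ℓ π) := by
  intro ψ₁ ψ₂ h
  funext z
  obtain ⟨x, rfl⟩ := hsurj z
  exact congrFun h x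

theorem ffo_quot_equiv (hsurj : Function.Surjective π)
    (heq : ∀ (σ : ff_GQ) (x : M), π (σ • x) = σ • π x)
    (H : Subalgebra (ff_R ℓ) (M → ff_Qb)) (hH : ff_IsOrder ℓ M H) :
    ∀ ψ ∈ H.comap (ffo_pull ℓ π), ∀ (σ : ff_GQ) (z : M''), ψ (σ • z) = σ (ψ z) := by
  intro ψ hψ σ z
  obtain ⟨x, rfl⟩ := hsurj z
  have := hH.equiv _ ((Subalgebra.mem_comap _ _ _).1 hψ) σ x
  simpa only [ffo_pull_apply, heq] using this

theorem ffo_quot_fin (hsurj : Function.Surjective π)
    (H : Subalgebra (ff_R ℓ) (M → ff_Qb)) (hH : ff_IsOrder ℓ M H) :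
    Module.Finite (ff_R ℓ) (H.comap (ffo_pull ℓ π)) := by
  have := hH.fin
  have hN : IsNoetherian (ff_R ℓ) H := isNoetherian_of_isNoetherianRing_of_finite _ _
  let lin : ↥(H.comap (ffo_pull ℓ π)) →ₗ[ff_R ℓ] ↥H :=
    ((ffo_pull ℓ π).toLinearMap.comp (H.comap (ffo_pull ℓ π)).val.toLinearMap).codRestrict
      (Subalgebra.toSubmodule H) (fun ψ => (Subalgebra.mem_comap _ _ _).1 ψ.2)
  have hinj : Function.Injective lin := by
    intro ψ₁ ψ₂ h
    apply Subtype.ext
    apply ffo_pull_injective ℓ π hsurj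
    exact congrArg Subtype.val h
  exact Module.Finite.of_injective lin hinj

theorem ffo_isOrder_quot [Finite M] (hsurj : Function.Surjective π)
    (heq : ∀ (σ : ff_GQ) (x : M), π (σ • x) = σ • π x)
    (hopen : ∀ x : M, ∃ K : IntermediateField ℚ ff_Qb, FiniteDimensional ℚ K ∧
      ∀ σ ∈ K.fixingSubgroup, σ • x = x)
    (H : Subalgebra (ff_R ℓ) (M → ff_Qb)) (hH : ff_IsOrder ℓ M H) :
    ff_IsOrder ℓ M'' (H.comap (ffo_pull ℓ π)) := by
  classical
  have hequiv'' := ffo_quot_equiv ℓ π hsurj heq H hH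
  have hfin'' := ffo_quot_fin ℓ π hsurj H hH
  have hopen'' : ∀ z : M'', ∃ K : IntermediateField ℚ ff_Qb, FiniteDimensional ℚ K ∧
      ∀ σ ∈ K.fixingSubgroup, σ • z = z := by
    intro z
    obtain ⟨x, rfl⟩ := hsurj z
    obtain ⟨K, hK, hKx⟩ := hopen x
    exact ⟨K, hK, fun σ hσ => by rw [← heq, hKx σ hσ]⟩
  -- functions in `H` constant on the fibres of `π` descend
  have hdesc : ∀ g ∈ H, (∀ x x', π x = π x' → g x = g x') →
      ∃ g'' ∈ H.comap (ffo_pull ℓ π), ∀ x, g'' (π x) = g x := by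
    intro g hg hconst
    have hg'' : ∀ x, (fun z => g (Function.surjInv hsurj z)) (π x) = g x := fun x =>
      hconst _ _ (Function.surjInv_eq hsurj (π x))
    refine ⟨fun z => g (Function.surjInv hsurj z), ?_, hg''⟩
    rw [Subalgebra.mem_comap]
    have : ffo_pull ℓ π (fun z => g (Function.surjInv hsurj z)) = g := funext hg''
    rw [this]
    exact hg
  refine ⟨hequiv'', hfin'', ?_, ?_⟩
  · -- separation
    intro z w hzw
    obtain ⟨ψ₀, hψ₀, hne⟩ := ffo_exists_equivariant_sep hopen'' z w hzw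
    have hf₀ : ∀ (σ : ff_GQ) (x : M), (ffo_pull ℓ π ψ₀) (σ • x) = σ (ffo_pull ℓ π ψ₀ x) := by
      intro σ x
      simp only [ffo_pull_apply, heq, hψ₀]
    obtain ⟨d, hd0, hd⟩ := ffo_exists_smul_mem ℓ H hH _ hf₀
    refine ⟨d • ψ₀, ?_, ?_⟩
    · rw [Subalgebra.mem_comap, map_smul]
      exact hd
    · have hd' : algebraMap (ff_R ℓ) ff_Qb d ≠ 0 := by
        intro h0
        apply hd0
        have : algebraMap ℚ ff_Qb (d : ℚ) = 0 := h0
        have h1 : (d : ℚ) = 0 := by simpa using this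
        exact Subtype.ext h1
      simp only [Pi.smul_apply, Algebra.smul_def]
      exact fun h => hne (mul_left_cancel₀ hd' h)
  · -- comultiplication
    intro ψ hψ
    obtain ⟨n₀, a, b, ha, hb, hab⟩ := hH.comul _ ((Subalgebra.mem_comap _ _ _).1 hψ)
    have hfinH : Module.Finite (ff_R ℓ) (Subalgebra.toSubmodule H) := hH.fin
    obtain ⟨n, h, hmem, hspan, hind⟩ := ffo_basis ℓ (Subalgebra.toSubmodule H) hH.equiv
    have hfinH'' : Module.Finite (ff_R ℓ)
        (Subalgebra.toSubmodule (H.comap (ffo_pull ℓ π))) := hfin''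
    obtain ⟨n', h', hmem', hspan', hind'⟩ :=
      ffo_basis ℓ (Subalgebra.toSubmodule (H.comap (ffo_pull ℓ π))) hequiv''
    -- first step
    obtain ⟨g, hgH, hFg, hgconst⟩ := ffo_factor ℓ h hind (Subalgebra.toSubmodule H)
      (Subalgebra.toSubmodule H) hspan (fun x y => ψ (π x + π y)) a b ha hb
      (fun x y => by
        have := hab x y
        simpa only [ffo_pull_apply, map_add] using this)
    have hg'' : ∀ j, ∃ g'' ∈ H.comap (ffo_pull ℓ π), ∀ x, g'' (π x) = g j x := fun j =>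
      hdesc (g j) (hgH j) fun x x' hxx' => hgconst x x' (fun y => by simp only [hxx']) j
    choose g'' hg''mem hg'' using hg''
    -- second step
    obtain ⟨f, hfH, hFf, hfconst⟩ := ffo_factor ℓ h' hind' (Subalgebra.toSubmodule H)
      (Subalgebra.toSubmodule (H.comap (ffo_pull ℓ π))) hspan'
      (fun y z => ∑ j, h j y * g'' j z) h g'' hmem hg''mem (fun y z => rfl)
    have hF'' : ∀ x y, (∑ j, h j y * g'' j (π x)) = ψ (π x + π y) := by
      intro x y
      rw [hFg x y]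
      refine Finset.sum_congr rfl fun j _ => ?_
      rw [hg'' j x, mul_comm]
    have hf'' : ∀ k, ∃ f'' ∈ H.comap (ffo_pull ℓ π), ∀ y, f'' (π y) = f k y := fun k =>
      hdesc (f k) (hfH k) fun y y' hyy' => hfconst y y' (fun z => by
        obtain ⟨x, rfl⟩ := hsurj z
        show (∑ j, h j y * g'' j (π x)) = ∑ j, h j y' * g'' j (π x)
        rw [hF'' x y, hF'' x y', hyy']) k
    choose f'' hf''mem hf'' using hf''
    refine ⟨n', h', f'', hmem', hf''mem, fun z w => ?_⟩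
    obtain ⟨x, rfl⟩ := hsurj z
    obtain ⟨y, rfl⟩ := hsurj w
    rw [← hF'' x y]
    have := hFf y (π x)
    rw [this]
    refine Finset.sum_congr rfl fun k _ => ?_
    rw [hf'' k y, mul_comm]

/-- **[HO+] (b)** an order passes to quotients (of a `G_ℚ`-module with open stabilisers). -/
theorem ffo_quot [Finite M] (hsurj : Function.Surjective π)
    (heq : ∀ (σ : ff_GQ) (x : M), π (σ • x) = σ • π x)
    (hopen : ∀ x : M, ∃ K : IntermediateField ℚ ff_Qb, FiniteDimensional ℚ K ∧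
      ∀ σ ∈ K.fixingSubgroup, σ • x = x)
    (h : ffo_HasOrder ℓ M) : ffo_HasOrder ℓ M'' := by
  obtain ⟨H, hH⟩ := h
  exact ⟨_, ffo_isOrder_quot ℓ π hsurj heq hopen H hH⟩

/-- **[HO+]** an order passes to subquotients. -/
theorem ffo_subquot {M' : Type} [AddCommGroup M'] [DistribMulAction ff_GQ M'] [Finite M]
    (hopen : ∀ x : M, ∃ K : IntermediateField ℚ ff_Qb, FiniteDimensional ℚ K ∧
      ∀ σ ∈ K.fixingSubgroup, σ • x = x)
    (h : ffo_HasOrder ℓ M)
    (ι : M' →+ M) (hinj : Function.Injective ι)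
    (heqι : ∀ (σ : ff_GQ) (x : M'), ι (σ • x) = σ • ι x)
    (π' : M' →+ M'') (hsurj : Function.Surjective π')
    (heqπ : ∀ (σ : ff_GQ) (x : M'), π' (σ • x) = σ • π' x) : ffo_HasOrder ℓ M'' := by
  have : Finite M' := Finite.of_injective ι hinj
  refine ffo_quot ℓ π' hsurj heqπ (fun x => ?_) (ffo_sub ℓ ι hinj heqι h)
  obtain ⟨K, hK, hKx⟩ := hopen (ι x)
  exact ⟨K, hK, fun σ hσ => hinj (by rw [heqι, hKx σ hσ])⟩

end quot

end ring

end Fermat.Agent.FF
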